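import Mathlib
import Fermat.Prelude.Def_GaloisRep_Residual

set_option autoImplicit false

namespace Fermat.Agent.S53

open scoped TensorProduct

/-- Burnside over an algebraically closed field, for a subalgebra acting irreducibly. -/
theorem subalgebra_eq_top_of_irreducible {K V : Type*} [Field K] [IsAlgClosed K]
    [AddCommGroup V] [Module K V] [FiniteDimensional K V] [Nontrivial V]
    (A : Subalgebra K (Module.End K V))
    (hirr : ∀ W : Submodule K V, (∀ a ∈ A, ∀ x ∈ W, a x ∈ W) → W = ⊥ ∨ W = ⊤) :
    A = ⊤ := by
  have hs : IsSimpleModule A V := by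
    rw [isSimpleModule_iff]
    refine ⟨fun W => ?_⟩
    have h := hirr (W.restrictScalars K) (fun a ha x hx => by
      have : (⟨a, ha⟩ : A) • x ∈ W := W.smul_mem _ hx
      exact this)
    rcases h with h | h
    · left
      exact (Submodule.restrictScalars_eq_bot_iff K A V).1 h
    · right
      exact (Submodule.restrictScalars_eq_top_iff K A V).1 h
  have hschur := IsSimpleModule.algebraMap_end_bijective_of_isAlgClosed (A := A) (V := V) K
  have hfin : Module.Finite (Module.End A V) V := Module.Finite.of_restrictScalars_finite K _ _
  have hdens := Module.Finite.toModuleEnd_moduleEnd_surjective (R := A) (M := V)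
  rw [eq_top_iff]
  intro f _
  let f' : Module.End (Module.End A V) V :=
    { toFun := f
      map_add' := f.map_add
      map_smul' := fun φ v => by
        obtain ⟨c, rfl⟩ := hschur.2 φ
        simp }
  obtain ⟨a, ha⟩ := hdens f'
  have : (a : Module.End K V) = f := by
    ext v
    have := congrArg (fun g : Module.End (Module.End A V) V => g v) ha
    exact this
  rw [← this]
  exact a.2

/-- The span of the image of a monoid homomorphism into an endomorphism algebra, over an
algebraically closed field, is everything as soon as the action is irreducible. -/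
theorem span_range_eq_top_of_irreducible {K V G : Type*} [Field K] [IsAlgClosed K]
    [AddCommGroup V] [Module K V] [FiniteDimensional K V] [Nontrivial V] [Monoid G]
    (ρ : G →* Module.End K V)
    (hirr : ∀ W : Submodule K V, (∀ g : G, ∀ x ∈ W, ρ g x ∈ W) → W = ⊥ ∨ W = ⊤) :
    Submodule.span K (Set.range ρ) = ⊤ := by
  have h1 : Algebra.adjoin K (Set.range ρ) = ⊤ :=
    subalgebra_eq_top_of_irreducible _ (fun W hW =>
      hirr W (fun g x hx => hW _ (Algebra.subset_adjoin (Set.mem_range_self g)) x hx))
  have h2 := Algebra.adjoin_eq_span K (Set.range ρ)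
  rw [h1] at h2
  have h3 : (Submonoid.closure (Set.range ρ) : Set (Module.End K V)) = Set.range ρ := by
    rw [← MonoidHom.coe_mrange, Submonoid.closure_eq]
  rw [h3] at h2
  rw [← h2]
  rfl

/-- Descent of "the span is everything" from a field extension, in matrix form. -/
theorem span_eq_top_of_span_baseChange_eq_top {k K V : Type*} [Field k] [Field K] [Algebra k K]
    [AddCommGroup V] [Module k V] {ι : Type*} [Fintype ι] [DecidableEq ι]
    (e : Module.Basis ι k V) (s : Set (Module.End k V))
    (h : Submodule.span K ((fun f : Module.End k V => f.baseChange K) '' s) = ⊤) :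
    Submodule.span k s = ⊤ := by
  by_contra hne
  have hlt : Submodule.span k s < ⊤ := lt_top_iff_ne_top.mpr hne
  obtain ⟨φ, hφ0, hφ⟩ := Submodule.exists_le_ker_of_lt_top _ hlt
  -- coefficients of `φ` in the matrix-unit basis
  set c : ι → ι → k := fun i j => φ ((LinearMap.toMatrix e e).symm (Matrix.single i j 1)) with hc
  have hφ_eq : ∀ f : Module.End k V, φ f = ∑ i, ∑ j, LinearMap.toMatrix e e f i j * c i j := by
    intro f
    have hf : f = (LinearMap.toMatrix e e).symm (LinearMap.toMatrix e e f) := by simp
    conv_lhs => rw [hf, Matrix.matrix_eq_sum_single (LinearMap.toMatrix e e f)]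
    simp only [map_sum]
    refine Finset.sum_congr rfl fun i _ => Finset.sum_congr rfl fun j _ => ?_
    have : Matrix.single i j (LinearMap.toMatrix e e f i j) =
        (LinearMap.toMatrix e e f i j) • Matrix.single i j (1 : k) := by
      rw [Matrix.smul_single, smul_eq_mul, mul_one]
    rw [this, map_smul, map_smul, smul_eq_mul]
  let eK := Algebra.TensorProduct.basis K e
  let Φ : Module.End K (K ⊗[k] V) →ₗ[K] K :=
    { toFun := fun F => ∑ i, ∑ j, LinearMap.toMatrix eK eK F i j * algebraMap k K (c i j)
      map_add' := fun F F' => by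
        simp only [map_add, Matrix.add_apply, add_mul, Finset.sum_add_distrib]
      map_smul' := fun a F => by
        simp only [map_smul, Matrix.smul_apply, smul_eq_mul, RingHom.id_apply, Finset.mul_sum,
          mul_assoc] }
  have hΦs : ∀ f ∈ s, Φ (f.baseChange K) = 0 := by
    intro f hf
    have h0 : φ f = 0 := hφ (Submodule.subset_span hf)
    show ∑ i, ∑ j, LinearMap.toMatrix eK eK (f.baseChange K) i j * algebraMap k K (c i j) = 0
    rw [LinearMap.toMatrix_baseChange]
    simp only [Matrix.map_apply, ← map_mul, ← map_sum]
    rw [← hφ_eq f, h0, map_zero]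
  have hΦ0 : Φ = 0 := by
    have : Submodule.span K ((fun f : Module.End k V => f.baseChange K) '' s) ≤ LinearMap.ker Φ := by
      rw [Submodule.span_le]
      rintro _ ⟨f, hf, rfl⟩
      exact hΦs f hf
    rw [h, top_le_iff] at this
    exact LinearMap.ker_eq_top.mp this
  apply hφ0
  have hc0 : ∀ i j, c i j = 0 := by
    intro i j
    have h1 : Φ ((LinearMap.toMatrix eK eK).symm (Matrix.single i j 1)) = 0 := by
      rw [hΦ0]; rfl
    have h2 : Φ ((LinearMap.toMatrix eK eK).symm (Matrix.single i j 1)) = algebraMap k K (c i j) := by
      show ∑ i', ∑ j', LinearMap.toMatrix eK eK ((LinearMap.toMatrix eK eK).symm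
        (Matrix.single i j 1)) i' j' * algebraMap k K (c i' j') = _
      rw [LinearEquiv.apply_symm_apply]
      rw [Finset.sum_eq_single i, Finset.sum_eq_single j]
      · simp
      · intro j' _ hj'
        simp [Ne.symm hj']
      · intro h; exact absurd (Finset.mem_univ _) h
      · intro i' _ hi'
        refine Finset.sum_eq_zero fun j' _ => ?_
        simp [Ne.symm hi']
      · intro h; exact absurd (Finset.mem_univ _) h
    rw [h2] at h1
    exact (map_eq_zero_iff _ (algebraMap k K).injective).mp h1
  ext f
  rw [hφ_eq f]
  simp [hc0]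

/-- **Burnside** for the residual representation: absolute irreducibility forces the image of
the Galois group to span the full endomorphism algebra. -/
theorem burnside_span_eq_top {k : Type} [Field k] (ρbar : ResidualGaloisRep k)
    (habs : ρbar.IsAbsolutelyIrreducible) :
    Submodule.span k (Set.range ρbar.ρ) = (⊤ : Submodule k (Module.End k ρbar.V)) := by
  classical
  let K := AlgebraicClosure k
  let ρK := ρbar.baseChange K
  have : Nontrivial ρK.V := by
    apply Module.nontrivial_of_finrank_pos (R := K)
    rw [ρK.finrank_eq]; norm_num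
  have hK : Submodule.span K (Set.range ρK.ρ) = ⊤ :=
    span_range_eq_top_of_irreducible ρK.ρ habs
  let e : Module.Basis (Fin 2) k ρbar.V := Module.finBasisOfFinrankEq k ρbar.V ρbar.finrank_eq
  apply span_eq_top_of_span_baseChange_eq_top (K := K) e
  have : (fun f : Module.End k ρbar.V => f.baseChange K) '' Set.range ρbar.ρ = Set.range ρK.ρ := by
    ext F
    constructor
    · rintro ⟨_, ⟨g, rfl⟩, rfl⟩
      exact ⟨g, rfl⟩
    · rintro ⟨g, rfl⟩
      exact ⟨_, ⟨g, rfl⟩, rfl⟩
  rw [this]
  exact hK

end Fermat.Agent.S53
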