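import Fermat.Agent.S53.Normalize

/-!
# S53: definitions shared by the final assembly

`IsNDFam D 𝒟 A y` : `y` is the entry family of a normalised deformation of type `𝒟` over `A`.
`HypU1`, `HypU2` : the two properties of a pro-representing pair `(R, u)` used by the assembly.
-/

set_option autoImplicit false
set_option linter.unusedSectionVars false

namespace Fermat.Agent.S53.Assembly

open IsLocalRing GaloisRep Fermat.Agent.S53

/-- The index set of matrix entries. -/
abbrev Idx : Type := Gal × Fin 2 × Fin 2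

variable {𝒪 : Type} [CommRing 𝒪] [IsLocalRing 𝒪]

/-- `y` is the entry family (relative to the fixed lift `D.c`) of a normalised deformation of
type `𝒟` over `A`. -/
def IsNDFam (D : NormData 𝒪)
    (𝒟 : ∀ ⦃A : Type⦄ [CommRing A] [IsLocalRing A] [Algebra 𝒪 A], GaloisRepAdic A → Prop)
    (A : Type) [CommRing A] [IsLocalRing A] [Algebra 𝒪 A] (y : Idx → A) : Prop :=
  ∃ (r : Gal →* M2 A) (hr : MatCont r), IsLiftOf D.c r ∧ IsNormalized D r ∧ 𝒟 (ofMat r hr) ∧
    ∀ σ i j, y (σ, i, j) = r σ i j - algebraMap 𝒪 A (D.c σ i j)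

/-- (U2): every local `𝒪`-algebra map from `R` to a test algebra carries `u` to the entry
family of a normalised deformation. -/
def HypU2 (𝒟 : ∀ ⦃A : Type⦄ [CommRing A] [IsLocalRing A] [Algebra 𝒪 A], GaloisRepAdic A → Prop)
    (D : NormData 𝒪) {R : Type} [CommRing R] [Algebra 𝒪 R] (u : Idx → R) : Prop :=
  ∀ (B : Type) [CommRing B] [IsLocalRing B] [Algebra 𝒪 B], IsArtinianTestAlgebra 𝒪 B →
    ∀ q : R →ₐ[𝒪] B, IsLocalHom (q : R →+* B) → IsNDFam D 𝒟 B (q ∘ u)

/-- (U1'): a family `y` over a complete Noetherian local `𝒪`-algebra `A`, all of whose images in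
Artinian quotients of `A` are entry families of normalised deformations, is `φ ∘ u` for a unique
local `𝒪`-algebra map `φ : R → A`. -/
def HypU1 (𝒟 : ∀ ⦃A : Type⦄ [CommRing A] [IsLocalRing A] [Algebra 𝒪 A], GaloisRepAdic A → Prop)
    (D : NormData 𝒪) {R : Type} [CommRing R] [Algebra 𝒪 R] (u : Idx → R) : Prop :=
  ∀ (A : Type) [CommRing A] [IsLocalRing A] [IsNoetherianRing A]
    [IsAdicComplete (maximalIdeal A) A] [Algebra 𝒪 A] [IsLocalHom (algebraMap 𝒪 A)],
    Function.Surjective (IsLocalRing.residue A ∘ algebraMap 𝒪 A) →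
    ∀ y : Idx → A,
      (∀ (B : Type) [CommRing B] [IsLocalRing B] [Algebra 𝒪 B], IsArtinianTestAlgebra 𝒪 B →
        ∀ q : A →ₐ[𝒪] B, IsLocalHom (q : A →+* B) → Function.Surjective q →
          IsNDFam D 𝒟 B (q ∘ y)) →
      ∃! φ : R →ₐ[𝒪] A, IsLocalHom (φ : R →+* A) ∧ ∀ x, φ (u x) = y x

end Fermat.Agent.S53.Assembly
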