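import Mathlib
import Fermat.Prelude.Def_GaloisRep_DeformationCondition

/-!
# Tangent separation implies generation (S53 helper module)

Pure commutative algebra used for the universal deformation ring:

* `resTo`, `exists_tangentHom` : construction of `𝒪`-algebra maps into the dual numbers
  `k[ε]` (with exactly the `Algebra 𝒪 k[ε]` instance of `GaloisRep.TangentFinite`).
* `subalgebra_eq_top_of_tangent_sep` : a subalgebra `B₀` of an Artinian test algebra `B`
  such that any two `𝒪`-algebra maps `B → k[ε]` agreeing on `B₀` are equal is all of `B`.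
* `isLocalHom_of_residue_surjective` : `𝒪`-algebra maps between local `𝒪`-algebras with residue
  field generated by `𝒪` are local.
* `dualNumber_isArtinianTestAlgebra`.
* `exists_finset_separating`.
-/

set_option autoImplicit false
set_option linter.style.haveILetI false
set_option linter.unusedSectionVars false

namespace Fermat.Agent.S53.TangentGen

open IsLocalRing

section ResTo

variable {𝒪 : Type} [CommRing 𝒪] [IsLocalRing 𝒪]
variable {B : Type} [CommRing B] [IsLocalRing B] [Algebra 𝒪 B]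

theorem residueFieldMap_bijective (hloc : IsLocalHom (algebraMap 𝒪 B))
    (hsurj : Function.Surjective (IsLocalRing.residue B ∘ algebraMap 𝒪 B)) :
    Function.Bijective (IsLocalRing.ResidueField.map (algebraMap 𝒪 B)) := by
  refine ⟨(IsLocalRing.ResidueField.map (algebraMap 𝒪 B)).injective, fun z => ?_⟩
  obtain ⟨b, rfl⟩ := IsLocalRing.residue_surjective z
  obtain ⟨c, hc⟩ := hsurj (IsLocalRing.residue B b)
  refine ⟨IsLocalRing.residue 𝒪 c, ?_⟩
  rw [IsLocalRing.ResidueField.map_residue]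
  exact hc

/-- The residue map of a local `𝒪`-algebra with the same residue field, with values in the
residue field of `𝒪`. -/
noncomputable def resTo (hloc : IsLocalHom (algebraMap 𝒪 B))
    (hsurj : Function.Surjective (IsLocalRing.residue B ∘ algebraMap 𝒪 B)) :
    B →+* ResidueField 𝒪 :=
  ((RingEquiv.ofBijective (IsLocalRing.ResidueField.map (algebraMap 𝒪 B))
    (residueFieldMap_bijective hloc hsurj)).symm : ResidueField B →+* ResidueField 𝒪).comp
    (IsLocalRing.residue B)

theorem resTo_algebraMap (hloc : IsLocalHom (algebraMap 𝒪 B))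
    (hsurj : Function.Surjective (IsLocalRing.residue B ∘ algebraMap 𝒪 B)) (c : 𝒪) :
    resTo hloc hsurj (algebraMap 𝒪 B c) = IsLocalRing.residue 𝒪 c := by
  unfold resTo
  rw [RingHom.comp_apply]
  have : IsLocalRing.residue B (algebraMap 𝒪 B c) =
      RingEquiv.ofBijective (IsLocalRing.ResidueField.map (algebraMap 𝒪 B))
        (residueFieldMap_bijective hloc hsurj) (IsLocalRing.residue 𝒪 c) := by
    rw [RingEquiv.ofBijective_apply, IsLocalRing.ResidueField.map_residue]
  rw [this]
  exact RingEquiv.symm_apply_apply _ _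

theorem resTo_eq_zero_iff (hloc : IsLocalHom (algebraMap 𝒪 B))
    (hsurj : Function.Surjective (IsLocalRing.residue B ∘ algebraMap 𝒪 B)) (y : B) :
    resTo hloc hsurj y = 0 ↔ y ∈ maximalIdeal B := by
  unfold resTo
  rw [RingHom.comp_apply]
  rw [← IsLocalRing.residue_eq_zero_iff]
  constructor
  · intro h
    have := congrArg (RingEquiv.ofBijective (IsLocalRing.ResidueField.map (algebraMap 𝒪 B))
        (residueFieldMap_bijective hloc hsurj)) h
    simpa using this
  · intro h
    rw [h]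
    simp

theorem exists_sub_mem_maximalIdeal
    (hsurj : Function.Surjective (IsLocalRing.residue B ∘ algebraMap 𝒪 B)) (x : B) :
    ∃ c : 𝒪, x - algebraMap 𝒪 B c ∈ maximalIdeal B := by
  obtain ⟨c, hc⟩ := hsurj (IsLocalRing.residue B x)
  refine ⟨c, ?_⟩
  rw [← IsLocalRing.residue_eq_zero_iff, map_sub, sub_eq_zero]
  exact hc.symm

theorem algebraMap_mem_maximalIdeal (hloc : IsLocalHom (algebraMap 𝒪 B)) {c : 𝒪}
    (hc : c ∈ maximalIdeal 𝒪) : algebraMap 𝒪 B c ∈ maximalIdeal B := by
  rw [IsLocalRing.mem_maximalIdeal, mem_nonunits_iff] at hc ⊢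
  intro h
  exact hc (hloc.map_nonunit c h)

end ResTo

section Functional

variable {𝒪 : Type} [CommRing 𝒪] [IsLocalRing 𝒪]
variable {B : Type} [CommRing B] [Algebra 𝒪 B]

/-- If an `𝒪`-submodule `N` of `B` contains `𝔪_𝒪 • B` and `x₀ ∉ N` then there is an
`𝒪`-linear functional to `k` vanishing on `N` and not at `x₀`. -/
theorem exists_functional (N : Submodule 𝒪 B)
    (hN : ∀ c ∈ maximalIdeal 𝒪, ∀ x : B, c • x ∈ N) (x₀ : B) (hx₀ : x₀ ∉ N) :
    ∃ F : B →ₗ[𝒪] ResidueField 𝒪, (∀ x ∈ N, F x = 0) ∧ F x₀ ≠ 0 := by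
  have hQ : Module.IsTorsionBySet 𝒪 (B ⧸ N) (maximalIdeal 𝒪 : Set 𝒪) := by
    intro q ⟨c, hc⟩
    obtain ⟨x, rfl⟩ := N.mkQ_surjective q
    show c • N.mkQ x = 0
    rw [← map_smul]
    exact (Submodule.Quotient.mk_eq_zero N).mpr (hN c hc x)
  letI : Module (ResidueField 𝒪) (B ⧸ N) := hQ.module
  have hne : N.mkQ x₀ ≠ 0 := fun h => hx₀ ((Submodule.Quotient.mk_eq_zero N).mp h)
  have hex : ∃ φ : Module.Dual (ResidueField 𝒪) (B ⧸ N), φ (N.mkQ x₀) ≠ 0 := by
    by_contra hcon
    apply hne
    rw [← Module.forall_dual_apply_eq_zero_iff (ResidueField 𝒪)]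
    intro φ
    by_contra h
    exact hcon ⟨φ, h⟩
  obtain ⟨φ, hφ⟩ := hex
  refine ⟨{ toFun := fun x => φ (N.mkQ x)
            map_add' := fun x y => by rw [map_add, map_add]
            map_smul' := fun c x => ?_ }, fun x hx => ?_, hφ⟩
  · simp only [RingHom.id_apply]
    have h1 : N.mkQ (c • x) = (IsLocalRing.residue 𝒪 c) • N.mkQ x := by
      rw [map_smul]
      rfl
    rw [h1, map_smul]
    rfl
  · show φ (N.mkQ x) = 0
    have h0 : N.mkQ x = 0 := (Submodule.Quotient.mk_eq_zero N).mpr hx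
    rw [h0, map_zero]

end Functional

section TangentHom

variable {𝒪 : Type} [CommRing 𝒪] [IsLocalRing 𝒪]
variable {B : Type} [CommRing B] [IsLocalRing B] [Algebra 𝒪 B]

/-- The `𝒪`-algebra structure on the dual numbers over the residue field which is used in
`GaloisRep.TangentFinite`. -/
@[reducible] noncomputable def dualNumberAlgebra (𝒪 : Type) [CommRing 𝒪] [IsLocalRing 𝒪] :
    Algebra 𝒪 (DualNumber (ResidueField 𝒪)) :=
  ((algebraMap (ResidueField 𝒪) (DualNumber (ResidueField 𝒪))).comp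
    (algebraMap 𝒪 (ResidueField 𝒪))).toAlgebra

theorem leibniz_of_functional (hloc : IsLocalHom (algebraMap 𝒪 B))
    (hsurj : Function.Surjective (IsLocalRing.residue B ∘ algebraMap 𝒪 B))
    (F : B →ₗ[𝒪] ResidueField 𝒪) (hF1 : ∀ c, F (algebraMap 𝒪 B c) = 0)
    (hF2 : ∀ y ∈ maximalIdeal B, ∀ y' ∈ maximalIdeal B, F (y * y') = 0) (x x' : B) :
    F (x * x') = resTo hloc hsurj x * F x' + resTo hloc hsurj x' * F x := by
  obtain ⟨c, hc⟩ := exists_sub_mem_maximalIdeal hsurj x
  obtain ⟨c', hc'⟩ := exists_sub_mem_maximalIdeal hsurj x'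
  set y := x - algebraMap 𝒪 B c with hy
  set y' := x' - algebraMap 𝒪 B c' with hy'
  have hx : x = algebraMap 𝒪 B c + y := by rw [hy]; ring
  have hx' : x' = algebraMap 𝒪 B c' + y' := by rw [hy']; ring
  have hFx : F x = F y := by rw [hx, map_add, hF1, zero_add]
  have hFx' : F x' = F y' := by rw [hx', map_add, hF1, zero_add]
  have hrx : resTo hloc hsurj x = IsLocalRing.residue 𝒪 c := by
    rw [hx, map_add, resTo_algebraMap, (resTo_eq_zero_iff hloc hsurj y).mpr hc, add_zero]
  have hrx' : resTo hloc hsurj x' = IsLocalRing.residue 𝒪 c' := by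
    rw [hx', map_add, resTo_algebraMap, (resTo_eq_zero_iff hloc hsurj y').mpr hc', add_zero]
  have hprod : x * x' = algebraMap 𝒪 B (c * c') + c • y' + c' • y + y * y' := by
    rw [hx, hx', Algebra.smul_def, Algebra.smul_def, map_mul]; ring
  rw [hprod, map_add, map_add, map_add, hF1, hF2 y hc y' hc', map_smul, map_smul, hrx, hrx',
    hFx, hFx']
  simp only [zero_add, add_zero]
  rfl

theorem exists_tangentHom (hloc : IsLocalHom (algebraMap 𝒪 B))
    (hsurj : Function.Surjective (IsLocalRing.residue B ∘ algebraMap 𝒪 B))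
    (F : B →ₗ[𝒪] ResidueField 𝒪) (hF1 : ∀ c, F (algebraMap 𝒪 B c) = 0)
    (hF2 : ∀ y ∈ maximalIdeal B, ∀ y' ∈ maximalIdeal B, F (y * y') = 0) :
    letI := dualNumberAlgebra 𝒪
    ∃ t : B →ₐ[𝒪] DualNumber (ResidueField 𝒪),
      ∀ x, t x = TrivSqZeroExt.inl (resTo hloc hsurj x) + TrivSqZeroExt.inr (F x) := by
  letI := dualNumberAlgebra 𝒪
  have hF0 : F 1 = 0 := by
    have := hF1 1
    rwa [map_one] at this
  refine ⟨{ toFun := fun x => TrivSqZeroExt.inl (resTo hloc hsurj x) + TrivSqZeroExt.inr (F x)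
            map_one' := ?_
            map_mul' := ?_
            map_zero' := ?_
            map_add' := ?_
            commutes' := ?_ }, fun x => rfl⟩
  · rw [map_one, hF0]
    simp
  · intro x x'
    rw [map_mul, leibniz_of_functional hloc hsurj F hF1 hF2]
    apply TrivSqZeroExt.ext
    · simp
    · simp [mul_comm]
  · simp
  · intro x x'
    rw [map_add, map_add]
    apply TrivSqZeroExt.ext
    · simp
    · simp
  · intro c
    show TrivSqZeroExt.inl (resTo hloc hsurj (algebraMap 𝒪 B c)) +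
      TrivSqZeroExt.inr (F (algebraMap 𝒪 B c)) = _
    rw [resTo_algebraMap, hF1]
    simp
    rfl

end TangentHom

section Generation

variable {𝒪 : Type} [CommRing 𝒪] [IsLocalRing 𝒪]
variable {B : Type} [CommRing B] [IsLocalRing B] [Algebra 𝒪 B]

/-- First order generation: if tangent vectors are separated by `B₀` then
`𝔪_B ⊆ B₀ + 𝔪_B ^ 2`. -/
theorem mem_sup_sq_of_tangent_sep (hloc : IsLocalHom (algebraMap 𝒪 B))
    (hsurj : Function.Surjective (IsLocalRing.residue B ∘ algebraMap 𝒪 B))
    (B₀ : Subalgebra 𝒪 B)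
    (h : letI := dualNumberAlgebra 𝒪
      ∀ t₁ t₂ : B →ₐ[𝒪] DualNumber (ResidueField 𝒪), (∀ x ∈ B₀, t₁ x = t₂ x) → t₁ = t₂)
    (x₀ : B) :
    x₀ ∈ Subalgebra.toSubmodule B₀ ⊔ ((maximalIdeal B) ^ 2).restrictScalars 𝒪 := by
  letI := dualNumberAlgebra 𝒪
  by_contra hx₀
  set N : Submodule 𝒪 B :=
    Subalgebra.toSubmodule B₀ ⊔ ((maximalIdeal B) ^ 2).restrictScalars 𝒪 with hNdef
  have hB₀N : ∀ x ∈ B₀, x ∈ N := fun x hx =>
    Submodule.mem_sup_left (show x ∈ Subalgebra.toSubmodule B₀ from hx)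
  have hsqN : ∀ x ∈ (maximalIdeal B) ^ 2, x ∈ N := fun x hx =>
    Submodule.mem_sup_right (by simpa using hx)
  have hN : ∀ c ∈ maximalIdeal 𝒪, ∀ x : B, c • x ∈ N := by
    intro c hc x
    obtain ⟨c', hc'⟩ := exists_sub_mem_maximalIdeal hsurj x
    have hx : c • x = algebraMap 𝒪 B (c * c') + algebraMap 𝒪 B c * (x - algebraMap 𝒪 B c') := by
      rw [Algebra.smul_def, map_mul]; ring
    rw [hx]
    refine N.add_mem (hB₀N _ (B₀.algebraMap_mem _)) (hsqN _ ?_)
    rw [pow_two]
    exact Ideal.mul_mem_mul (algebraMap_mem_maximalIdeal hloc hc) hc'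
  obtain ⟨F, hFN, hFx₀⟩ := exists_functional N hN x₀ hx₀
  have hF1 : ∀ c, F (algebraMap 𝒪 B c) = 0 := fun c => hFN _ (hB₀N _ (B₀.algebraMap_mem _))
  have hF2 : ∀ y ∈ maximalIdeal B, ∀ y' ∈ maximalIdeal B, F (y * y') = 0 := fun y hy y' hy' =>
    hFN _ (hsqN _ (by rw [pow_two]; exact Ideal.mul_mem_mul hy hy'))
  obtain ⟨t₁, ht₁⟩ := exists_tangentHom hloc hsurj F hF1 hF2
  obtain ⟨t₂, ht₂⟩ := exists_tangentHom hloc hsurj (0 : B →ₗ[𝒪] ResidueField 𝒪)
    (fun _ => rfl) (fun _ _ _ _ => rfl)
  have hagree : ∀ x ∈ B₀, t₁ x = t₂ x := by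
    intro x hx
    rw [ht₁, ht₂, hFN x (hB₀N x hx)]
    rfl
  have := h t₁ t₂ hagree
  have h2 := DFunLike.congr_fun this x₀
  rw [ht₁, ht₂] at h2
  have h3 := congrArg TrivSqZeroExt.snd h2
  simp at h3
  exact hFx₀ h3

/-- **Generation from tangent separation**: a subalgebra of an Artinian local `𝒪`-algebra
with residue field `k` which separates tangent vectors is everything. -/
theorem subalgebra_eq_top_of_tangent_sep (hB : GaloisRep.IsArtinianTestAlgebra 𝒪 B)
    (B₀ : Subalgebra 𝒪 B)
    (h : letI := dualNumberAlgebra 𝒪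
      ∀ t₁ t₂ : B →ₐ[𝒪] DualNumber (ResidueField 𝒪), (∀ x ∈ B₀, t₁ x = t₂ x) → t₁ = t₂) :
    B₀ = ⊤ := by
  have hloc := hB.isLocalHom
  have hsurj := hB.residue_surjective
  haveI := hB.isArtinian
  -- first order
  have h1 : ∀ u ∈ maximalIdeal B, ∃ b ∈ B₀, b ∈ maximalIdeal B ∧ u - b ∈ maximalIdeal B ^ 2 := by
    intro u hu
    have := mem_sup_sq_of_tangent_sep hloc hsurj B₀ h u
    obtain ⟨b, hb, z, hz, hbz⟩ := Submodule.mem_sup.mp this
    have hz' : z ∈ maximalIdeal B ^ 2 := by simpa using hz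
    have hb' : b ∈ B₀ := hb
    refine ⟨b, hb', ?_, ?_⟩
    · have : b = u - z := by rw [← hbz]; ring
      rw [this]
      exact Ideal.sub_mem _ hu (Ideal.pow_le_self (by norm_num) hz')
    · have : u - b = z := by rw [← hbz]; ring
      rw [this]; exact hz'
  -- all orders
  have hQ : ∀ n : ℕ, ∀ u ∈ maximalIdeal B ^ n,
      ∃ b ∈ B₀, b ∈ maximalIdeal B ^ n ∧ u - b ∈ maximalIdeal B ^ (n + 1) := by
    intro n
    induction n with
    | zero =>
      intro u _
      obtain ⟨c, hc⟩ := exists_sub_mem_maximalIdeal hsurj u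
      exact ⟨algebraMap 𝒪 B c, B₀.algebraMap_mem c, by simp, by simpa using hc⟩
    | succ n ih =>
      intro u hu
      rw [pow_succ] at hu
      refine Submodule.mul_induction_on hu ?_ ?_
      · intro v hv w hw
        obtain ⟨b, hb, hbn, hvb⟩ := ih v hv
        obtain ⟨b', hb', hb'm, hwb'⟩ := h1 w hw
        refine ⟨b * b', B₀.mul_mem hb hb', ?_, ?_⟩
        · rw [pow_succ]; exact Ideal.mul_mem_mul hbn hb'm
        · have : v * w - b * b' = b * (w - b') + (v - b) * b' + (v - b) * (w - b') := by ring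
          rw [this]
          refine Ideal.add_mem _ (Ideal.add_mem _ ?_ ?_) ?_
          · have : maximalIdeal B ^ (n + 1 + 1) = maximalIdeal B ^ n * maximalIdeal B ^ 2 := by
              rw [← pow_add]
            rw [this]; exact Ideal.mul_mem_mul hbn hwb'
          · rw [pow_succ (maximalIdeal B) (n + 1)]; exact Ideal.mul_mem_mul hvb hb'm
          · have h3 : (v - b) * (w - b') ∈ maximalIdeal B ^ (n + 1) * maximalIdeal B ^ 2 :=
              Ideal.mul_mem_mul hvb hwb'
            rw [← pow_add] at h3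
            exact Ideal.pow_le_pow_right (by omega) h3
      · rintro x y ⟨b, hb, hbn, hxb⟩ ⟨b', hb', hb'n, hyb'⟩
        refine ⟨b + b', B₀.add_mem hb hb', Ideal.add_mem _ hbn hb'n, ?_⟩
        have : x + y - (b + b') = (x - b) + (y - b') := by ring
        rw [this]; exact Ideal.add_mem _ hxb hyb'
  have hR : ∀ n : ℕ, ∀ x : B, ∃ b ∈ B₀, x - b ∈ maximalIdeal B ^ n := by
    intro n
    induction n with
    | zero => intro x; exact ⟨0, B₀.zero_mem, by simp⟩
    | succ n ih =>
      intro x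
      obtain ⟨b, hb, hxb⟩ := ih x
      obtain ⟨b', hb', -, hxb'⟩ := hQ n _ hxb
      refine ⟨b + b', B₀.add_mem hb hb', ?_⟩
      have : x - (b + b') = x - b - b' := by ring
      rw [this]; exact hxb'
  obtain ⟨n, hn⟩ := IsArtinianRing.isNilpotent_jacobson_bot (R := B)
  rw [IsLocalRing.jacobson_eq_maximalIdeal ⊥ bot_ne_top] at hn
  rw [eq_top_iff]
  intro x _
  obtain ⟨b, hb, hxb⟩ := hR n x
  rw [hn] at hxb
  have : x = b := by
    have := (Submodule.mem_bot B).mp hxb
    exact sub_eq_zero.mp this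
  rw [this]; exact hb

end Generation

section LocalHom

variable {𝒪 : Type} [CommRing 𝒪]
variable {A B : Type} [CommRing A] [IsLocalRing A] [CommRing B] [IsLocalRing B]
  [Algebra 𝒪 A] [Algebra 𝒪 B]

/-- An `𝒪`-algebra homomorphism between local `𝒪`-algebras, the target having residue field
generated by `𝒪`, maps the maximal ideal into the maximal ideal. -/
theorem map_mem_maximalIdeal_of_residue_surjective
    (hA : Function.Surjective (IsLocalRing.residue A ∘ algebraMap 𝒪 A)) (t : B →ₐ[𝒪] A)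
    {y : B} (hy : y ∈ maximalIdeal B) : t y ∈ maximalIdeal A := by
  let f : B →+* ResidueField A := (IsLocalRing.residue A).comp (t : B →+* A)
  have hf : Function.Surjective f := by
    intro z
    obtain ⟨c, hc⟩ := hA z
    refine ⟨algebraMap 𝒪 B c, ?_⟩
    show IsLocalRing.residue A (t (algebraMap 𝒪 B c)) = z
    rw [AlgHom.commutes]
    exact hc
  have hmax : (RingHom.ker f).IsMaximal := RingHom.ker_isMaximal_of_surjective f hf
  have hker : RingHom.ker f = maximalIdeal B := IsLocalRing.eq_maximalIdeal hmax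
  have : y ∈ RingHom.ker f := by rw [hker]; exact hy
  rw [RingHom.mem_ker] at this
  exact (IsLocalRing.residue_eq_zero_iff _).mp this

/-- An `𝒪`-algebra homomorphism between local `𝒪`-algebras, the target having residue field
generated by `𝒪`, is a local homomorphism. -/
theorem isLocalHom_of_residue_surjective
    (hA : Function.Surjective (IsLocalRing.residue A ∘ algebraMap 𝒪 A)) (t : B →ₐ[𝒪] A) :
    IsLocalHom (t : B →+* A) := by
  refine ⟨fun x hx => ?_⟩
  by_contra hxu
  have hxm : x ∈ maximalIdeal B := (IsLocalRing.mem_maximalIdeal x).mpr hxu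
  have := map_mem_maximalIdeal_of_residue_surjective hA t hxm
  exact ((IsLocalRing.mem_maximalIdeal _).mp this) hx

end LocalHom

section DualNumber

variable (𝒪 : Type) [CommRing 𝒪] [IsLocalRing 𝒪]

theorem dualNumber_mem_maximalIdeal_iff (x : DualNumber (ResidueField 𝒪)) :
    x ∈ maximalIdeal (DualNumber (ResidueField 𝒪)) ↔ TrivSqZeroExt.fst x = 0 := by
  rw [IsLocalRing.mem_maximalIdeal, mem_nonunits_iff, TrivSqZeroExt.isUnit_iff_isUnit_fst,
    isUnit_iff_ne_zero, not_not]

/-- The dual numbers over the residue field form an Artinian test algebra. -/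
theorem dualNumber_isArtinianTestAlgebra :
    letI := dualNumberAlgebra 𝒪
    GaloisRep.IsArtinianTestAlgebra 𝒪 (DualNumber (ResidueField 𝒪)) := by
  letI := dualNumberAlgebra 𝒪
  have halg : ∀ c : 𝒪, algebraMap 𝒪 (DualNumber (ResidueField 𝒪)) c =
      TrivSqZeroExt.inl (IsLocalRing.residue 𝒪 c) := fun c => rfl
  refine ⟨⟨fun c hc => ?_⟩, fun z => ?_, ?_⟩
  · rw [halg, TrivSqZeroExt.isUnit_iff_isUnit_fst, TrivSqZeroExt.fst_inl] at hc
    by_contra hcu
    have : IsLocalRing.residue 𝒪 c = 0 :=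
      (IsLocalRing.residue_eq_zero_iff c).mpr ((IsLocalRing.mem_maximalIdeal c).mpr hcu)
    rw [this] at hc
    exact not_isUnit_zero hc
  · obtain ⟨x, rfl⟩ := IsLocalRing.residue_surjective z
    obtain ⟨c, hc⟩ := IsLocalRing.residue_surjective (TrivSqZeroExt.fst x)
    refine ⟨c, ?_⟩
    show IsLocalRing.residue _ (algebraMap 𝒪 (DualNumber (ResidueField 𝒪)) c) = _
    rw [halg, ← sub_eq_zero, ← map_sub, IsLocalRing.residue_eq_zero_iff,
      dualNumber_mem_maximalIdeal_iff]
    simp [hc]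
  · haveI : Module.Finite (ResidueField 𝒪) (DualNumber (ResidueField 𝒪)) :=
      inferInstanceAs (Module.Finite (ResidueField 𝒪) (ResidueField 𝒪 × ResidueField 𝒪))
    exact IsArtinianRing.of_finite (ResidueField 𝒪) (DualNumber (ResidueField 𝒪))

end DualNumber

section Separating

/-- A finite set of functions is separated by a finite set of points. -/
theorem exists_finset_separating {X Y : Type*} (D : Set (X → Y)) (hD : D.Finite) :
    ∃ S : Finset X, ∀ f ∈ D, ∀ g ∈ D, (∀ x ∈ S, f x = g x) → f = g := by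
  classical
  let w : (X → Y) → (X → Y) → Finset X := fun f g =>
    if h : f ≠ g then {Classical.choose (Function.ne_iff.mp h)} else ∅
  refine ⟨hD.toFinset.biUnion fun f => hD.toFinset.biUnion fun g => w f g, ?_⟩
  intro f hf g hg hfg
  by_contra hne
  have hx := Classical.choose_spec (Function.ne_iff.mp hne)
  apply hx
  apply hfg
  rw [Finset.mem_biUnion]
  refine ⟨f, hD.mem_toFinset.mpr hf, ?_⟩
  rw [Finset.mem_biUnion]
  refine ⟨g, hD.mem_toFinset.mpr hg, ?_⟩
  simp only [w, dif_pos hne, Finset.mem_singleton]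

end Separating

end Fermat.Agent.S53.TangentGen
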