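import Fermat.Agent.S53.NormDataExists
import Fermat.Agent.S53.TangentGen

set_option autoImplicit false
set_option linter.unusedSectionVars false
set_option linter.style.haveILetI false
set_option linter.unusedSimpArgs false

namespace Fermat.Agent.S53

open IsLocalRing GaloisRep

section ResidualPoint

variable {𝒪 : Type} [CommRing 𝒪] [IsLocalRing 𝒪]
variable {ρbar : ResidualGaloisRep (ResidueField 𝒪)}
  {v : Module.Basis (Fin 2) (ResidueField 𝒪) ρbar.V}
variable {𝒟 : ∀ ⦃A : Type⦄ [CommRing A] [IsLocalRing A] [Algebra 𝒪 A], GaloisRepAdic A → Prop}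

/-- The residue field is an Artinian test algebra. -/
theorem residueField_isArtinianTestAlgebra (𝒪 : Type) [CommRing 𝒪] [IsLocalRing 𝒪] :
    IsArtinianTestAlgebra 𝒪 (ResidueField 𝒪) where
  isLocalHom := by
    rw [ResidueField.algebraMap_eq]
    infer_instance
  residue_surjective := by
    intro z
    obtain ⟨y, rfl⟩ := residue_surjective z
    obtain ⟨x, rfl⟩ := residue_surjective y
    exact ⟨x, rfl⟩
  isArtinian := inferInstance

lemma maximalIdeal_field_eq_bot (k : Type) [Field k] : maximalIdeal k = ⊥ :=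
  (Ideal.eq_bot_or_top _).resolve_right (Ideal.IsMaximal.ne_top inferInstance)

/-- (F5) The residual point: the matrices of `ρbar` form a normalized deformation over the
residue field. -/
theorem residual_point (h𝒟 : IsDeformationCondition 𝒪 𝒟)
    (hbar : 𝒟 (GaloisRepAdic.ofResidualGaloisRep ρbar)) (D : NormData 𝒪)
    (hc : IsMatLiftOf ρbar v D.c) :
    ∃ (r : Gal →* M2 (ResidueField 𝒪)) (hr : MatCont r), IsLiftOf D.c r ∧ IsNormalized D r ∧
      𝒟 (ofMat r hr) ∧ ∀ σ i j, r σ i j = residue 𝒪 (D.c σ i j) := by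
  obtain ⟨r, hr, hequiv, hrm⟩ :=
    exists_ofMat_of_basis (GaloisRepAdic.ofResidualGaloisRep ρbar) v
  have hrc : ∀ σ i j, r σ i j = residue 𝒪 (D.c σ i j) := by
    intro σ i j
    rw [hrm, hc σ i j]
    rfl
  have hl : IsLiftOf D.c r := by
    intro σ i j
    rw [hrc]
    simp [ResidueField.algebraMap_eq]
  have hloc : IsLocalHom (algebraMap 𝒪 (ResidueField 𝒪)) :=
    (residueField_isArtinianTestAlgebra 𝒪).isLocalHom
  have hbot := maximalIdeal_field_eq_bot (ResidueField 𝒪)
  refine ⟨r, hr, hl, ⟨?_, ?_, ?_⟩,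
    h𝒟.of_isEquiv (residueField_isArtinianTestAlgebra 𝒪) hequiv hbar, hrc⟩
  · have := lin_a01_mem D hloc hl
    rwa [hbot, Ideal.mem_bot] at this
  · have := lin_a10_mem D hloc hl
    rwa [hbot, Ideal.mem_bot] at this
  · have := lin_b10_mem D hloc hl
    rwa [hbot, Ideal.mem_bot, sub_eq_zero] at this

end ResidualPoint

section Tangent

variable {𝒪 : Type} [CommRing 𝒪] [IsLocalRing 𝒪]
variable {ρbar : ResidualGaloisRep (ResidueField 𝒪)}
  {v : Module.Basis (Fin 2) (ResidueField 𝒪) ρbar.V}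
variable {𝒟 : ∀ ⦃A : Type⦄ [CommRing A] [IsLocalRing A] [Algebra 𝒪 A], GaloisRepAdic A → Prop}

/-- (F4) Finiteness of the set of normalized deformations over the dual numbers. -/
theorem finite_normalized_dualNumber (hfin : TangentFinite 𝒪 ρbar 𝒟) (D : NormData 𝒪)
    (hc : IsMatLiftOf ρbar v D.c) :
    letI := TangentGen.dualNumberAlgebra 𝒪
    Finite {r : Gal →* M2 (DualNumber (ResidueField 𝒪)) //
      ∃ hr : MatCont r, IsLiftOf D.c r ∧ IsNormalized D r ∧ 𝒟 (ofMat r hr)} := by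
  letI := TangentGen.dualNumberAlgebra 𝒪
  have htest := TangentGen.dualNumber_isArtinianTestAlgebra 𝒪
  unfold TangentFinite at hfin
  let ψ : ResidueField 𝒪 →+* ResidueField (DualNumber (ResidueField 𝒪)) :=
    (IsLocalRing.residue (DualNumber (ResidueField 𝒪))).comp
      (algebraMap (ResidueField 𝒪) (DualNumber (ResidueField 𝒪)))
  have hψ : ∀ x : 𝒪, ψ (residue 𝒪 x) =
      residue (DualNumber (ResidueField 𝒪)) (algebraMap 𝒪 (DualNumber (ResidueField 𝒪)) x) :=
    fun x => rfl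
  obtain ⟨S, hS, hSr⟩ : ∃ S : Setoid {ρ : GaloisRepAdic (DualNumber (ResidueField 𝒪)) //
      𝒟 ρ ∧ ρ.residual.IsEquiv (ρbar.baseChangeAlong ψ)},
      Finite (Quotient S) ∧ ∀ a b, S.r a b ↔ a.1.IsEquiv b.1 :=
    ⟨_, hfin, fun _ _ => Iff.rfl⟩
  haveI := hS
  let f : {r : Gal →* M2 (DualNumber (ResidueField 𝒪)) //
        ∃ hr : MatCont r, IsLiftOf D.c r ∧ IsNormalized D r ∧ 𝒟 (ofMat r hr)} → Quotient S :=
    fun x => Quotient.mk S ⟨ofMat x.1 x.2.choose, x.2.choose_spec.2.2,
        residual_isEquiv_of_isLiftOf hc ψ hψ x.2.choose x.2.choose_spec.1⟩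
  refine Finite.of_injective f ?_
  intro x y hxy
  have h := (hSr _ _).mp (Quotient.exact hxy)
  apply Subtype.ext
  exact eq_of_isEquiv_of_isNormalized D htest.isLocalHom x.2.choose y.2.choose
    x.2.choose_spec.1 y.2.choose_spec.1 x.2.choose_spec.2.1 y.2.choose_spec.2.1 h

end Tangent

end Fermat.Agent.S53
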