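import Fermat.Agent.S53.NormFunctor
import Fermat.Agent.S53.AssemblyDefs
import Fermat.Agent.S53.Points

/-!
# S53: the formal properties (F0)–(F5) of the functor `IsNDFam D 𝒟`

`Assembly.IsNDFam D 𝒟 A y` says that `y : Gal × Fin 2 × Fin 2 → A` is the entry family of a
normalised deformation of type `𝒟` over `A`.  It agrees with `NormFunctor.F`, and we restate the
properties (F0)–(F3) of `NormFunctor` for it, together with (F4) (finiteness over the dual
numbers) and (F5) (the residual point).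
-/

set_option autoImplicit false
set_option linter.unusedSectionVars false
set_option linter.unnecessarySimpa false
set_option linter.style.haveILetI false
set_option linter.unusedSimpArgs false

namespace Fermat.Agent.S53.NDFam

open IsLocalRing GaloisRep Fermat.Agent.S53 Fermat.Agent.S53.NormFunctor
  Fermat.Agent.S53.Assembly

variable {𝒪 : Type} [CommRing 𝒪] [IsLocalRing 𝒪]
variable {𝒟 : ∀ ⦃A : Type⦄ [CommRing A] [IsLocalRing A] [Algebra 𝒪 A], GaloisRepAdic A → Prop}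

section Bridge

variable {A : Type} [CommRing A] [IsLocalRing A] [Algebra 𝒪 A]

/-- `IsNDFam` agrees with `NormFunctor.F`. -/
theorem isNDFam_iff_F (D : NormData 𝒪) (y : Idx → A) :
    IsNDFam D 𝒟 A y ↔ F D 𝒟 A y := by
  constructor
  · rintro ⟨r, hr, hl, hn, hd, hy⟩
    refine ⟨r, ⟨hr, hl, hn, hd⟩, ?_⟩
    funext x
    obtain ⟨g, i, j⟩ := x
    exact hy g i j
  · rintro ⟨r, ⟨hr, hl, hn, hd⟩, rfl⟩
    exact ⟨r, hr, hl, hn, hd, fun _ _ _ => rfl⟩

/-- (F0) entry families take values in the maximal ideal. -/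
theorem mem_maximalIdeal {D : NormData 𝒪} {y : Idx → A} (h : IsNDFam D 𝒟 A y) (x : Idx) :
    y x ∈ maximalIdeal A :=
  F_mem_maximalIdeal ((isNDFam_iff_F D y).mp h) x

end Bridge

section Map

variable {A B : Type} [CommRing A] [IsLocalRing A] [Algebra 𝒪 A]
  [CommRing B] [IsLocalRing B] [Algebra 𝒪 B]

/-- (F1) stability under local homomorphisms of test algebras. -/
theorem map (h𝒟 : IsDeformationCondition 𝒪 𝒟)
    (hA : IsArtinianTestAlgebra 𝒪 A) (hB : IsArtinianTestAlgebra 𝒪 B)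
    (φ : A →ₐ[𝒪] B) (hφ : IsLocalHom (φ : A →+* B)) {D : NormData 𝒪}
    {y : Idx → A} (h : IsNDFam D 𝒟 A y) : IsNDFam D 𝒟 B (φ ∘ y) :=
  (isNDFam_iff_F D _).mpr (F_map h𝒟 hA hB φ hφ ((isNDFam_iff_F D y).mp h))

/-- (F2) descent along an injective local homomorphism of test algebras. -/
theorem of_injective (h𝒟 : IsDeformationCondition 𝒪 𝒟)
    (hA : IsArtinianTestAlgebra 𝒪 A) (hB : IsArtinianTestAlgebra 𝒪 B)
    (φ : A →ₐ[𝒪] B) (hφ : IsLocalHom (φ : A →+* B)) (hinj : Function.Injective φ)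
    {D : NormData 𝒪} {y : Idx → A} (h : IsNDFam D 𝒟 B (φ ∘ y)) : IsNDFam D 𝒟 A y :=
  (isNDFam_iff_F D _).mpr (F_of_injective h𝒟 hA hB φ hφ hinj ((isNDFam_iff_F D _).mp h))

end Map

section Pair

variable {P A B C : Type} [CommRing P] [IsLocalRing P] [Algebra 𝒪 P]
  [CommRing A] [IsLocalRing A] [Algebra 𝒪 A] [CommRing B] [IsLocalRing B] [Algebra 𝒪 B]
  [CommRing C] [IsLocalRing C] [Algebra 𝒪 C]

/-- (F3) jointly injective pairs. -/
theorem of_pair [Finite (ResidueField 𝒪)] (h𝒟 : IsDeformationCondition 𝒪 𝒟)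
    (hP : IsArtinianTestAlgebra 𝒪 P) (hA : IsArtinianTestAlgebra 𝒪 A)
    (hB : IsArtinianTestAlgebra 𝒪 B) (pA : P →ₐ[𝒪] A) (pB : P →ₐ[𝒪] B)
    (hpA : IsLocalHom (pA : P →+* A)) (hpB : IsLocalHom (pB : P →+* B))
    (hinj : Function.Injective (fun x => (pA x, pB x)))
    {D : NormData 𝒪} {y : Idx → P} (h1 : IsNDFam D 𝒟 A (pA ∘ y))
    (h2 : IsNDFam D 𝒟 B (pB ∘ y)) : IsNDFam D 𝒟 P y :=
  (isNDFam_iff_F D _).mpr (F_of_pair h𝒟 hP hA hB pA pB hpA hpB hinj
    ((isNDFam_iff_F D _).mp h1) ((isNDFam_iff_F D _).mp h2))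

/-- (F3) fibre products, in exactly the shape of `IsDeformationCondition.of_fibreProduct`. -/
theorem of_fibreProduct [Finite (ResidueField 𝒪)] (h𝒟 : IsDeformationCondition 𝒪 𝒟)
    (hA : IsArtinianTestAlgebra 𝒪 A) (hB : IsArtinianTestAlgebra 𝒪 B)
    (_hC : IsArtinianTestAlgebra 𝒪 C) (hP : IsArtinianTestAlgebra 𝒪 P)
    (f : A →ₐ[𝒪] C) (g : B →ₐ[𝒪] C) (pA : P →ₐ[𝒪] A) (pB : P →ₐ[𝒪] B)
    (hpA : IsLocalHom (pA : P →+* A)) (hpB : IsLocalHom (pB : P →+* B))
    (_hcomm : f.comp pA = g.comp pB)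
    (hinj : Function.Injective (fun x => (pA x, pB x)))
    (_hsurj : ∀ a b, f a = g b → ∃ x, pA x = a ∧ pB x = b)
    {D : NormData 𝒪} {y : Idx → P} (h1 : IsNDFam D 𝒟 A (pA ∘ y))
    (h2 : IsNDFam D 𝒟 B (pB ∘ y)) : IsNDFam D 𝒟 P y :=
  of_pair h𝒟 hP hA hB pA pB hpA hpB hinj h1 h2

end Pair

section Points

variable {ρbar : ResidualGaloisRep (ResidueField 𝒪)}
  {v : Module.Basis (Fin 2) (ResidueField 𝒪) ρbar.V}

/-- (F5) the residual point: the zero family over the residue field. -/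
theorem residual_zero (h𝒟 : IsDeformationCondition 𝒪 𝒟)
    (hbar : 𝒟 (GaloisRepAdic.ofResidualGaloisRep ρbar)) (D : NormData 𝒪)
    (hc : IsMatLiftOf ρbar v D.c) :
    IsNDFam D 𝒟 (ResidueField 𝒪) (fun _ => 0) := by
  obtain ⟨r, hr, hl, hn, hd, hrc⟩ := residual_point h𝒟 hbar D hc
  refine ⟨r, hr, hl, hn, hd, fun σ i j => ?_⟩
  rw [hrc, ResidueField.algebraMap_eq, sub_self]

/-- (F4) finiteness of the set of entry families over the dual numbers. -/
theorem finite_dualNumber (hfin : TangentFinite 𝒪 ρbar 𝒟) (D : NormData 𝒪)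
    (hc : IsMatLiftOf ρbar v D.c) :
    letI := TangentGen.dualNumberAlgebra 𝒪
    {y : Idx → DualNumber (ResidueField 𝒪) |
      IsNDFam D 𝒟 (DualNumber (ResidueField 𝒪)) y}.Finite := by
  letI := TangentGen.dualNumberAlgebra 𝒪
  haveI := finite_normalized_dualNumber hfin D hc
  let e : {r : Gal →* M2 (DualNumber (ResidueField 𝒪)) //
      ∃ hr : MatCont r, IsLiftOf D.c r ∧ IsNormalized D r ∧ 𝒟 (ofMat r hr)} →
      (Idx → DualNumber (ResidueField 𝒪)) :=
    fun r => entryFamily D.c (r.1 : Gal → M2 (DualNumber (ResidueField 𝒪)))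
  refine (Set.finite_range e).subset ?_
  rintro y ⟨r, hr, hl, hn, hd, hy⟩
  refine ⟨⟨r, hr, hl, hn, hd⟩, ?_⟩
  funext x
  obtain ⟨g, i, j⟩ := x
  exact (hy g i j).symm

end Points

end Fermat.Agent.S53.NDFam
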