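import Fermat.Agent.S53.Residual

set_option autoImplicit false
set_option linter.unusedSectionVars false
set_option linter.style.haveILetI false
set_option linter.unusedSimpArgs false

namespace Fermat.Agent.S53

open IsLocalRing

section

variable {𝒪 : Type} [CommRing 𝒪] [IsLocalRing 𝒪]

/-- A set-theoretic section of the residue map sending `0` to `0`. -/
noncomputable def resSection (𝒪 : Type) [CommRing 𝒪] [IsLocalRing 𝒪] (x : ResidueField 𝒪) : 𝒪 :=
  open Classical in if x = 0 then 0 else Function.surjInv (residue_surjective (R := 𝒪)) x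

lemma resSection_zero : resSection 𝒪 0 = 0 := by simp [resSection]

lemma residue_resSection (x : ResidueField 𝒪) : residue 𝒪 (resSection 𝒪 x) = x := by
  unfold resSection
  split_ifs with h
  · rw [h, map_zero]
  · exact Function.surjInv_eq _ x

/-- Residue of `lin` computed over `𝒪` itself. -/
lemma residue_lin_self (a : Gal →₀ 𝒪) (c : Gal → M2 𝒪) (i j : Fin 2) :
    residue 𝒪 (lin a c i j) = a.sum fun g x => residue 𝒪 x * residue 𝒪 (c g i j) := by
  rw [lin_apply]
  unfold Finsupp.sum
  rw [map_sum]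
  refine Finset.sum_congr rfl fun g _ => ?_
  rw [map_mul]
  rfl

/-- Existence of formal sums with prescribed residual matrix. -/
lemma exists_finsupp_lin_eq (ρbar : ResidualGaloisRep (ResidueField 𝒪))
    (hspan : Submodule.span (ResidueField 𝒪) (Set.range ρbar.ρ) = ⊤)
    (v : Module.Basis (Fin 2) (ResidueField 𝒪) ρbar.V) (c : Gal → M2 𝒪)
    (hc : IsMatLiftOf ρbar v c) (E : M2 (ResidueField 𝒪)) :
    ∃ a : Gal →₀ 𝒪, ∀ i j, residue 𝒪 (lin a c i j) = E i j := by
  have hE : Matrix.toLin v v E ∈ Submodule.span (ResidueField 𝒪) (Set.range ρbar.ρ) := by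
    rw [hspan]; exact Submodule.mem_top
  rw [Finsupp.mem_span_range_iff_exists_finsupp] at hE
  obtain ⟨abar, habar⟩ := hE
  refine ⟨abar.mapRange (resSection 𝒪) resSection_zero, fun i j => ?_⟩
  rw [residue_lin_self, Finsupp.sum_mapRange_index (by intro g; simp)]
  have h1 : LinearMap.toMatrix v v (abar.sum fun g x => x • ρbar.ρ g) = E := by
    rw [habar, LinearMap.toMatrix_toLin]
  have h2 : LinearMap.toMatrix v v (abar.sum fun g x => x • ρbar.ρ g) i j =
      abar.sum fun g x => x * LinearMap.toMatrix v v (ρbar.ρ g) i j := by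
    unfold Finsupp.sum
    rw [map_sum, Matrix.sum_apply]
    refine Finset.sum_congr rfl fun g _ => ?_
    rw [map_smul, Matrix.smul_apply, smul_eq_mul]
  rw [← h1, h2]
  unfold Finsupp.sum
  refine Finset.sum_congr rfl fun g _ => ?_
  show residue 𝒪 (resSection 𝒪 (abar g)) * residue 𝒪 (c g i j) =
    abar g * LinearMap.toMatrix v v (ρbar.ρ g) i j
  rw [residue_resSection, hc]

/-- **Normalizing data exist** as soon as the residual representation spans the full
endomorphism algebra (Burnside). -/
theorem exists_normData (ρbar : ResidualGaloisRep (ResidueField 𝒪))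
    (hspan : Submodule.span (ResidueField 𝒪) (Set.range ρbar.ρ) = ⊤) :
    ∃ (v : Module.Basis (Fin 2) (ResidueField 𝒪) ρbar.V) (D : NormData 𝒪),
      IsMatLiftOf ρbar v D.c := by
  let v : Module.Basis (Fin 2) (ResidueField 𝒪) ρbar.V :=
    Module.finBasisOfFinrankEq (ResidueField 𝒪) ρbar.V ρbar.finrank_eq
  let c : Gal → M2 𝒪 := fun σ => Matrix.of fun i j =>
    resSection 𝒪 (LinearMap.toMatrix v v (ρbar.ρ σ) i j)
  have hc : IsMatLiftOf ρbar v c := fun σ i j => residue_resSection _
  obtain ⟨a, ha⟩ := exists_finsupp_lin_eq ρbar hspan v c hc !![1, 0; 0, 0]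
  obtain ⟨b, hb⟩ := exists_finsupp_lin_eq ρbar hspan v c hc !![0, 0; 1, 0]
  refine ⟨v, ⟨c, a, b, ?_, ?_, ?_, ?_, ?_⟩, hc⟩
  · rw [← residue_eq_zero_iff, map_sub, ha, map_one]; simp
  · rw [← residue_eq_zero_iff, ha]; simp
  · rw [← residue_eq_zero_iff, ha]; simp
  · rw [← residue_eq_zero_iff, ha]; simp
  · rw [← residue_eq_zero_iff, map_sub, hb, map_one]; simp

end

end Fermat.Agent.S53
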