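import Mathlib
import Fermat.Prelude.Def_GaloisRep_DeformationCondition
import Fermat.Agent.S53.TangentGen

set_option autoImplicit false

/-!
# Abstract pro-representability: definitions

`X` is a set of "coordinates", `F A y` says that the family `y : X → A` belongs to a functor
`F` on Artinian test algebras.  `IsClosedFunctor` lists the closure properties needed and
`ProRepData` is the output: a complete Noetherian local `𝒪`-algebra `R` with a universal family.
-/

namespace Fermat.Agent.S53.ProRep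

open IsLocalRing GaloisRep

variable (𝒪 : Type) [CommRing 𝒪] [IsLocalRing 𝒪]

variable (X : Type)
  (F : ∀ (A : Type) [CommRing A] [IsLocalRing A] [Algebra 𝒪 A], (X → A) → Prop)

/-- Closure properties of a subfunctor of `A ↦ (X → 𝔪_A)` on Artinian test algebras. -/
structure IsClosedFunctor : Prop where
  mem_maximalIdeal : ∀ ⦃A : Type⦄ [CommRing A] [IsLocalRing A] [Algebra 𝒪 A],
    IsArtinianTestAlgebra 𝒪 A → ∀ ⦃y : X → A⦄, F A y → ∀ x, y x ∈ maximalIdeal A
  map : ∀ ⦃A B : Type⦄ [CommRing A] [IsLocalRing A] [Algebra 𝒪 A]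
    [CommRing B] [IsLocalRing B] [Algebra 𝒪 B],
    IsArtinianTestAlgebra 𝒪 A → IsArtinianTestAlgebra 𝒪 B →
    ∀ (φ : A →ₐ[𝒪] B), IsLocalHom (φ : A →+* B) → ∀ ⦃y : X → A⦄, F A y → F B (φ ∘ y)
  of_map_injective : ∀ ⦃A B : Type⦄ [CommRing A] [IsLocalRing A] [Algebra 𝒪 A]
    [CommRing B] [IsLocalRing B] [Algebra 𝒪 B],
    IsArtinianTestAlgebra 𝒪 A → IsArtinianTestAlgebra 𝒪 B →
    ∀ (φ : A →ₐ[𝒪] B), IsLocalHom (φ : A →+* B) → Function.Injective φ →
      ∀ ⦃y : X → A⦄, F B (φ ∘ y) → F A y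
  of_fibreProduct : ∀ ⦃A B C Q : Type⦄ [CommRing A] [IsLocalRing A] [Algebra 𝒪 A]
    [CommRing B] [IsLocalRing B] [Algebra 𝒪 B] [CommRing C] [IsLocalRing C] [Algebra 𝒪 C]
    [CommRing Q] [IsLocalRing Q] [Algebra 𝒪 Q],
    IsArtinianTestAlgebra 𝒪 A → IsArtinianTestAlgebra 𝒪 B → IsArtinianTestAlgebra 𝒪 C →
    IsArtinianTestAlgebra 𝒪 Q →
    ∀ (f : A →ₐ[𝒪] C) (g : B →ₐ[𝒪] C) (pA : Q →ₐ[𝒪] A) (pB : Q →ₐ[𝒪] B),
      IsLocalHom (pA : Q →+* A) → IsLocalHom (pB : Q →+* B) →
      f.comp pA = g.comp pB →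
      Function.Injective (fun x => (pA x, pB x)) →
      (∀ a b, f a = g b → ∃ x, pA x = a ∧ pB x = b) →
      ∀ ⦃y : X → Q⦄, F A (pA ∘ y) → F B (pB ∘ y) → F Q y
  tangent_finite :
    letI := TangentGen.dualNumberAlgebra 𝒪
    {y : X → DualNumber (ResidueField 𝒪) | F (DualNumber (ResidueField 𝒪)) y}.Finite
  nonempty : ∃ (A : Type) (_ : CommRing A) (_ : IsLocalRing A) (_ : Algebra 𝒪 A),
    IsArtinianTestAlgebra 𝒪 A ∧ ∃ y : X → A, F A y

/-- The output of pro-representability. -/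
structure ProRepData : Type 1 where
  R : Type
  [instCommRing : CommRing R]
  [instIsLocalRing : IsLocalRing R]
  [instIsNoetherianRing : IsNoetherianRing R]
  [instIsAdicComplete : IsAdicComplete (maximalIdeal R) R]
  [instAlgebra : Algebra 𝒪 R]
  [instIsLocalHom : IsLocalHom (algebraMap 𝒪 R)]
  residue_surjective : Function.Surjective (IsLocalRing.residue R ∘ algebraMap 𝒪 R)
  finite_quotient : ∀ n : ℕ, Finite (R ⧸ maximalIdeal R ^ n)
  /-- the universal family -/
  u : X → R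
  u_mem : ∀ x, u x ∈ maximalIdeal R
  /-- (U2): every Artinian quotient (indeed every local map to a test algebra) of the universal
  family lies in `F` -/
  map_mem : ∀ (B : Type) [CommRing B] [IsLocalRing B] [Algebra 𝒪 B],
    IsArtinianTestAlgebra 𝒪 B → ∀ (q : R →ₐ[𝒪] B), IsLocalHom (q : R →+* B) → F B (q ∘ u)
  /-- (U1'): families over complete Noetherian local algebras all of whose Artinian quotients
  lie in `F` are classified by `R` -/
  lift : ∀ (A : Type) [CommRing A] [IsLocalRing A] [IsNoetherianRing A]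
    [IsAdicComplete (maximalIdeal A) A] [Algebra 𝒪 A] [IsLocalHom (algebraMap 𝒪 A)],
    Function.Surjective (IsLocalRing.residue A ∘ algebraMap 𝒪 A) →
    ∀ y : X → A,
      (∀ (B : Type) [CommRing B] [IsLocalRing B] [Algebra 𝒪 B], IsArtinianTestAlgebra 𝒪 B →
        ∀ (q : A →ₐ[𝒪] B), IsLocalHom (q : A →+* B) → Function.Surjective q → F B (q ∘ y)) →
      ∃ φ : R →ₐ[𝒪] A, IsLocalHom (φ : R →+* A) ∧ (∀ x, φ (u x) = y x) ∧
        ∀ φ' : R →ₐ[𝒪] A, (∀ x, φ' (u x) = y x) → φ' = φ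

attribute [instance] ProRepData.instCommRing ProRepData.instIsLocalRing
  ProRepData.instIsNoetherianRing ProRepData.instIsAdicComplete
  ProRepData.instAlgebra ProRepData.instIsLocalHom

end Fermat.Agent.S53.ProRep
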