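import Mathlib
import Fermat.Prelude.Def_GaloisRep_DeformationCondition

/-!
# S53: functoriality of `GaloisRepAdic.baseChangeAlong` up to `IsEquiv`
-/

set_option autoImplicit false
set_option linter.unusedSectionVars false
set_option linter.unnecessarySimpa false
set_option linter.style.haveILetI false

namespace Fermat.Agent.S53.BaseChange

open IsLocalRing GaloisRep TensorProduct

variable {A B C : Type} [CommRing A] [IsLocalRing A] [CommRing B] [IsLocalRing B]
  [CommRing C] [IsLocalRing C]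

/-- Base change is transitive (up to equivalence). -/
theorem baseChangeAlong_comp (φ : A →+* B) (hφ : IsLocalHom φ) (ψ : B →+* C)
    (hψ : IsLocalHom ψ) (hψφ : IsLocalHom (ψ.comp φ)) (ρ : GaloisRepAdic A) :
    ((ρ.baseChangeAlong φ hφ).baseChangeAlong ψ hψ).IsEquiv
      (ρ.baseChangeAlong (ψ.comp φ) hψφ) := by
  letI : Algebra A B := φ.toAlgebra
  letI : Algebra B C := ψ.toAlgebra
  letI : Algebra A C := (ψ.comp φ).toAlgebra
  haveI : IsScalarTower A B C := IsScalarTower.of_algebraMap_eq (fun x => rfl)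
  refine ⟨⟨?_, ?_⟩⟩
  · exact TensorProduct.AlgebraTensorModule.cancelBaseChange A B C C ρ.V
  · intro σ x
    show TensorProduct.AlgebraTensorModule.cancelBaseChange A B C C ρ.V
        (((ρ.ρ σ).baseChange B).baseChange C x) =
      (ρ.ρ σ).baseChange C (TensorProduct.AlgebraTensorModule.cancelBaseChange A B C C ρ.V x)
    rw [LinearMap.baseChange_baseChange]
    exact (TensorProduct.AlgebraTensorModule.cancelBaseChange A B C C ρ.V).apply_symm_apply _

/-- Base change along the identity is equivalent to the original representation. -/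
theorem baseChangeAlong_id (hid : IsLocalHom (RingHom.id A)) (ρ : GaloisRepAdic A) :
    (ρ.baseChangeAlong (RingHom.id A) hid).IsEquiv ρ := by
  refine ⟨⟨?_, ?_⟩⟩
  · exact TensorProduct.lid A ρ.V
  · intro σ x
    show TensorProduct.lid A ρ.V ((ρ.ρ σ).baseChange A x) = ρ.ρ σ (TensorProduct.lid A ρ.V x)
    induction x using TensorProduct.induction_on with
    | zero => simp
    | tmul a v => simp
    | add x y hx hy => simp only [map_add, hx, hy]

/-- Equivalent representations have equivalent base changes. -/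
theorem isEquiv_baseChangeAlong (φ : A →+* B) (hφ : IsLocalHom φ) {ρ ρ' : GaloisRepAdic A}
    (h : ρ.IsEquiv ρ') : (ρ.baseChangeAlong φ hφ).IsEquiv (ρ'.baseChangeAlong φ hφ) := by
  obtain ⟨e⟩ := h
  exact ⟨e.baseChangeAlong φ hφ⟩

theorem IsEquiv.symm {ρ ρ' : GaloisRepAdic A} (h : ρ.IsEquiv ρ') : ρ'.IsEquiv ρ := by
  obtain ⟨e⟩ := h
  exact ⟨e.symm⟩

theorem IsEquiv.trans {ρ ρ' ρ'' : GaloisRepAdic A} (h : ρ.IsEquiv ρ') (h' : ρ'.IsEquiv ρ'') :
    ρ.IsEquiv ρ'' := by
  obtain ⟨e⟩ := h
  obtain ⟨e'⟩ := h'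
  exact ⟨e.trans e'⟩

theorem IsEquiv.refl (ρ : GaloisRepAdic A) : ρ.IsEquiv ρ := ⟨GaloisRepAdic.Equiv.refl ρ⟩

/-- Base change along equal ring homs. -/
theorem baseChangeAlong_congr {φ φ' : A →+* B} (h : φ = φ') (hφ : IsLocalHom φ)
    (hφ' : IsLocalHom φ') (ρ : GaloisRepAdic A) :
    (ρ.baseChangeAlong φ hφ).IsEquiv (ρ.baseChangeAlong φ' hφ') := by
  subst h
  exact IsEquiv.refl _

end Fermat.Agent.S53.BaseChange
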