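import Fermat.Agent.S53.Points
import Fermat.Agent.S53.BaseChange
import Fermat.Agent.S53.AssemblyDefs

set_option autoImplicit false
set_option linter.unusedSectionVars false
set_option linter.style.haveILetI false
set_option linter.unusedSimpArgs false

namespace Fermat.Agent.S53.Univ

open IsLocalRing GaloisRep Fermat.Agent.S53

section Map

variable {𝒪 : Type} [CommRing 𝒪] [IsLocalRing 𝒪]
variable {A B : Type} [CommRing A] [IsLocalRing A] [Algebra 𝒪 A]
  [CommRing B] [IsLocalRing B] [Algebra 𝒪 B]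

lemma lin_mapMat (q : A →ₐ[𝒪] B) (x : Gal →₀ 𝒪) (r : Gal →* M2 A) :
    lin x (mapMat (q : A →+* B) r) = (lin x r).map q :=
  lin_map (q : A →+* B) (fun c => q.commutes c) x r

lemma isLiftOf_mapMat {c : Gal → M2 𝒪} (q : A →ₐ[𝒪] B) (hq : IsLocalHom (q : A →+* B))
    {r : Gal →* M2 A} (h : IsLiftOf c r) : IsLiftOf c (mapMat (q : A →+* B) r) := by
  intro σ i j
  have h1 := h σ i j
  have h2 : (mapMat (q : A →+* B) r) σ i j - algebraMap 𝒪 B (c σ i j) =
      q (r σ i j - algebraMap 𝒪 A (c σ i j)) := by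
    rw [map_sub, q.commutes]
    rfl
  rw [h2]
  haveI := hq
  exact map_nonunit (q : A →+* B) _ h1

lemma isNormalized_mapMat (D : NormData 𝒪) (q : A →ₐ[𝒪] B) {r : Gal →* M2 A}
    (h : IsNormalized D r) : IsNormalized D (mapMat (q : A →+* B) r) := by
  refine ⟨?_, ?_, ?_⟩
  · rw [lin_mapMat, Matrix.map_apply, h.a01, map_zero]
  · rw [lin_mapMat, Matrix.map_apply, h.a10, map_zero]
  · rw [lin_mapMat, Matrix.map_apply, h.b10, map_one]

lemma ofMat_isEquiv_of_eq {r r' : Gal →* M2 A} (hr : MatCont r) (hr' : MatCont r')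
    (h : r = r') : (ofMat r hr).IsEquiv (ofMat r' hr') := by
  subst h
  exact adic_isEquiv_refl _

end Map

section Levels

variable {𝒪 : Type} [CommRing 𝒪] [IsLocalRing 𝒪]
variable {𝒟 : ∀ ⦃A : Type⦄ [CommRing A] [IsLocalRing A] [Algebra 𝒪 A], GaloisRepAdic A → Prop}

/-- If `ρ ≅ ofMat r` over a complete Noetherian local `𝒪`-algebra and `𝒟 ρ`, then all
Artinian levels of `r` satisfy `𝒟`. -/
theorem cond_levels (h𝒟 : IsDeformationCondition 𝒪 𝒟)
    {A : Type} [CommRing A] [IsLocalRing A] [IsNoetherianRing A]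
    [IsAdicComplete (maximalIdeal A) A] [Algebra 𝒪 A]
    (hloc : IsLocalHom (algebraMap 𝒪 A))
    (hres : Function.Surjective (IsLocalRing.residue A ∘ algebraMap 𝒪 A))
    (ρA : GaloisRepAdic A) (hρ : 𝒟 ρA) {r : Gal →* M2 A} (hr : MatCont r)
    (hequiv : ρA.IsEquiv (ofMat r hr))
    {B : Type} [CommRing B] [IsLocalRing B] [Algebra 𝒪 B] (hB : IsArtinianTestAlgebra 𝒪 B)
    (q : A →ₐ[𝒪] B) (hq : IsLocalHom (q : A →+* B)) (hqs : Function.Surjective q) :
    𝒟 (ofMat (mapMat (q : A →+* B) r) (matCont_mapMat _ hq hr)) := by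
  have h1 := (h𝒟.iff_forall_surjective hloc hres ρA).mp hρ hB q hq hqs
  have h2 := adic_isEquiv_baseChangeAlong (q : A →+* B) hq hequiv
  have h3 := baseChangeAlong_ofMat_isEquiv (q : A →+* B) hq hr
  exact h𝒟.of_isEquiv hB (adic_isEquiv_trans h2 h3) h1

/-- Conversely: if all Artinian levels of `r` satisfy `𝒟` then so does `ofMat r`. -/
theorem cond_of_levels (h𝒟 : IsDeformationCondition 𝒪 𝒟)
    {A : Type} [CommRing A] [IsLocalRing A] [IsNoetherianRing A]
    [IsAdicComplete (maximalIdeal A) A] [Algebra 𝒪 A]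
    (hloc : IsLocalHom (algebraMap 𝒪 A))
    (hres : Function.Surjective (IsLocalRing.residue A ∘ algebraMap 𝒪 A))
    {r : Gal →* M2 A} (hr : MatCont r)
    (h : ∀ (B : Type) [CommRing B] [IsLocalRing B] [Algebra 𝒪 B], IsArtinianTestAlgebra 𝒪 B →
      ∀ (q : A →ₐ[𝒪] B) (hq : IsLocalHom (q : A →+* B)), Function.Surjective q →
        𝒟 (ofMat (mapMat (q : A →+* B) r) (matCont_mapMat _ hq hr))) :
    𝒟 (ofMat r hr) := by
  refine (h𝒟.iff_forall_surjective hloc hres (ofMat r hr)).mpr ?_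
  intro B _ _ _ hB q hq hqs
  have h3 := baseChangeAlong_ofMat_isEquiv (q : A →+* B) hq hr
  exact h𝒟.of_isEquiv hB (adic_isEquiv_symm h3) (h B hB q hq hqs)

end Levels

section Universal

variable {𝒪 : Type} [CommRing 𝒪] [IsDomain 𝒪] [IsDiscreteValuationRing 𝒪]
  [IsAdicComplete (maximalIdeal 𝒪) 𝒪]
variable {ρbar : ResidualGaloisRep (ResidueField 𝒪)}
  {v : Module.Basis (Fin 2) (ResidueField 𝒪) ρbar.V}
variable {𝒟 : ∀ ⦃A : Type⦄ [CommRing A] [IsLocalRing A] [Algebra 𝒪 A], GaloisRepAdic A → Prop}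

/-- **Assembly of the universal deformation ring** from a ring `R` carrying a normalized
deformation `r_univ` which classifies normalized deformations over complete Noetherian local
`𝒪`-algebras. -/
theorem nonempty_deformationRingData (h𝒟 : IsDeformationCondition 𝒪 𝒟)
    (habs : ρbar.IsAbsolutelyIrreducible) (D : NormData 𝒪) (hc : IsMatLiftOf ρbar v D.c)
    (R : Type) [CommRing R] [IsLocalRing R] [IsNoetherianRing R]
    [IsAdicComplete (maximalIdeal R) R] [Algebra 𝒪 R] [hRloc : IsLocalHom (algebraMap 𝒪 R)]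
    (hRres : Function.Surjective (IsLocalRing.residue R ∘ algebraMap 𝒪 R))
    (ru : Gal →* M2 R) (hru : MatCont ru) (hlu : IsLiftOf D.c ru) (hnu : IsNormalized D ru)
    (hDu : 𝒟 (ofMat ru hru))
    (hcl : ∀ (A : Type) [CommRing A] [IsLocalRing A] [IsNoetherianRing A]
      [IsAdicComplete (maximalIdeal A) A] [Algebra 𝒪 A] [IsLocalHom (algebraMap 𝒪 A)],
      Function.Surjective (IsLocalRing.residue A ∘ algebraMap 𝒪 A) →
      ∀ (r : Gal →* M2 A) (hr : MatCont r), IsLiftOf D.c r → IsNormalized D r →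
        (∀ (B : Type) [CommRing B] [IsLocalRing B] [Algebra 𝒪 B], IsArtinianTestAlgebra 𝒪 B →
          ∀ (q : A →ₐ[𝒪] B) (hq : IsLocalHom (q : A →+* B)), Function.Surjective q →
            𝒟 (ofMat (mapMat (q : A →+* B) r) (matCont_mapMat _ hq hr))) →
        ∃! φ : R →ₐ[𝒪] A, mapMat (φ : R →+* A) ru = r) :
    Nonempty (DeformationRingData 𝒪 ρbar 𝒟) := by
  refine ⟨{ R := R
            residue_surjective := hRres
            absIrr := habs
            ρ := ofMat ru hru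
            isOfType := hDu
            residual_isEquiv := residual_isEquiv_of_isLiftOf hc _
              (fun x => (IsLocalRing.ResidueField.map_residue _ x)) hru hlu
            universal := ?_ }⟩
  intro A _ _ _ _ _ hAloc hAres ρA hρA hresA
  haveI : HenselianLocalRing A := henselianLocalRing_of_isAdicComplete A
  obtain ⟨r, hr, hequiv, hl, hn⟩ := exists_normalized_of_residual_isEquiv D hc hAloc
    (IsLocalRing.ResidueField.map (algebraMap 𝒪 A))
    (fun x => (IsLocalRing.ResidueField.map_residue _ x)) ρA hresA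
  have hlev : ∀ (B : Type) [CommRing B] [IsLocalRing B] [Algebra 𝒪 B],
      IsArtinianTestAlgebra 𝒪 B →
      ∀ (q : A →ₐ[𝒪] B) (hq : IsLocalHom (q : A →+* B)), Function.Surjective q →
        𝒟 (ofMat (mapMat (q : A →+* B) r) (matCont_mapMat _ hq hr)) :=
    fun B _ _ _ hB q hq hqs => cond_levels h𝒟 hAloc hAres ρA hρA hr hequiv hB q hq hqs
  obtain ⟨φ, hφ, hφuniq⟩ := hcl A hAres r hr hl hn hlev
  have hloc : ∀ ψ : R →ₐ[𝒪] A, IsLocalHom (ψ : R →+* A) := fun ψ =>
    TangentGen.isLocalHom_of_residue_surjective hAres ψ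
  refine ⟨φ, ⟨hloc φ, ?_⟩, ?_⟩
  · have h1 := baseChangeAlong_ofMat_isEquiv (φ : R →+* A) (hloc φ) hru
    have h2 : (ofMat (mapMat (φ : R →+* A) ru) (matCont_mapMat _ (hloc φ) hru)).IsEquiv
        (ofMat r hr) := ofMat_isEquiv_of_eq _ _ hφ
    exact adic_isEquiv_trans h1 (adic_isEquiv_trans h2 (adic_isEquiv_symm hequiv))
  · rintro φ' ⟨hφ', hequiv'⟩
    apply hφuniq
    have h1 := baseChangeAlong_ofMat_isEquiv (φ' : R →+* A) hφ' hru
    have h2 : (ofMat (mapMat (φ' : R →+* A) ru) (matCont_mapMat _ hφ' hru)).IsEquiv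
        (ofMat r hr) :=
      adic_isEquiv_trans (adic_isEquiv_symm h1) (adic_isEquiv_trans hequiv' hequiv)
    exact eq_of_isEquiv_of_isNormalized D hAloc _ hr (isLiftOf_mapMat φ' hφ' hlu) hl
      (isNormalized_mapMat D φ' hnu) hn h2

end Universal

end Fermat.Agent.S53.Univ


namespace Fermat.Agent.S53.Assembly

open IsLocalRing GaloisRep Fermat.Agent.S53 Fermat.Agent.S53.Univ

/-- **Universal property from (U1).**  If `(R, u)` satisfies `HypU1` and `u` is the entry family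
of a normalized lift `r` over `R`, then `ofMat r` has the universal property required by
`DeformationRingData`. -/
theorem universal_of_hypU1 {𝒪 : Type} [CommRing 𝒪] [IsLocalRing 𝒪] [Finite (ResidueField 𝒪)]
    {𝒟 : ∀ ⦃A : Type⦄ [CommRing A] [IsLocalRing A] [Algebra 𝒪 A], GaloisRepAdic A → Prop}
    (h𝒟 : IsDeformationCondition 𝒪 𝒟)
    {ρbar : ResidualGaloisRep (ResidueField 𝒪)}
    {v : Module.Basis (Fin 2) (ResidueField 𝒪) ρbar.V}
    (D : NormData 𝒪) (hc : IsMatLiftOf ρbar v D.c)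
    {R : Type} [CommRing R] [IsLocalRing R] [Algebra 𝒪 R]
    (r : Gal →* M2 R) (hr : MatCont r) (hl : IsLiftOf D.c r) (hn : IsNormalized D r)
    (u : Idx → R) (hu : ∀ σ i j, u (σ, i, j) = r σ i j - algebraMap 𝒪 R (D.c σ i j))
    (U1 : HypU1 𝒟 D u) :
    ∀ (A : Type) [CommRing A] [IsLocalRing A] [IsNoetherianRing A]
      [IsAdicComplete (maximalIdeal A) A] [Algebra 𝒪 A] [IsLocalHom (algebraMap 𝒪 A)],
      Function.Surjective (IsLocalRing.residue A ∘ algebraMap 𝒪 A) →
      ∀ ρA : GaloisRepAdic A, 𝒟 ρA →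
        ρA.residual.IsEquiv (ρbar.baseChangeAlong (ResidueField.map (algebraMap 𝒪 A))) →
        ∃! φ : R →ₐ[𝒪] A, ∃ hφ : IsLocalHom (φ : R →+* A),
          ((ofMat r hr).baseChangeAlong (φ : R →+* A) hφ).IsEquiv ρA := by
  intro A _ _ _ _ _ hAloc hAres ρA hρA hresA
  haveI : HenselianLocalRing A := henselianLocalRing_of_isAdicComplete A
  obtain ⟨rA, hrA, hequiv, hlA, hnA⟩ := exists_normalized_of_residual_isEquiv D hc hAloc
    (IsLocalRing.ResidueField.map (algebraMap 𝒪 A))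
    (fun x => (IsLocalRing.ResidueField.map_residue _ x)) ρA hresA
  -- the entry family of `rA`
  set y : Idx → A := fun x => rA x.1 x.2.1 x.2.2 - algebraMap 𝒪 A (D.c x.1 x.2.1 x.2.2) with hy
  have hlev : ∀ (B : Type) [CommRing B] [IsLocalRing B] [Algebra 𝒪 B],
      IsArtinianTestAlgebra 𝒪 B →
      ∀ q : A →ₐ[𝒪] B, IsLocalHom (q : A →+* B) → Function.Surjective q →
        IsNDFam D 𝒟 B (q ∘ y) := by
    intro B _ _ _ hB q hq hqs
    refine ⟨mapMat (q : A →+* B) rA, matCont_mapMat _ hq hrA, isLiftOf_mapMat q hq hlA,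
      isNormalized_mapMat D q hnA, cond_levels h𝒟 hAloc hAres ρA hρA hrA hequiv hB q hq hqs, ?_⟩
    intro σ i j
    simp only [Function.comp_apply, hy, map_sub, q.commutes]
    rfl
  obtain ⟨φ, ⟨hφloc, hφu⟩, hφuniq⟩ := U1 A hAres y hlev
  -- entrywise description of `mapMat ψ r` for `ψ` with `ψ ∘ u = y`
  have key : ∀ ψ : R →ₐ[𝒪] A, (∀ x, ψ (u x) = y x) → mapMat (ψ : R →+* A) r = rA := by
    intro ψ hψ
    ext σ i j
    have h1 := hψ (σ, i, j)
    rw [hu σ i j, map_sub, ψ.commutes] at h1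
    simp only [hy] at h1
    have h2 : (mapMat (ψ : R →+* A) r) σ i j = ψ (r σ i j) := rfl
    rw [h2]
    exact sub_left_injective h1
  refine ⟨φ, ⟨hφloc, ?_⟩, ?_⟩
  · have h1 := baseChangeAlong_ofMat_isEquiv (φ : R →+* A) hφloc hr
    have h2 : (ofMat (mapMat (φ : R →+* A) r) (matCont_mapMat _ hφloc hr)).IsEquiv
        (ofMat rA hrA) := ofMat_isEquiv_of_eq _ _ (key φ hφu)
    exact adic_isEquiv_trans h1 (adic_isEquiv_trans h2 (adic_isEquiv_symm hequiv))
  · rintro φ' ⟨hφ', hequiv'⟩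
    apply hφuniq
    refine ⟨hφ', ?_⟩
    have h1 := baseChangeAlong_ofMat_isEquiv (φ' : R →+* A) hφ' hr
    have h2 : (ofMat (mapMat (φ' : R →+* A) r) (matCont_mapMat _ hφ' hr)).IsEquiv
        (ofMat rA hrA) :=
      adic_isEquiv_trans (adic_isEquiv_symm h1) (adic_isEquiv_trans hequiv' hequiv)
    have h3 : mapMat (φ' : R →+* A) r = rA :=
      eq_of_isEquiv_of_isNormalized D hAloc _ hrA (isLiftOf_mapMat φ' hφ' hl) hlA
        (isNormalized_mapMat D φ' hn) hnA h2
    rintro ⟨σ, i, j⟩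
    rw [hu σ i j, map_sub, φ'.commutes]
    simp only [hy]
    congr 1
    have h4 := congrArg (fun m : Gal →* M2 A => m σ i j) h3
    exact h4

end Fermat.Agent.S53.Assembly
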