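import Fermat.Agent.S53.Assembly
import Fermat.Agent.S53.Universal
import Fermat.Agent.S53.NDFam
import Fermat.Agent.S53.ProRepDefs
import Fermat.Agent.S53.NormDataExists
import Fermat.Agent.S53.Burnside

/-!
# S53: the universal deformation ring from abstract pro-representability
-/

set_option autoImplicit false
set_option linter.unusedSectionVars false
set_option linter.style.haveILetI false

namespace Fermat.Agent.S53.Assembly

open IsLocalRing GaloisRep Fermat.Agent.S53

section

variable {𝒪 : Type} [CommRing 𝒪] [IsLocalRing 𝒪]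
variable {𝒟 : ∀ ⦃A : Type⦄ [CommRing A] [IsLocalRing A] [Algebra 𝒪 A], GaloisRepAdic A → Prop}

/-- The functor of entry families of normalised deformations, in the shape used by the abstract
pro-representability theorem. -/
abbrev NDFunctor (D : NormData 𝒪)
    (𝒟 : ∀ ⦃A : Type⦄ [CommRing A] [IsLocalRing A] [Algebra 𝒪 A], GaloisRepAdic A → Prop) :
    ∀ (A : Type) [CommRing A] [IsLocalRing A] [Algebra 𝒪 A], (Idx → A) → Prop :=
  fun A _ _ _ y => IsNDFam D 𝒟 A y

/-- The functor of normalised deformations satisfies the hypotheses of the abstract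
pro-representability theorem. -/
theorem isClosedFunctor_ndFunctor [Finite (ResidueField 𝒪)]
    (h𝒟 : IsDeformationCondition 𝒪 𝒟)
    {ρbar : ResidualGaloisRep (ResidueField 𝒪)}
    {v : Module.Basis (Fin 2) (ResidueField 𝒪) ρbar.V}
    (hbar : 𝒟 (GaloisRepAdic.ofResidualGaloisRep ρbar))
    (hfin : TangentFinite 𝒪 ρbar 𝒟)
    (D : NormData 𝒪) (hc : IsMatLiftOf ρbar v D.c)
    (hk : IsArtinianTestAlgebra 𝒪 (ResidueField 𝒪)) :
    ProRep.IsClosedFunctor 𝒪 Idx (NDFunctor D 𝒟) where
  mem_maximalIdeal := fun _ _ _ _ _ _ h x => NDFam.mem_maximalIdeal h x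
  map := fun _ _ _ _ _ _ _ _ hA hB φ hφ _ h => NDFam.map h𝒟 hA hB φ hφ h
  of_map_injective := fun _ _ _ _ _ _ _ _ hA hB φ hφ hinj _ h =>
    NDFam.of_injective h𝒟 hA hB φ hφ hinj h
  of_fibreProduct := fun _ _ _ _ _ _ _ _ _ _ _ _ _ _ _ _ hA hB hC hQ f g pA pB hpA hpB hcomm
      hinj hsurj _ h1 h2 =>
    NDFam.of_fibreProduct h𝒟 hA hB hC hQ f g pA pB hpA hpB hcomm hinj hsurj h1 h2
  tangent_finite := NDFam.finite_dualNumber hfin D hc
  nonempty := ⟨ResidueField 𝒪, inferInstance, inferInstance, inferInstance, hk, fun _ => 0,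
    NDFam.residual_zero h𝒟 hbar D hc⟩

theorem isArtinianTestAlgebra_residueField :
    IsArtinianTestAlgebra 𝒪 (ResidueField 𝒪) where
  isLocalHom := by
    rw [ResidueField.algebraMap_eq]
    infer_instance
  residue_surjective := by
    intro y
    obtain ⟨x, rfl⟩ := IsLocalRing.residue_surjective y
    obtain ⟨c, rfl⟩ := IsLocalRing.residue_surjective x
    exact ⟨c, rfl⟩
  isArtinian := inferInstance

end

theorem nonempty_deformationRingData_of_proRepData
    {𝒪 : Type} [CommRing 𝒪] [IsDomain 𝒪] [IsDiscreteValuationRing 𝒪]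
    [IsAdicComplete (IsLocalRing.maximalIdeal 𝒪) 𝒪] [Finite (IsLocalRing.ResidueField 𝒪)]
    {ρbar : ResidualGaloisRep (IsLocalRing.ResidueField 𝒪)}
    {𝒟 : ∀ ⦃A : Type⦄ [CommRing A] [IsLocalRing A] [Algebra 𝒪 A], GaloisRepAdic A → Prop}
    (habs : ρbar.IsAbsolutelyIrreducible)
    (h𝒟 : GaloisRep.IsDeformationCondition 𝒪 𝒟)
    {v : Module.Basis (Fin 2) (ResidueField 𝒪) ρbar.V} (D : NormData 𝒪)
    (hc : IsMatLiftOf ρbar v D.c)
    (P : ProRep.ProRepData 𝒪 Idx (NDFunctor D 𝒟)) :
    Nonempty (GaloisRep.DeformationRingData 𝒪 ρbar 𝒟) := by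
  have hloc : IsLocalHom (algebraMap 𝒪 P.R) := inferInstance
  have hres := P.residue_surjective
  have U2 : HypU2 𝒟 D P.u := fun B _ _ _ hB q hq => P.map_mem B hB q hq
  have U1 : HypU1 𝒟 D P.u := by
    intro A _ _ _ _ _ _ hA y hy
    obtain ⟨φ, hφ, h1, h2⟩ := P.lift A hA y hy
    exact ⟨φ, ⟨hφ, h1⟩, fun φ' h' => h2 φ' h'.2⟩
  exact ⟨{ R := P.R
           residue_surjective := hres
           absIrr := habs
           ρ := ofMat (univRep hloc hres U2) (matCont_univRep hloc hres U2)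
           isOfType := cond_univRep hloc hres U2 h𝒟
           residual_isEquiv := residual_isEquiv_of_isLiftOf hc
             (IsLocalRing.ResidueField.map (algebraMap 𝒪 P.R)) (fun _ => rfl)
             (matCont_univRep hloc hres U2) (isLiftOf_univRep hloc hres U2)
           universal := universal_of_hypU1 h𝒟 D hc (univRep hloc hres U2)
             (matCont_univRep hloc hres U2) (isLiftOf_univRep hloc hres U2)
             (isNormalized_univRep hloc hres U2) P.u (univRep_entry hloc hres U2) U1 }⟩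

/-- The main theorem, assuming abstract pro-representability for the functor of normalised
deformations. -/
theorem nonempty_deformationRingData_of_proRep'
    {𝒪 : Type} [CommRing 𝒪] [IsDomain 𝒪] [IsDiscreteValuationRing 𝒪]
    [IsAdicComplete (IsLocalRing.maximalIdeal 𝒪) 𝒪] [Finite (IsLocalRing.ResidueField 𝒪)]
    (ρbar : ResidualGaloisRep (IsLocalRing.ResidueField 𝒪))
    (𝒟 : ∀ ⦃A : Type⦄ [CommRing A] [IsLocalRing A] [Algebra 𝒪 A], GaloisRepAdic A → Prop)
    (habs : ρbar.IsAbsolutelyIrreducible)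
    (h𝒟 : GaloisRep.IsDeformationCondition 𝒪 𝒟)
    (hbar : 𝒟 (GaloisRepAdic.ofResidualGaloisRep ρbar))
    (hfin : GaloisRep.TangentFinite 𝒪 ρbar 𝒟)
    (hrep : ∀ (F : ∀ (A : Type) [CommRing A] [IsLocalRing A] [Algebra 𝒪 A], (Idx → A) → Prop),
      ProRep.IsClosedFunctor 𝒪 Idx F → Nonempty (ProRep.ProRepData 𝒪 Idx F)) :
    Nonempty (GaloisRep.DeformationRingData 𝒪 ρbar 𝒟) := by
  obtain ⟨v, D, hc⟩ := exists_normData (𝒪 := 𝒪) ρbar (burnside_span_eq_top ρbar habs)
  obtain ⟨P⟩ := hrep _ (isClosedFunctor_ndFunctor h𝒟 hbar hfin D hc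
    isArtinianTestAlgebra_residueField)
  exact nonempty_deformationRingData_of_proRepData habs h𝒟 D hc P

end Fermat.Agent.S53.Assembly
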