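import Mathlib
import Fermat.Prelude.Thm_IsLocalRing_isAdicComplete_of_module_finite

set_option autoImplicit false
set_option linter.unusedSectionVars false
set_option linter.style.haveILetI false

open IsLocalRing

namespace Fermat.Agent.S53.PS

section KeyFact

variable {R : Type*} [CommRing R] {σ : Type*} [Finite σ]

/-- The ideal of `MvPowerSeries σ R` generated by the variables. -/
noncomputable abbrev varIdeal (σ R : Type*) [CommRing R] : Ideal (MvPowerSeries σ R) :=
  Ideal.span (Set.range (MvPowerSeries.X : σ → MvPowerSeries σ R))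

theorem map_idealOfVars :
    (MvPolynomial.idealOfVars σ R).map (algebraMap (MvPolynomial σ R) (MvPowerSeries σ R)) =
      varIdeal σ R := by
  rw [MvPolynomial.idealOfVars, Ideal.map_span, ← Set.range_comp]
  congr 2
  funext s
  simp [MvPowerSeries.algebraMap_apply', MvPolynomial.coe_X]

/-- A power series all of whose coefficients of total degree `< n` vanish lies in the
`n`-th power of the ideal generated by the variables. -/
theorem mem_varIdeal_pow_of_coeff_eq_zero (n : ℕ) (F : MvPowerSeries σ R)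
    (h : ∀ α : σ →₀ ℕ, α.degree < n → MvPowerSeries.coeff α F = 0) :
    F ∈ varIdeal σ R ^ n := by
  classical
  set e := MvPowerSeries.toAdicCompletionAlgEquiv σ R with he
  have h0 : MvPowerSeries.truncTotal n F = 0 := by
    ext α
    rw [MvPowerSeries.coeff_truncTotal_eq_ite]
    split_ifs with hα
    · simpa using h α hα
    · simp
  have h1 : AdicCompletion.eval (MvPolynomial.idealOfVars σ R) (MvPolynomial σ R) n (e F) = 0 := by
    rw [AdicCompletion.eval_apply, he, MvPowerSeries.toAdicCompletionAlgEquiv_apply,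
      MvPowerSeries.toAdicCompletion_apply_eq_mk_truncTotal, h0]
    simp
  have h2 : e F ∈ (MvPolynomial.idealOfVars σ R ^ n • ⊤ :
      Submodule (MvPolynomial σ R)
        (AdicCompletion (MvPolynomial.idealOfVars σ R) (MvPolynomial σ R))) := by
    rw [AdicCompletion.pow_smul_top_eq_ker_eval (MvPolynomial.idealOfVars_fg σ R)]
    exact h1
  have h3 : F ∈ (MvPolynomial.idealOfVars σ R ^ n • ⊤ :
      Submodule (MvPolynomial σ R) (MvPowerSeries σ R)) := by
    have := Submodule.mem_map_of_mem (f := e.symm.toLinearMap) h2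
    rw [Submodule.map_smul'', Submodule.map_top] at this
    simpa using this
  rw [Ideal.smul_top_eq_map, Submodule.restrictScalars_mem, Ideal.map_pow, map_idealOfVars] at h3
  exact h3

end KeyFact

section CoeffIdeal

variable (𝒪 : Type*) [CommRing 𝒪] [IsLocalRing 𝒪] (σ : Type*)

/-- The ideal of power series whose coefficient at `α` lies in `𝔪 ^ (j - deg α)`. -/
def coeffIdeal (j : ℕ) : Ideal (MvPowerSeries σ 𝒪) where
  carrier := {F | ∀ α : σ →₀ ℕ, MvPowerSeries.coeff α F ∈ maximalIdeal 𝒪 ^ (j - α.degree)}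
  add_mem' := fun {F G} hF hG α => by
    rw [map_add]
    exact Ideal.add_mem _ (hF α) (hG α)
  zero_mem' := fun α => by simp
  smul_mem' := fun G F hF α => by
    classical
    rw [smul_eq_mul, MvPowerSeries.coeff_mul]
    refine Ideal.sum_mem _ fun p hp => ?_
    have hp' : p.1 + p.2 = α := by simpa using hp
    have hdeg : p.2.degree ≤ α.degree := by
      rw [← hp', map_add]
      exact Nat.le_add_left _ _
    exact Ideal.mul_mem_left _ _ (Ideal.pow_le_pow_right (by omega) (hF p.2))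

variable {𝒪 σ}

theorem mem_coeffIdeal {j : ℕ} {F : MvPowerSeries σ 𝒪} :
    F ∈ coeffIdeal 𝒪 σ j ↔
      ∀ α : σ →₀ ℕ, MvPowerSeries.coeff α F ∈ maximalIdeal 𝒪 ^ (j - α.degree) :=
  Iff.rfl

theorem coeffIdeal_zero : coeffIdeal 𝒪 σ 0 = ⊤ := by
  rw [Ideal.eq_top_iff_one, mem_coeffIdeal]
  intro α
  simp

theorem coeffIdeal_mul_le (a b : ℕ) :
    coeffIdeal 𝒪 σ a * coeffIdeal 𝒪 σ b ≤ coeffIdeal 𝒪 σ (a + b) := by
  classical
  rw [Ideal.mul_le]
  intro F hF G hG α
  rw [MvPowerSeries.coeff_mul]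
  refine Ideal.sum_mem _ fun p hp => ?_
  have hp' : p.1 + p.2 = α := by simpa using hp
  have hdeg : p.1.degree + p.2.degree = α.degree := by
    rw [← hp', map_add]
  have h1 := Ideal.mul_mem_mul (hF p.1) (hG p.2)
  rw [← pow_add] at h1
  exact Ideal.pow_le_pow_right (by omega) h1

theorem maximalIdeal_le_coeffIdeal_one :
    maximalIdeal (MvPowerSeries σ 𝒪) ≤ coeffIdeal 𝒪 σ 1 := by
  intro F hF α
  by_cases hα : α = 0
  · subst hα
    have : ¬ IsUnit (MvPowerSeries.constantCoeff F) := by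
      rw [← MvPowerSeries.isUnit_iff_constantCoeff]
      exact hF
    simpa using this
  · have : 1 ≤ α.degree := by
      rw [Nat.one_le_iff_ne_zero]
      intro h0
      exact hα ((Finsupp.degree_eq_zero_iff α).mp h0)
    rw [Nat.sub_eq_zero_of_le this, pow_zero, Ideal.one_eq_top]
    exact Submodule.mem_top

theorem maximalIdeal_pow_le_coeffIdeal (j : ℕ) :
    maximalIdeal (MvPowerSeries σ 𝒪) ^ j ≤ coeffIdeal 𝒪 σ j := by
  induction j with
  | zero => rw [coeffIdeal_zero]; exact le_top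
  | succ j ih =>
    rw [pow_succ]
    exact (Ideal.mul_mono ih maximalIdeal_le_coeffIdeal_one).trans (coeffIdeal_mul_le j 1)

theorem X_mem_maximalIdeal (s : σ) :
    (MvPowerSeries.X s : MvPowerSeries σ 𝒪) ∈ maximalIdeal (MvPowerSeries σ 𝒪) := by
  rw [mem_maximalIdeal, mem_nonunits_iff, MvPowerSeries.isUnit_iff_constantCoeff]
  simp

theorem varIdeal_le_maximalIdeal :
    varIdeal σ 𝒪 ≤ maximalIdeal (MvPowerSeries σ 𝒪) := by
  rw [varIdeal, Ideal.span_le]
  rintro _ ⟨s, rfl⟩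
  exact X_mem_maximalIdeal s

theorem C_mem_maximalIdeal_pow {n : ℕ} {c : 𝒪} (hc : c ∈ maximalIdeal 𝒪 ^ n) :
    (MvPowerSeries.C c : MvPowerSeries σ 𝒪) ∈ maximalIdeal (MvPowerSeries σ 𝒪) ^ n := by
  have h1 : (maximalIdeal 𝒪).map (MvPowerSeries.C (σ := σ) (R := 𝒪)) ≤
      maximalIdeal (MvPowerSeries σ 𝒪) := by
    rw [Ideal.map_le_iff_le_comap]
    intro a ha
    rw [Ideal.mem_comap, mem_maximalIdeal, mem_nonunits_iff,
      MvPowerSeries.isUnit_iff_constantCoeff]
    simpa using ha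
  have h2 := Ideal.mem_map_of_mem (MvPowerSeries.C (σ := σ) (R := 𝒪)) hc
  rw [Ideal.map_pow] at h2
  exact Ideal.pow_right_mono h1 n h2

theorem monomial_mem_maximalIdeal_pow [Finite σ] {j : ℕ} (α : σ →₀ ℕ) {c : 𝒪}
    (hc : c ∈ maximalIdeal 𝒪 ^ (j - α.degree)) :
    (MvPowerSeries.monomial α c : MvPowerSeries σ 𝒪) ∈ maximalIdeal (MvPowerSeries σ 𝒪) ^ j := by
  classical
  have h1 : (MvPowerSeries.monomial α (1 : 𝒪) : MvPowerSeries σ 𝒪) ∈
      maximalIdeal (MvPowerSeries σ 𝒪) ^ α.degree := by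
    refine Ideal.pow_right_mono varIdeal_le_maximalIdeal _
      (mem_varIdeal_pow_of_coeff_eq_zero _ _ fun β hβ => ?_)
    rw [MvPowerSeries.coeff_monomial, if_neg]
    rintro rfl
    exact lt_irrefl _ hβ
  have h2 : (MvPowerSeries.monomial α c : MvPowerSeries σ 𝒪) =
      MvPowerSeries.C c * MvPowerSeries.monomial α (1 : 𝒪) := by
    rw [← MvPowerSeries.monomial_zero_eq_C_apply, MvPowerSeries.monomial_mul_monomial]
    simp
  rw [h2]
  have h3 := Ideal.mul_mem_mul (C_mem_maximalIdeal_pow (σ := σ) hc) h1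
  rw [← pow_add] at h3
  exact Ideal.pow_le_pow_right (by omega) h3

theorem coeffIdeal_le_maximalIdeal_pow [Finite σ] (j : ℕ) :
    coeffIdeal 𝒪 σ j ≤ maximalIdeal (MvPowerSeries σ 𝒪) ^ j := by
  classical
  intro F hF
  set p : MvPolynomial σ 𝒪 := MvPowerSeries.truncTotal j F with hp
  have hsplit : F = (F - (p : MvPowerSeries σ 𝒪)) + (p : MvPowerSeries σ 𝒪) := by ring
  rw [hsplit]
  refine Ideal.add_mem _ ?_ ?_
  · refine Ideal.pow_right_mono varIdeal_le_maximalIdeal _
      (mem_varIdeal_pow_of_coeff_eq_zero _ _ fun α hα => ?_)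
    rw [map_sub, MvPolynomial.coeff_coe, hp, MvPowerSeries.coeff_truncTotal _ hα, sub_self]
  · have hcoe : (p : MvPowerSeries σ 𝒪) = MvPolynomial.coeToMvPowerSeries.ringHom p := rfl
    rw [hcoe, p.as_sum, map_sum]
    refine Ideal.sum_mem _ fun α _ => ?_
    rw [MvPolynomial.coeToMvPowerSeries.ringHom_apply, MvPolynomial.coe_monomial]
    refine monomial_mem_maximalIdeal_pow α ?_
    rw [hp, MvPowerSeries.coeff_truncTotal_eq_ite]
    split_ifs with hα
    · exact hF α
    · exact Ideal.zero_mem _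

theorem maximalIdeal_pow_eq_coeffIdeal [Finite σ] (j : ℕ) :
    maximalIdeal (MvPowerSeries σ 𝒪) ^ j = coeffIdeal 𝒪 σ j :=
  le_antisymm (maximalIdeal_pow_le_coeffIdeal j) (coeffIdeal_le_maximalIdeal_pow j)

end CoeffIdeal

section Complete

variable {𝒪 : Type*} [CommRing 𝒪] [IsLocalRing 𝒪] [IsNoetherianRing 𝒪]
  [IsAdicComplete (maximalIdeal 𝒪) 𝒪] {σ : Type*} [Finite σ]

/-- `𝒪⟦X_s : s ∈ σ⟧` is complete with respect to its maximal ideal. -/
theorem isAdicComplete_mvPowerSeries :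
    IsAdicComplete (maximalIdeal (MvPowerSeries σ 𝒪)) (MvPowerSeries σ 𝒪) := by
  have hH : IsHausdorff (maximalIdeal (MvPowerSeries σ 𝒪)) (MvPowerSeries σ 𝒪) := inferInstance
  have hP : IsPrecomplete (maximalIdeal (MvPowerSeries σ 𝒪)) (MvPowerSeries σ 𝒪) := by
    refine ⟨fun f hf => ?_⟩
    have hf' : ∀ {m n : ℕ}, m ≤ n → f m - f n ∈ coeffIdeal 𝒪 σ m := by
      intro m n hmn
      have := hf hmn
      rw [SModEq.sub_mem, smul_eq_mul, Ideal.mul_top] at this
      exact maximalIdeal_pow_le_coeffIdeal m this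
    have key : ∀ α : σ →₀ ℕ, ∃ c : 𝒪, ∀ n : ℕ,
        MvPowerSeries.coeff α (f (n + α.degree)) - c ∈ maximalIdeal 𝒪 ^ n := by
      intro α
      have hcau : ∀ {m n : ℕ}, m ≤ n →
          MvPowerSeries.coeff α (f (m + α.degree)) ≡ MvPowerSeries.coeff α (f (n + α.degree))
            [SMOD (maximalIdeal 𝒪 ^ m • ⊤ : Submodule 𝒪 𝒪)] := by
        intro m n hmn
        rw [SModEq.sub_mem, smul_eq_mul, Ideal.mul_top, ← map_sub]
        have := hf' (Nat.add_le_add_right hmn α.degree) α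
        rwa [Nat.add_sub_cancel] at this
      obtain ⟨c, hc⟩ := IsPrecomplete.prec (inferInstance :
        IsPrecomplete (maximalIdeal 𝒪) 𝒪) hcau
      refine ⟨c, fun n => ?_⟩
      have := hc n
      rwa [SModEq.sub_mem, smul_eq_mul, Ideal.mul_top] at this
    choose c hc using key
    obtain ⟨L, hL⟩ : ∃ L : MvPowerSeries σ 𝒪, ∀ α, MvPowerSeries.coeff α L = c α :=
      ⟨fun α => c α, fun α => rfl⟩
    refine ⟨L, fun n => ?_⟩
    rw [SModEq.sub_mem, smul_eq_mul, Ideal.mul_top]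
    refine coeffIdeal_le_maximalIdeal_pow n fun α => ?_
    rw [map_sub, hL]
    by_cases hn : α.degree ≤ n
    · have := hc α (n - α.degree)
      rw [Nat.sub_add_cancel hn] at this
      exact this
    · rw [Nat.sub_eq_zero_of_le (le_of_not_ge hn), pow_zero, Ideal.one_eq_top]
      exact Submodule.mem_top
  exact { toIsHausdorff := hH, toIsPrecomplete := hP }

end Complete

section Eval

variable {𝒪 : Type*} [CommRing 𝒪] {σ : Type*} [Finite σ]
variable {A : Type*} [CommRing A] [IsLocalRing A] [Algebra 𝒪 A]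

theorem aeval_mem_maximalIdeal_pow {y : σ → A} (hy : ∀ s, y s ∈ maximalIdeal A) {n : ℕ}
    {p : MvPolynomial σ 𝒪} (hp : p ∈ MvPolynomial.idealOfVars σ 𝒪 ^ n) :
    MvPolynomial.aeval y p ∈ maximalIdeal A ^ n := by
  have h1 : (MvPolynomial.idealOfVars σ 𝒪).map (MvPolynomial.aeval (R := 𝒪) y) ≤
      maximalIdeal A := by
    rw [MvPolynomial.idealOfVars, Ideal.map_span, Ideal.span_le]
    rintro _ ⟨_, ⟨s, rfl⟩, rfl⟩
    simpa using hy s
  have h2 := Ideal.mem_map_of_mem (MvPolynomial.aeval (R := 𝒪) y) hp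
  rw [Ideal.map_pow] at h2
  exact Ideal.pow_right_mono h1 n h2

/-- The level-`n` evaluation map `𝒪⟦X⟧ → A ⧸ 𝔪_A ^ n`. -/
noncomputable def evalLevel (y : σ → A) (hy : ∀ s, y s ∈ maximalIdeal A) (n : ℕ) :
    MvPowerSeries σ 𝒪 →ₐ[𝒪] A ⧸ maximalIdeal A ^ n :=
  (Ideal.Quotient.liftₐ (MvPolynomial.idealOfVars σ 𝒪 ^ n)
      ((Ideal.Quotient.mkₐ 𝒪 (maximalIdeal A ^ n)).comp (MvPolynomial.aeval y))
      (fun a ha => by
        rw [AlgHom.comp_apply, Ideal.Quotient.mkₐ_eq_mk, Ideal.Quotient.eq_zero_iff_mem]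
        exact aeval_mem_maximalIdeal_pow hy ha)).comp
    ((MvPowerSeries.truncTotalAlgHom σ 𝒪 n).restrictScalars 𝒪)

theorem evalLevel_apply (y : σ → A) (hy : ∀ s, y s ∈ maximalIdeal A) (n : ℕ)
    (F : MvPowerSeries σ 𝒪) :
    evalLevel y hy n F =
      Ideal.Quotient.mk (maximalIdeal A ^ n)
        (MvPolynomial.aeval y (MvPowerSeries.truncTotal n F)) := by
  rfl

theorem evalLevel_coe (y : σ → A) (hy : ∀ s, y s ∈ maximalIdeal A) (n : ℕ)
    (p : MvPolynomial σ 𝒪) :
    evalLevel y hy n (p : MvPowerSeries σ 𝒪) =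
      Ideal.Quotient.mk (maximalIdeal A ^ n) (MvPolynomial.aeval y p) := by
  have h := (MvPowerSeries.truncTotalAlgHom σ 𝒪 n).commutes p
  rw [evalLevel, AlgHom.comp_apply, AlgHom.restrictScalars_apply]
  have h' : (MvPowerSeries.truncTotalAlgHom σ 𝒪 n) (p : MvPowerSeries σ 𝒪) =
      Ideal.Quotient.mk _ p := h
  rw [h']
  rfl

theorem evalLevel_compat (y : σ → A) (hy : ∀ s, y s ∈ maximalIdeal A) {m n : ℕ} (hle : m ≤ n) :
    (Ideal.Quotient.factorₐ 𝒪 (Ideal.pow_le_pow_right (I := maximalIdeal A) hle)).comp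
      (evalLevel (𝒪 := 𝒪) y hy n) = evalLevel y hy m := by
  ext F
  rw [AlgHom.comp_apply, evalLevel_apply, evalLevel_apply, Ideal.Quotient.factorₐ_apply_mk,
    Ideal.Quotient.eq, ← map_sub]
  exact aeval_mem_maximalIdeal_pow hy
    (MvPowerSeries.truncTotal_sub_truncTotal_mem_pow_idealOfVars hle le_rfl F)

variable [IsAdicComplete (maximalIdeal A) A]

/-- Evaluation of power series at a family of elements of the maximal ideal of a complete
local `𝒪`-algebra. -/
noncomputable def evalHom (y : σ → A) (hy : ∀ s, y s ∈ maximalIdeal A) :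
    MvPowerSeries σ 𝒪 →ₐ[𝒪] A :=
  IsAdicComplete.liftAlgHom (maximalIdeal A) (evalLevel y hy)
    (fun hle => evalLevel_compat y hy hle)

theorem mk_evalHom (y : σ → A) (hy : ∀ s, y s ∈ maximalIdeal A) (n : ℕ)
    (F : MvPowerSeries σ 𝒪) :
    Ideal.Quotient.mk (maximalIdeal A ^ n) (evalHom y hy F) =
      Ideal.Quotient.mk (maximalIdeal A ^ n)
        (MvPolynomial.aeval y (MvPowerSeries.truncTotal n F)) := by
  rw [evalHom, IsAdicComplete.mk_liftAlgHom, evalLevel_apply]

theorem evalHom_coe (y : σ → A) (hy : ∀ s, y s ∈ maximalIdeal A) (p : MvPolynomial σ 𝒪) :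
    evalHom y hy (p : MvPowerSeries σ 𝒪) = MvPolynomial.aeval y p := by
  rw [IsHausdorff.eq_iff_smodEq (I := maximalIdeal A)]
  intro n
  rw [SModEq, smul_eq_mul, Ideal.mul_top]
  show Ideal.Quotient.mk _ _ = Ideal.Quotient.mk _ _
  rw [evalHom, IsAdicComplete.mk_liftAlgHom, evalLevel_coe]

@[simp]
theorem evalHom_X (y : σ → A) (hy : ∀ s, y s ∈ maximalIdeal A) (s : σ) :
    evalHom (𝒪 := 𝒪) y hy (MvPowerSeries.X s) = y s := by
  rw [← MvPolynomial.coe_X, evalHom_coe, MvPolynomial.aeval_X]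

end Eval

section Ext

variable {𝒪 : Type*} [CommRing 𝒪] {σ : Type*} [Finite σ]
variable {A : Type*} [CommRing A] [IsLocalRing A] [Algebra 𝒪 A]

/-- Every power series is a polynomial modulo the `n`-th power of the variable ideal. -/
theorem sub_truncTotal_mem_varIdeal_pow (n : ℕ) (F : MvPowerSeries σ 𝒪) :
    F - ((MvPowerSeries.truncTotal n F : MvPolynomial σ 𝒪) : MvPowerSeries σ 𝒪) ∈
      varIdeal σ 𝒪 ^ n := by
  classical
  refine mem_varIdeal_pow_of_coeff_eq_zero _ _ fun α hα => ?_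
  rw [map_sub, MvPolynomial.coeff_coe, MvPowerSeries.coeff_truncTotal _ hα, sub_self]

theorem algHom_map_varIdeal_pow_le (φ : MvPowerSeries σ 𝒪 →ₐ[𝒪] A)
    (hφ : ∀ s, φ (MvPowerSeries.X s) ∈ maximalIdeal A) (n : ℕ) {F : MvPowerSeries σ 𝒪}
    (hF : F ∈ varIdeal σ 𝒪 ^ n) : φ F ∈ maximalIdeal A ^ n := by
  have h1 : (varIdeal σ 𝒪).map φ ≤ maximalIdeal A := by
    rw [varIdeal, Ideal.map_span, Ideal.span_le]
    rintro _ ⟨_, ⟨s, rfl⟩, rfl⟩
    exact hφ s
  have h2 := Ideal.mem_map_of_mem φ hF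
  rw [Ideal.map_pow] at h2
  exact Ideal.pow_right_mono h1 n h2

/-- Two `𝒪`-algebra maps out of `𝒪⟦X⟧` into a separated local ring which agree on the
variables (and send them into the maximal ideal) are equal. -/
theorem algHom_ext_of_X [IsHausdorff (maximalIdeal A) A]
    (φ ψ : MvPowerSeries σ 𝒪 →ₐ[𝒪] A)
    (hφ : ∀ s, φ (MvPowerSeries.X s) ∈ maximalIdeal A)
    (h : ∀ s, φ (MvPowerSeries.X s) = ψ (MvPowerSeries.X s)) : φ = ψ := by
  classical
  have hψ : ∀ s, ψ (MvPowerSeries.X s) ∈ maximalIdeal A := fun s => h s ▸ hφ s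
  have hpoly : ∀ p : MvPolynomial σ 𝒪,
      φ (p : MvPowerSeries σ 𝒪) = ψ (p : MvPowerSeries σ 𝒪) := by
    intro p
    have : φ.comp (MvPolynomial.coeToMvPowerSeries.algHom (R := 𝒪) 𝒪) =
        ψ.comp (MvPolynomial.coeToMvPowerSeries.algHom (R := 𝒪) 𝒪) := by
      refine MvPolynomial.algHom_ext fun s => ?_
      simpa [MvPolynomial.coeToMvPowerSeries.algHom_apply] using h s
    have h' := congrArg (fun f => f p) this
    simpa [MvPolynomial.coeToMvPowerSeries.algHom_apply] using h'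
  ext F
  rw [IsHausdorff.eq_iff_smodEq (I := maximalIdeal A)]
  intro n
  rw [SModEq.sub_mem, smul_eq_mul, Ideal.mul_top]
  have hF := sub_truncTotal_mem_varIdeal_pow n F
  have e1 := algHom_map_varIdeal_pow_le φ hφ n hF
  have e2 := algHom_map_varIdeal_pow_le ψ hψ n hF
  rw [map_sub] at e1 e2
  have := Ideal.sub_mem _ e1 e2
  rw [hpoly] at this
  simpa using this

variable [IsLocalRing 𝒪]

omit [Finite σ] in
/-- If the residue field of `A` is that of `𝒪`, every `𝒪`-algebra map `𝒪⟦X⟧ → A` sends the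
variables into the maximal ideal. -/
theorem algHom_X_mem_maximalIdeal [IsLocalHom (algebraMap 𝒪 A)]
    (hres : Function.Surjective (IsLocalRing.residue A ∘ algebraMap 𝒪 A))
    (φ : MvPowerSeries σ 𝒪 →ₐ[𝒪] A) (s : σ) :
    φ (MvPowerSeries.X s) ∈ maximalIdeal A := by
  by_contra hu
  rw [mem_maximalIdeal, mem_nonunits_iff, not_not] at hu
  obtain ⟨a, ha⟩ := hres (IsLocalRing.residue A (φ (MvPowerSeries.X s)))
  have ha' : algebraMap 𝒪 A a - φ (MvPowerSeries.X s) ∈ maximalIdeal A := by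
    rw [← Ideal.Quotient.eq]
    exact ha
  have hau : IsUnit (algebraMap 𝒪 A a) := by
    by_contra hnu
    have h1 : algebraMap 𝒪 A a ∈ maximalIdeal A := hnu
    have h2 := Ideal.sub_mem _ h1 ha'
    rw [sub_sub_cancel] at h2
    exact h2 hu
  have hau' : IsUnit a := isUnit_of_map_unit (algebraMap 𝒪 A) a hau
  have hunit : IsUnit (MvPowerSeries.C a - MvPowerSeries.X s : MvPowerSeries σ 𝒪) := by
    rw [MvPowerSeries.isUnit_iff_constantCoeff]
    simpa using hau'
  have h3 := hunit.map φ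
  rw [map_sub, MvPowerSeries.c_eq_algebraMap, AlgHom.commutes] at h3
  exact ha' h3

/-- Any `𝒪`-algebra map `𝒪⟦X⟧ → A` is a local homomorphism (if the residue field of `A` is that
of `𝒪`). -/
theorem algHom_map_maximalIdeal_pow_le [IsLocalHom (algebraMap 𝒪 A)]
    (hres : Function.Surjective (IsLocalRing.residue A ∘ algebraMap 𝒪 A))
    (φ : MvPowerSeries σ 𝒪 →ₐ[𝒪] A) (n : ℕ) {F : MvPowerSeries σ 𝒪}
    (hF : F ∈ maximalIdeal (MvPowerSeries σ 𝒪) ^ n) : φ F ∈ maximalIdeal A ^ n := by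
  have h1 : (maximalIdeal (MvPowerSeries σ 𝒪)).map φ ≤ maximalIdeal A := by
    rw [Ideal.map_le_iff_le_comap]
    intro G hG
    rw [Ideal.mem_comap]
    by_contra hu
    rw [mem_maximalIdeal, mem_nonunits_iff, not_not] at hu
    -- `G = C c + G'` with `c` nonunit and `G'` in the variable ideal
    have hc : ¬ IsUnit (MvPowerSeries.constantCoeff G) := by
      rw [← MvPowerSeries.isUnit_iff_constantCoeff]
      exact hG
    have hG' : G - MvPowerSeries.C (MvPowerSeries.constantCoeff G) ∈ varIdeal σ 𝒪 ^ 1 := by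
      classical
      refine mem_varIdeal_pow_of_coeff_eq_zero _ _ fun α hα => ?_
      have hα0 : α = 0 := by
        have : α.degree = 0 := by omega
        exact (Finsupp.degree_eq_zero_iff α).mp this
      subst hα0
      simp
    have e1 := algHom_map_varIdeal_pow_le φ (algHom_X_mem_maximalIdeal hres φ) 1 hG'
    rw [pow_one, map_sub, MvPowerSeries.c_eq_algebraMap, AlgHom.commutes] at e1
    have e2 : algebraMap 𝒪 A (MvPowerSeries.constantCoeff G) ∈ maximalIdeal A := by
      rw [mem_maximalIdeal, mem_nonunits_iff]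
      intro h
      exact hc (isUnit_of_map_unit (algebraMap 𝒪 A) _ h)
    have e3 := Ideal.add_mem _ e1 e2
    rw [sub_add_cancel] at e3
    exact e3 hu
  have h2 := Ideal.mem_map_of_mem φ hF
  rw [Ideal.map_pow] at h2
  exact Ideal.pow_right_mono h1 n h2

theorem algHom_isLocalHom [IsLocalHom (algebraMap 𝒪 A)]
    (hres : Function.Surjective (IsLocalRing.residue A ∘ algebraMap 𝒪 A))
    (φ : MvPowerSeries σ 𝒪 →ₐ[𝒪] A) : IsLocalHom (φ : MvPowerSeries σ 𝒪 →+* A) := by
  refine ⟨fun F hF => ?_⟩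
  by_contra hnu
  have h1 : F ∈ maximalIdeal (MvPowerSeries σ 𝒪) ^ 1 := by rw [pow_one]; exact hnu
  have h2 := algHom_map_maximalIdeal_pow_le hres φ 1 h1
  rw [pow_one] at h2
  exact h2 hF

/-- Uniqueness of `𝒪`-algebra maps out of `𝒪⟦X⟧`. -/
theorem algHom_ext_of_X' [IsLocalHom (algebraMap 𝒪 A)] [IsHausdorff (maximalIdeal A) A]
    (hres : Function.Surjective (IsLocalRing.residue A ∘ algebraMap 𝒪 A))
    (φ ψ : MvPowerSeries σ 𝒪 →ₐ[𝒪] A)
    (h : ∀ s, φ (MvPowerSeries.X s) = ψ (MvPowerSeries.X s)) : φ = ψ :=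
  algHom_ext_of_X φ ψ (algHom_X_mem_maximalIdeal hres φ) h

end Ext

section Finite

/-- In a Noetherian local ring with finite residue field, all quotients by powers of the
maximal ideal are finite. -/
theorem finite_quotient_maximalIdeal_pow (R : Type*) [CommRing R] [IsLocalRing R]
    [IsNoetherianRing R] [Finite (ResidueField R)] (n : ℕ) :
    Finite (R ⧸ maximalIdeal R ^ n) := by
  haveI : Finite (R ⧸ maximalIdeal R) := ‹Finite (ResidueField R)›
  exact Ideal.finite_quotient_pow (IsNoetherian.noetherian _) n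

variable {𝒪 : Type*} [CommRing 𝒪] [IsLocalRing 𝒪] {σ : Type*}

instance isLocalHom_C : IsLocalHom (MvPowerSeries.C (σ := σ) (R := 𝒪)) := by
  refine ⟨fun a ha => ?_⟩
  rw [MvPowerSeries.isUnit_iff_constantCoeff] at ha
  simpa using ha

instance isLocalHom_algebraMap_mvPowerSeries :
    IsLocalHom (algebraMap 𝒪 (MvPowerSeries σ 𝒪)) :=
  isLocalHom_C

theorem residue_C_surjective :
    Function.Surjective (IsLocalRing.residue (MvPowerSeries σ 𝒪) ∘
      algebraMap 𝒪 (MvPowerSeries σ 𝒪)) := by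
  intro x
  obtain ⟨F, rfl⟩ := IsLocalRing.residue_surjective x
  refine ⟨MvPowerSeries.constantCoeff F, ?_⟩
  rw [Function.comp_apply, ← MvPowerSeries.c_eq_algebraMap]
  symm
  rw [← sub_eq_zero, ← map_sub, IsLocalRing.residue_eq_zero_iff, mem_maximalIdeal,
    mem_nonunits_iff, MvPowerSeries.isUnit_iff_constantCoeff]
  simp

theorem finite_residueField_mvPowerSeries [Finite (ResidueField 𝒪)] :
    Finite (ResidueField (MvPowerSeries σ 𝒪)) := by
  have hsurj : Function.Surjective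
      (IsLocalRing.ResidueField.map (algebraMap 𝒪 (MvPowerSeries σ 𝒪))) := by
    intro x
    obtain ⟨a, ha⟩ := residue_C_surjective (σ := σ) (𝒪 := 𝒪) x
    exact ⟨IsLocalRing.residue 𝒪 a, by rw [IsLocalRing.ResidueField.map_residue]; exact ha⟩
  exact Finite.of_surjective _ hsurj

theorem finite_quotient_mvPowerSeries [IsNoetherianRing 𝒪] [Finite (ResidueField 𝒪)]
    [Finite σ] (n : ℕ) :
    Finite (MvPowerSeries σ 𝒪 ⧸ maximalIdeal (MvPowerSeries σ 𝒪) ^ n) := by
  haveI := finite_residueField_mvPowerSeries (σ := σ) (𝒪 := 𝒪)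
  exact finite_quotient_maximalIdeal_pow _ n

end Finite

section Quotient

variable {𝒪 : Type*} [CommRing 𝒪] [IsLocalRing 𝒪] [IsNoetherianRing 𝒪]
  [IsAdicComplete (maximalIdeal 𝒪) 𝒪] {σ : Type*} [Finite σ]
variable (J : Ideal (MvPowerSeries σ 𝒪))

theorem quotient_isLocalRing (hJ : J ≠ ⊤) : IsLocalRing (MvPowerSeries σ 𝒪 ⧸ J) := by
  haveI : Nontrivial (MvPowerSeries σ 𝒪 ⧸ J) := Ideal.Quotient.nontrivial_iff.mpr hJ
  exact IsLocalRing.of_surjective' (Ideal.Quotient.mk J) Ideal.Quotient.mk_surjective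

theorem quotient_isLocalHom_mk (hJ : J ≠ ⊤) :
    IsLocalHom (Ideal.Quotient.mk J) := by
  haveI : Nontrivial (MvPowerSeries σ 𝒪 ⧸ J) := Ideal.Quotient.nontrivial_iff.mpr hJ
  exact IsLocalHom.of_surjective _ Ideal.Quotient.mk_surjective

theorem quotient_isLocalHom_algebraMap (hJ : J ≠ ⊤) :
    IsLocalHom (algebraMap 𝒪 (MvPowerSeries σ 𝒪 ⧸ J)) := by
  haveI := quotient_isLocalHom_mk J hJ
  have : algebraMap 𝒪 (MvPowerSeries σ 𝒪 ⧸ J) =
      (Ideal.Quotient.mk J).comp (algebraMap 𝒪 (MvPowerSeries σ 𝒪)) := rfl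
  rw [this]
  exact RingHom.isLocalHom_comp _ _

theorem quotient_isAdicComplete (hJ : J ≠ ⊤) :
    letI := quotient_isLocalRing J hJ
    IsAdicComplete (maximalIdeal (MvPowerSeries σ 𝒪 ⧸ J)) (MvPowerSeries σ 𝒪 ⧸ J) := by
  letI := quotient_isLocalRing J hJ
  haveI := isAdicComplete_mvPowerSeries (𝒪 := 𝒪) (σ := σ)
  haveI : IsLocalHom (algebraMap (MvPowerSeries σ 𝒪) (MvPowerSeries σ 𝒪 ⧸ J)) :=
    quotient_isLocalHom_mk J hJ
  exact IsLocalRing.isAdicComplete_of_module_finite (𝒪 := MvPowerSeries σ 𝒪)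

theorem quotient_residue_surjective (hJ : J ≠ ⊤) :
    letI := quotient_isLocalRing J hJ
    Function.Surjective (IsLocalRing.residue (MvPowerSeries σ 𝒪 ⧸ J) ∘
      algebraMap 𝒪 (MvPowerSeries σ 𝒪 ⧸ J)) := by
  letI := quotient_isLocalRing J hJ
  haveI := quotient_isLocalHom_mk J hJ
  intro x
  obtain ⟨y, rfl⟩ := IsLocalRing.residue_surjective x
  obtain ⟨F, rfl⟩ := Ideal.Quotient.mk_surjective y
  obtain ⟨a, ha⟩ := residue_C_surjective (σ := σ) (𝒪 := 𝒪) (IsLocalRing.residue _ F)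
  refine ⟨a, ?_⟩
  rw [Function.comp_apply] at ha ⊢
  have h1 : algebraMap 𝒪 (MvPowerSeries σ 𝒪) a - F ∈ maximalIdeal (MvPowerSeries σ 𝒪) := by
    rw [← IsLocalRing.residue_eq_zero_iff, map_sub, ha, sub_self]
  have h2 : Ideal.Quotient.mk J (algebraMap 𝒪 (MvPowerSeries σ 𝒪) a - F) ∈
      maximalIdeal (MvPowerSeries σ 𝒪 ⧸ J) := by
    rw [mem_maximalIdeal, mem_nonunits_iff]
    intro hu
    exact h1 (isUnit_of_map_unit (Ideal.Quotient.mk J) _ hu)
  rw [← sub_eq_zero, ← map_sub, IsLocalRing.residue_eq_zero_iff]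
  exact h2

end Quotient

section Nakayama

variable {𝒪 : Type*} [CommRing 𝒪]
variable {A : Type*} [CommRing A] [IsLocalRing A] [Algebra 𝒪 A]

/-- Nakayama-type generation lemma: an `𝒪`-subalgebra `B` of a local `𝒪`-algebra `A` with
nilpotent maximal ideal and residue field generated by `𝒪`, which generates the cotangent space
`𝔪 / 𝔪²`, is everything. -/
theorem subalgebra_eq_top_of_cotangent
    (hres : Function.Surjective (IsLocalRing.residue A ∘ algebraMap 𝒪 A))
    (hnil : ∃ n : ℕ, maximalIdeal A ^ n = ⊥) (B : Subalgebra 𝒪 A)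
    (h : ∀ x ∈ maximalIdeal A, ∃ b ∈ B, x - b ∈ maximalIdeal A ^ 2) : B = ⊤ := by
  -- step 1: `𝔪 ^ j ⊆ B + 𝔪 ^ (j+1)` for `j ≥ 1`
  have step : ∀ j : ℕ, 1 ≤ j → ∀ x ∈ maximalIdeal A ^ j,
      ∃ b ∈ B, x - b ∈ maximalIdeal A ^ (j + 1) := by
    intro j hj
    induction j, hj using Nat.le_induction with
    | base => simpa using h
    | succ j hj ih =>
      intro x hx
      rw [pow_succ] at hx
      refine Submodule.mul_induction_on hx ?_ ?_
      · intro u hu v hv
        obtain ⟨b, hb, hub⟩ := ih u hu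
        obtain ⟨c, hc, hvc⟩ := h v hv
        refine ⟨b * c, B.mul_mem hb hc, ?_⟩
        have hbm : b ∈ maximalIdeal A ^ j := by
          have := Ideal.sub_mem _ hu (Ideal.pow_le_pow_right (Nat.le_succ j) hub)
          simpa using this
        have e : u * v - b * c = (u - b) * v + b * (v - c) := by ring
        rw [e]
        refine Ideal.add_mem _ ?_ ?_
        · have := Ideal.mul_mem_mul hub hv
          rwa [← pow_succ] at this
        · have := Ideal.mul_mem_mul hbm hvc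
          rw [← pow_add] at this
          exact this
      · rintro u v ⟨b, hb, hub⟩ ⟨c, hc, hvc⟩
        refine ⟨b + c, B.add_mem hb hc, ?_⟩
        have e : u + v - (b + c) = (u - b) + (v - c) := by ring
        rw [e]
        exact Ideal.add_mem _ hub hvc
  -- step 2: descending induction
  obtain ⟨N, hN⟩ := hnil
  have key : ∀ i : ℕ, ∀ j : ℕ, 1 ≤ j → N ≤ j + i → ∀ x ∈ maximalIdeal A ^ j, x ∈ B := by
    intro i
    induction i with
    | zero =>
      intro j _ hNj x hx
      have : x ∈ maximalIdeal A ^ N := Ideal.pow_le_pow_right (by simpa using hNj) hx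
      rw [hN, Ideal.mem_bot] at this
      rw [this]
      exact B.zero_mem
    | succ i ih =>
      intro j hj hNj x hx
      obtain ⟨b, hb, hxb⟩ := step j hj x hx
      have := ih (j + 1) (by omega) (by omega) _ hxb
      have e : x = (x - b) + b := by ring
      rw [e]
      exact B.add_mem this hb
  have hm : ∀ x ∈ maximalIdeal A, x ∈ B := by
    intro x hx
    exact key N 1 le_rfl (by omega) x (by simpa using hx)
  rw [eq_top_iff]
  intro x _
  obtain ⟨a, ha⟩ := hres (IsLocalRing.residue A x)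
  have hxa : x - algebraMap 𝒪 A a ∈ maximalIdeal A := by
    rw [← IsLocalRing.residue_eq_zero_iff, map_sub, sub_eq_zero]
    exact ha.symm
  have e : x = (x - algebraMap 𝒪 A a) + algebraMap 𝒪 A a := by ring
  rw [e]
  exact B.add_mem (hm _ hxa) (B.algebraMap_mem a)

variable {σ : Type*} [Finite σ] [IsAdicComplete (maximalIdeal A) A]

/-- If the `y s` generate the cotangent space of `A` (Artinian local with residue field
generated by `𝒪`), then evaluation at `y` is surjective. -/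
theorem evalHom_surjective_of_cotangent
    (hres : Function.Surjective (IsLocalRing.residue A ∘ algebraMap 𝒪 A))
    (hnil : ∃ n : ℕ, maximalIdeal A ^ n = ⊥)
    (y : σ → A) (hy : ∀ s, y s ∈ maximalIdeal A)
    (h : ∀ x ∈ maximalIdeal A, ∃ b ∈ Algebra.adjoin 𝒪 (Set.range y),
      x - b ∈ maximalIdeal A ^ 2) :
    Function.Surjective (evalHom (𝒪 := 𝒪) y hy) := by
  have hle : Algebra.adjoin 𝒪 (Set.range y) ≤ (evalHom (𝒪 := 𝒪) y hy).range := by
    rw [Algebra.adjoin_le_iff]
    rintro _ ⟨s, rfl⟩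
    exact ⟨MvPowerSeries.X s, evalHom_X y hy s⟩
  have htop : (evalHom (𝒪 := 𝒪) y hy).range = ⊤ :=
    subalgebra_eq_top_of_cotangent hres hnil _ fun x hx => by
      obtain ⟨b, hb, hxb⟩ := h x hx
      exact ⟨b, hle hb, hxb⟩
  intro x
  have : x ∈ (evalHom (𝒪 := 𝒪) y hy).range := by rw [htop]; exact Algebra.mem_top
  exact this

end Nakayama

end Fermat.Agent.S53.PS
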