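import Mathlib
import Fermat.Agent.S53.PowerSeries

/-!
# Passage from Artinian levels to complete local rings (power series side)

Pure commutative algebra used for the universal property of a quotient
`MvPowerSeries σ 𝒪 ⧸ J`: evaluation maps are natural, a map out of the quotient is
determined by the images of the variables, and vanishing / values of an evaluation
map can be tested modulo all powers of the maximal ideal.
-/

set_option autoImplicit false
set_option linter.unusedSectionVars false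
set_option linter.style.haveILetI false

open IsLocalRing

namespace Fermat.Agent.S53.Cpl

open Fermat.Agent.S53.PS

section Nilpotent

variable {A : Type*} [CommRing A]

/-- A ring is Hausdorff for an ideal with a vanishing power. -/
theorem isHausdorff_of_pow_eq_bot (I : Ideal A) (h : ∃ n : ℕ, I ^ n = ⊥) :
    IsHausdorff I A := by
  obtain ⟨N, hN⟩ := h
  refine ⟨fun x hx => ?_⟩
  have h1 := hx N
  rw [SModEq.zero, smul_eq_mul, Ideal.mul_top, hN] at h1
  exact (Submodule.mem_bot A).mp h1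

/-- A ring is precomplete for an ideal with a vanishing power. -/
theorem isPrecomplete_of_pow_eq_bot (I : Ideal A) (h : ∃ n : ℕ, I ^ n = ⊥) :
    IsPrecomplete I A := by
  obtain ⟨N, hN⟩ := h
  refine ⟨fun {f} hf => ⟨f N, fun n => ?_⟩⟩
  rcases le_total n N with hle | hle
  · exact hf hle
  · have h1 : f N ≡ f n [SMOD (I ^ N • ⊤ : Submodule A A)] := hf hle
    rw [smul_eq_mul, Ideal.mul_top, hN, SModEq.bot] at h1
    rw [h1]

/-- A ring is adically complete for an ideal with a vanishing power. -/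
theorem isAdicComplete_of_pow_eq_bot (I : Ideal A) (h : ∃ n : ℕ, I ^ n = ⊥) :
    IsAdicComplete I A :=
  { isHausdorff_of_pow_eq_bot I h, isPrecomplete_of_pow_eq_bot I h with }

end Nilpotent

section Natural

variable {𝒪 : Type*} [CommRing 𝒪] {σ : Type*} [Finite σ]
variable {A : Type*} [CommRing A] [IsLocalRing A] [Algebra 𝒪 A]
variable {B : Type*} [CommRing B] [IsLocalRing B] [Algebra 𝒪 B]

/-- Every algebra map out of the power series ring sending the variables into the maximal
ideal is the evaluation at the images of the variables. -/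
theorem algHom_eq_evalHom [IsAdicComplete (maximalIdeal A) A]
    (φ : MvPowerSeries σ 𝒪 →ₐ[𝒪] A) (hφ : ∀ s, φ (MvPowerSeries.X s) ∈ maximalIdeal A) :
    φ = evalHom (fun s => φ (MvPowerSeries.X s)) hφ :=
  algHom_ext_of_X φ _ hφ fun s => (evalHom_X _ hφ s).symm

/-- Evaluation is natural in the target. -/
theorem comp_evalHom [IsAdicComplete (maximalIdeal A) A] [IsAdicComplete (maximalIdeal B) B]
    (ψ : A →ₐ[𝒪] B) (y : σ → A) (hy : ∀ s, y s ∈ maximalIdeal A)
    (hψ : ∀ s, ψ (y s) ∈ maximalIdeal B) :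
    ψ.comp (evalHom (𝒪 := 𝒪) y hy) = evalHom (fun s => ψ (y s)) hψ := by
  refine algHom_ext_of_X _ _ (fun s => ?_) (fun s => ?_)
  · rw [AlgHom.comp_apply, evalHom_X]; exact hψ s
  · rw [AlgHom.comp_apply, evalHom_X, evalHom_X]

/-- Pointwise form of `comp_evalHom`. -/
theorem map_evalHom [IsAdicComplete (maximalIdeal A) A] [IsAdicComplete (maximalIdeal B) B]
    (ψ : A →ₐ[𝒪] B) (y : σ → A) (hy : ∀ s, y s ∈ maximalIdeal A)
    (hψ : ∀ s, ψ (y s) ∈ maximalIdeal B) (F : MvPowerSeries σ 𝒪) :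
    ψ (evalHom (𝒪 := 𝒪) y hy F) = evalHom (fun s => ψ (y s)) hψ F := by
  rw [← comp_evalHom ψ y hy hψ, AlgHom.comp_apply]

/-- The evaluation map reduces to the level maps. -/
theorem mkₐ_comp_evalHom [IsAdicComplete (maximalIdeal A) A]
    (y : σ → A) (hy : ∀ s, y s ∈ maximalIdeal A) (n : ℕ) :
    (Ideal.Quotient.mkₐ 𝒪 (maximalIdeal A ^ n)).comp (evalHom (𝒪 := 𝒪) y hy) =
      evalLevel y hy n := by
  ext F
  rw [AlgHom.comp_apply, Ideal.Quotient.mkₐ_eq_mk, mk_evalHom, evalLevel_apply]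

/-- Pointwise form of `mkₐ_comp_evalHom`. -/
theorem mk_evalHom_eq_evalLevel [IsAdicComplete (maximalIdeal A) A]
    (y : σ → A) (hy : ∀ s, y s ∈ maximalIdeal A) (n : ℕ) (F : MvPowerSeries σ 𝒪) :
    Ideal.Quotient.mk (maximalIdeal A ^ n) (evalHom (𝒪 := 𝒪) y hy F) = evalLevel y hy n F := by
  rw [mk_evalHom, evalLevel_apply]

/-- The level maps are natural in the target: a map `ψ : A → B` sending the maximal ideal into
the maximal ideal, composed with evaluation, gives the level maps of the image family. -/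
theorem evalLevel_natural (ψ : A →ₐ[𝒪] B) (hψ' : ∀ a ∈ maximalIdeal A, ψ a ∈ maximalIdeal B)
    (y : σ → A) (hy : ∀ s, y s ∈ maximalIdeal A) (n : ℕ) (F : MvPowerSeries σ 𝒪) :
    evalLevel (fun s => ψ (y s)) (fun s => hψ' _ (hy s)) n F =
      Ideal.Quotient.mk (maximalIdeal B ^ n)
        (ψ (MvPolynomial.aeval y (MvPowerSeries.truncTotal n F))) := by
  rw [evalLevel_apply]
  congr 1
  rw [← AlgHom.comp_apply ψ, MvPolynomial.comp_aeval]

end Natural

section Levels

variable {𝒪 : Type*} [CommRing 𝒪] {σ : Type*} [Finite σ]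
variable {A : Type*} [CommRing A] [IsLocalRing A] [Algebra 𝒪 A]
variable [IsAdicComplete (maximalIdeal A) A]

/-- Values of the evaluation map can be tested modulo all powers of the maximal ideal. -/
theorem evalHom_eq_of_forall_level (y : σ → A) (hy : ∀ s, y s ∈ maximalIdeal A)
    (F : MvPowerSeries σ 𝒪) (a : A)
    (h : ∀ n, evalLevel y hy n F = Ideal.Quotient.mk (maximalIdeal A ^ n) a) :
    evalHom y hy F = a := by
  rw [← sub_eq_zero]
  refine IsHausdorff.haus (inferInstance : IsHausdorff (maximalIdeal A) A) _ fun n => ?_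
  rw [SModEq.zero, smul_eq_mul, Ideal.mul_top, ← Ideal.Quotient.eq, mk_evalHom_eq_evalLevel]
  exact h n

/-- Vanishing of the evaluation map can be tested modulo all powers of the maximal ideal. -/
theorem evalHom_eq_zero_of_forall_level (y : σ → A) (hy : ∀ s, y s ∈ maximalIdeal A)
    (F : MvPowerSeries σ 𝒪) (h : ∀ n, evalLevel y hy n F = 0) :
    evalHom y hy F = 0 :=
  evalHom_eq_of_forall_level y hy F 0 fun n => by rw [h n, map_zero]

end Levels

section QuotEval

variable {𝒪 : Type*} [CommRing 𝒪] {σ : Type*} [Finite σ]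
variable {A : Type*} [CommRing A] [IsLocalRing A] [Algebra 𝒪 A]
variable (J : Ideal (MvPowerSeries σ 𝒪))

/-- The map induced on a quotient of the power series ring by an evaluation killing the
ideal. -/
noncomputable def quotEval [IsAdicComplete (maximalIdeal A) A]
    (y : σ → A) (hy : ∀ s, y s ∈ maximalIdeal A)
    (h : ∀ F ∈ J, evalHom y hy F = 0) : (MvPowerSeries σ 𝒪 ⧸ J) →ₐ[𝒪] A :=
  Ideal.Quotient.liftₐ J (evalHom y hy) h

@[simp]
theorem quotEval_mk [IsAdicComplete (maximalIdeal A) A]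
    (y : σ → A) (hy : ∀ s, y s ∈ maximalIdeal A)
    (h : ∀ F ∈ J, evalHom y hy F = 0) (F : MvPowerSeries σ 𝒪) :
    quotEval J y hy h (Ideal.Quotient.mk J F) = evalHom y hy F := by
  rfl

theorem quotEval_mk_X [IsAdicComplete (maximalIdeal A) A]
    (y : σ → A) (hy : ∀ s, y s ∈ maximalIdeal A)
    (h : ∀ F ∈ J, evalHom y hy F = 0) (s : σ) :
    quotEval J y hy h (Ideal.Quotient.mk J (MvPowerSeries.X s)) = y s := by
  rw [quotEval_mk, evalHom_X]

/-- Two algebra maps out of a quotient of the power series ring which agree on the classes of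
the variables are equal (first map sends the variables into the maximal ideal). -/
theorem quot_algHom_ext_of_X [IsHausdorff (maximalIdeal A) A]
    (φ ψ : (MvPowerSeries σ 𝒪 ⧸ J) →ₐ[𝒪] A)
    (hφ : ∀ s, φ (Ideal.Quotient.mk J (MvPowerSeries.X s)) ∈ maximalIdeal A)
    (h : ∀ s, φ (Ideal.Quotient.mk J (MvPowerSeries.X s)) =
      ψ (Ideal.Quotient.mk J (MvPowerSeries.X s))) : φ = ψ := by
  have key : φ.comp (Ideal.Quotient.mkₐ 𝒪 J) = ψ.comp (Ideal.Quotient.mkₐ 𝒪 J) :=
    algHom_ext_of_X _ _ (fun s => by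
      rw [AlgHom.comp_apply, Ideal.Quotient.mkₐ_eq_mk]; exact hφ s) (fun s => by
      rw [AlgHom.comp_apply, AlgHom.comp_apply, Ideal.Quotient.mkₐ_eq_mk]; exact h s)
  ext x
  obtain ⟨F, rfl⟩ := Ideal.Quotient.mk_surjective x
  have := DFunLike.congr_fun key F
  rwa [AlgHom.comp_apply, AlgHom.comp_apply, Ideal.Quotient.mkₐ_eq_mk] at this

variable [IsLocalRing 𝒪]

/-- Same as `quot_algHom_ext_of_X`, with locality automatic. -/
theorem quot_algHom_ext_of_X' [IsLocalHom (algebraMap 𝒪 A)] [IsHausdorff (maximalIdeal A) A]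
    (hres : Function.Surjective (IsLocalRing.residue A ∘ algebraMap 𝒪 A))
    (φ ψ : (MvPowerSeries σ 𝒪 ⧸ J) →ₐ[𝒪] A)
    (h : ∀ s, φ (Ideal.Quotient.mk J (MvPowerSeries.X s)) =
      ψ (Ideal.Quotient.mk J (MvPowerSeries.X s))) : φ = ψ := by
  refine quot_algHom_ext_of_X J φ ψ (fun s => ?_) h
  have := algHom_X_mem_maximalIdeal hres (φ.comp (Ideal.Quotient.mkₐ 𝒪 J)) s
  rwa [AlgHom.comp_apply, Ideal.Quotient.mkₐ_eq_mk] at this

/-- Every algebra map from a (nontrivial) quotient of the power series ring to a local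
`𝒪`-algebra with residue field generated by `𝒪` is a local homomorphism. -/
theorem quot_algHom_isLocalHom [IsNoetherianRing 𝒪] [IsAdicComplete (maximalIdeal 𝒪) 𝒪]
    [IsLocalHom (algebraMap 𝒪 A)]
    (hres : Function.Surjective (IsLocalRing.residue A ∘ algebraMap 𝒪 A))
    (hJ : J ≠ ⊤) (φ : (MvPowerSeries σ 𝒪 ⧸ J) →ₐ[𝒪] A) :
    letI := quotient_isLocalRing J hJ
    IsLocalHom (φ : (MvPowerSeries σ 𝒪 ⧸ J) →+* A) := by
  letI := quotient_isLocalRing J hJ
  haveI := quotient_isLocalHom_mk J hJ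
  have h1 : IsLocalHom ((φ.comp (Ideal.Quotient.mkₐ 𝒪 J) : MvPowerSeries σ 𝒪 →ₐ[𝒪] A) :
      MvPowerSeries σ 𝒪 →+* A) := algHom_isLocalHom hres _
  refine ⟨fun x hx => ?_⟩
  obtain ⟨F, rfl⟩ := Ideal.Quotient.mk_surjective x
  have h2 : IsUnit F := h1.map_nonunit F hx
  exact h2.map (Ideal.Quotient.mk J)

/-- An algebra map from a quotient of the power series ring sends the `n`-th power of the
maximal ideal into the `n`-th power of the maximal ideal. -/
theorem quot_algHom_map_maximalIdeal_pow_le [IsNoetherianRing 𝒪]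
    [IsAdicComplete (maximalIdeal 𝒪) 𝒪] [IsLocalHom (algebraMap 𝒪 A)]
    (hres : Function.Surjective (IsLocalRing.residue A ∘ algebraMap 𝒪 A))
    (hJ : J ≠ ⊤) (φ : (MvPowerSeries σ 𝒪 ⧸ J) →ₐ[𝒪] A) (n : ℕ)
    {x : MvPowerSeries σ 𝒪 ⧸ J}
    (hx : letI := quotient_isLocalRing J hJ; x ∈ maximalIdeal (MvPowerSeries σ 𝒪 ⧸ J) ^ n) :
    φ x ∈ maximalIdeal A ^ n := by
  letI := quotient_isLocalRing J hJ
  haveI := quot_algHom_isLocalHom J hres hJ φ
  have hle : (maximalIdeal (MvPowerSeries σ 𝒪 ⧸ J)).map (φ : (MvPowerSeries σ 𝒪 ⧸ J) →+* A) ≤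
      maximalIdeal A := by
    rw [Ideal.map_le_iff_le_comap]
    intro a ha
    rw [Ideal.mem_comap]
    exact map_nonunit (φ : (MvPowerSeries σ 𝒪 ⧸ J) →+* A) a ha
  have h2 := Ideal.pow_right_mono hle n
  rw [← Ideal.map_pow] at h2
  exact h2 (Ideal.mem_map_of_mem _ hx)

end QuotEval

section UniversalLevels

variable {𝒪 : Type*} [CommRing 𝒪] [IsLocalRing 𝒪] {σ : Type*} [Finite σ]
variable {A : Type*} [CommRing A] [IsLocalRing A] [Algebra 𝒪 A]
variable [IsAdicComplete (maximalIdeal A) A]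
variable (J : Ideal (MvPowerSeries σ 𝒪))

/-- **Passage to complete rings.**  If all level maps of the family `y` kill `J`, there is a
unique algebra map `P ⧸ J → A` sending the class of `X s` to `y s`. -/
theorem existsUnique_quot_algHom_of_levels [IsLocalHom (algebraMap 𝒪 A)]
    (hres : Function.Surjective (IsLocalRing.residue A ∘ algebraMap 𝒪 A))
    (y : σ → A) (hy : ∀ s, y s ∈ maximalIdeal A)
    (h : ∀ n, ∀ F ∈ J, evalLevel y hy n F = 0) :
    ∃! φ : (MvPowerSeries σ 𝒪 ⧸ J) →ₐ[𝒪] A,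
      ∀ s, φ (Ideal.Quotient.mk J (MvPowerSeries.X s)) = y s := by
  have hJ0 : ∀ F ∈ J, evalHom y hy F = 0 := fun F hF =>
    evalHom_eq_zero_of_forall_level y hy F fun n => h n F hF
  refine ⟨quotEval J y hy hJ0, fun s => quotEval_mk_X J y hy hJ0 s, fun ψ hψ => ?_⟩
  refine quot_algHom_ext_of_X' J hres _ _ fun s => ?_
  rw [hψ s, quotEval_mk_X]

end UniversalLevels

end Fermat.Agent.S53.Cpl
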