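import Fermat.Agent.S53.TangentGen

/-!
# The key generation lemma in abstract (functor of points) form

`F A y` should be read as "`y : X → A` is the family of entries of a normalised deformation of
the given type over `A`".  If the points of `F` over the dual numbers are separated by a set
`S ⊆ X`, then any Artinian test algebra generated by the values of a point `y` of `F` is
already generated by the values `y x`, `x ∈ S`.
-/

set_option autoImplicit false
set_option linter.style.haveILetI false
set_option linter.unusedSectionVars false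

namespace Fermat.Agent.S53.TangentGen

open IsLocalRing

/-- **Key lemma (abstract form).** -/
theorem adjoin_image_eq_top_of_separated
    {𝒪 : Type} [CommRing 𝒪] [IsLocalRing 𝒪] {X : Type*}
    (F : ∀ (A : Type) [CommRing A] [IsLocalRing A] [Algebra 𝒪 A], (X → A) → Prop)
    (hF1 : ∀ (A B : Type) [CommRing A] [IsLocalRing A] [Algebra 𝒪 A]
      [CommRing B] [IsLocalRing B] [Algebra 𝒪 B],
      GaloisRep.IsArtinianTestAlgebra 𝒪 A → GaloisRep.IsArtinianTestAlgebra 𝒪 B →
      ∀ (φ : A →ₐ[𝒪] B), IsLocalHom (φ : A →+* B) → ∀ y : X → A, F A y → F B (φ ∘ y))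
    (S : Set X)
    (hS : letI := dualNumberAlgebra 𝒪
      ∀ y y' : X → DualNumber (ResidueField 𝒪),
        F (DualNumber (ResidueField 𝒪)) y → F (DualNumber (ResidueField 𝒪)) y' →
        (∀ x ∈ S, y x = y' x) → y = y')
    {B : Type} [CommRing B] [IsLocalRing B] [Algebra 𝒪 B]
    (hB : GaloisRep.IsArtinianTestAlgebra 𝒪 B) (y : X → B) (hy : F B y)
    (hgen : Algebra.adjoin 𝒪 (Set.range y) = ⊤) :
    Algebra.adjoin 𝒪 (y '' S) = ⊤ := by
  letI := dualNumberAlgebra 𝒪
  have hk := dualNumber_isArtinianTestAlgebra 𝒪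
  apply subalgebra_eq_top_of_tangent_sep hB
  intro t₁ t₂ h12
  have hl₁ : IsLocalHom (t₁ : B →+* DualNumber (ResidueField 𝒪)) :=
    isLocalHom_of_residue_surjective hk.residue_surjective t₁
  have hl₂ : IsLocalHom (t₂ : B →+* DualNumber (ResidueField 𝒪)) :=
    isLocalHom_of_residue_surjective hk.residue_surjective t₂
  have h1 := hF1 B (DualNumber (ResidueField 𝒪)) hB hk t₁ hl₁ y hy
  have h2 := hF1 B (DualNumber (ResidueField 𝒪)) hB hk t₂ hl₂ y hy
  have heq : (t₁ ∘ y) = (t₂ ∘ y) := by
    apply hS _ _ h1 h2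
    intro x hx
    exact h12 (y x) (Algebra.subset_adjoin ⟨x, hx, rfl⟩)
  apply AlgHom.ext_of_adjoin_eq_top hgen
  rintro _ ⟨x, rfl⟩
  exact congrFun heq x

end Fermat.Agent.S53.TangentGen
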