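import Mathlib
import Fermat.Prelude.Def_GaloisRep_DeformationCondition

/-!
# S53: closure properties of Artinian test algebras

`GaloisRep.IsArtinianTestAlgebra 𝒪 A` : `A` is a local Artinian `𝒪`-algebra, `𝒪 → A` is a local
homomorphism and `𝒪 → A → A/𝔪_A` is surjective.
-/

set_option autoImplicit false
set_option linter.unusedSectionVars false
set_option linter.unnecessarySimpa false
set_option linter.style.haveILetI false

namespace Fermat.Agent.S53.TestAlgebra

open IsLocalRing GaloisRep

variable {𝒪 : Type} [CommRing 𝒪] [IsLocalRing 𝒪]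

section Basic

variable {A : Type} [CommRing A] [IsLocalRing A] [Algebra 𝒪 A]

/-- The residue field of a test algebra is finite if that of `𝒪` is. -/
theorem finite_residueField [Finite (ResidueField 𝒪)]
    (hres : Function.Surjective (IsLocalRing.residue A ∘ algebraMap 𝒪 A)) :
    Finite (ResidueField A) := by
  -- the map `𝒪 → k_A` is surjective; it kills the maximal ideal or `k_A` would be trivial
  let f : 𝒪 →+* ResidueField A := (IsLocalRing.residue A).comp (algebraMap 𝒪 A)
  have hf : Function.Surjective f := hres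
  have hle : maximalIdeal 𝒪 ≤ RingHom.ker f := by
    intro x hx
    by_contra hne
    have hu : IsUnit (f x) := IsUnit.mk0 _ hne
    obtain ⟨y, hy⟩ := hf (hu.unit⁻¹ : (ResidueField A)ˣ)
    have h1 : f (x * y) = 1 := by rw [map_mul, hy]; exact hu.mul_val_inv
    have h2 : f (1 - x * y) = 0 := by rw [map_sub, map_one, h1, sub_self]
    have h3 : IsUnit (1 - x * y) := by
      have : x * y ∈ maximalIdeal 𝒪 := Ideal.mul_mem_right _ _ hx
      by_contra hnu
      have h4 : (1 - x * y) ∈ maximalIdeal 𝒪 := (IsLocalRing.mem_maximalIdeal _).mpr hnu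
      have : (1 : 𝒪) ∈ maximalIdeal 𝒪 := by
        have := Ideal.add_mem _ h4 this
        simpa using this
      exact (Ideal.ne_top_iff_one _).mp (IsLocalRing.maximalIdeal.isMaximal 𝒪).ne_top this
    have := h3.map f
    rw [h2] at this
    exact not_isUnit_zero this
  let g : ResidueField 𝒪 →+* ResidueField A :=
    Ideal.Quotient.lift (maximalIdeal 𝒪) f (fun x hx => hle hx)
  have hg : Function.Surjective g := by
    intro y
    obtain ⟨x, rfl⟩ := hf y
    exact ⟨IsLocalRing.residue 𝒪 x, rfl⟩
  exact Finite.of_surjective g hg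

/-- A test algebra over a ring with finite residue field is a finite set. -/
theorem finite_of_isArtinianTestAlgebra [Finite (ResidueField 𝒪)]
    (h : IsArtinianTestAlgebra 𝒪 A) : Finite A := by
  have := h.isArtinian
  have : Finite (ResidueField A) := finite_residueField h.residue_surjective
  have : IsNoetherianRing A := inferInstance
  have hfin : Finite (A ⧸ (⊥ : Ideal A)) := by
    rw [IsLocalRing.finite_quotient_iff]
    obtain ⟨n, hn⟩ := IsArtinianRing.isNilpotent_jacobson_bot (R := A)
    refine ⟨n, ?_⟩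
    rw [IsLocalRing.jacobson_eq_maximalIdeal _ bot_ne_top] at hn
    rw [hn]; exact le_of_eq rfl
  exact Finite.of_equiv _ (RingEquiv.quotientBot A).toEquiv


/-- A test algebra is (as any finite ring) such that its maximal ideal is nilpotent. -/
theorem exists_maximalIdeal_pow_eq_bot (h : IsArtinianTestAlgebra 𝒪 A) :
    ∃ n, maximalIdeal A ^ n = ⊥ := by
  have := h.isArtinian
  obtain ⟨n, hn⟩ := IsArtinianRing.isNilpotent_jacobson_bot (R := A)
  rw [IsLocalRing.jacobson_eq_maximalIdeal _ bot_ne_top] at hn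
  exact ⟨n, hn⟩

/-- For a finite local `𝒪`-algebra, being a test algebra only requires the two conditions on
the structure map. -/
theorem of_finite [Finite A] (h1 : IsLocalHom (algebraMap 𝒪 A))
    (h2 : Function.Surjective (IsLocalRing.residue A ∘ algebraMap 𝒪 A)) :
    IsArtinianTestAlgebra 𝒪 A :=
  ⟨h1, h2, inferInstance⟩

end Basic

section Subalgebra

variable {A : Type} [CommRing A] [IsLocalRing A] [Algebra 𝒪 A]

/-- In a finite ring, a subring is closed under inverses: the inclusion is a local hom. -/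
theorem isLocalHom_val_of_finite [Finite A] (B : Subalgebra 𝒪 A) :
    IsLocalHom (B.val : B →+* A) := by
  constructor
  intro b hb
  have : Finite B := Finite.of_injective (fun x : B => (x : A)) Subtype.val_injective
  apply IsArtinianRing.isUnit_of_mem_nonZeroDivisors
  rw [mem_nonZeroDivisors_iff]
  constructor
  · intro x hx
    apply Subtype.ext
    have h := congrArg (fun y : B => (y : A)) hx
    simp only [MulMemClass.coe_mul, ZeroMemClass.coe_zero] at h
    have hb' : IsUnit (b : A) := hb
    exact (hb'.mul_right_eq_zero).mp h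
  · intro x hx
    apply Subtype.ext
    have h := congrArg (fun y : B => (y : A)) hx
    simp only [MulMemClass.coe_mul, ZeroMemClass.coe_zero] at h
    have hb' : IsUnit (b : A) := hb
    exact (hb'.mul_left_eq_zero).mp h

/-- A subalgebra of a finite local ring is local. -/
theorem isLocalRing_subalgebra_of_finite [Finite A] (B : Subalgebra 𝒪 A) : IsLocalRing B :=
  haveI := isLocalHom_val_of_finite B
  RingHom.domain_isLocalRing (B.val : B →+* A)

/-- A subalgebra of a test algebra is a test algebra. -/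
theorem subalgebra [Finite (ResidueField 𝒪)] (h : IsArtinianTestAlgebra 𝒪 A)
    (B : Subalgebra 𝒪 A) [IsLocalRing B] : IsArtinianTestAlgebra 𝒪 B := by
  have hfin : Finite A := finite_of_isArtinianTestAlgebra h
  have : Finite B := Finite.of_injective (fun x : B => (x : A)) Subtype.val_injective
  have hloc := isLocalHom_val_of_finite B
  have hO := h.isLocalHom
  refine ⟨⟨fun x hx => ?_⟩, ?_, inferInstance⟩
  · have h1 : IsUnit ((B.val : B →+* A) (algebraMap 𝒪 B x)) := hx.map _
    exact hO.map_nonunit x h1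
  · intro y
    obtain ⟨b, rfl⟩ := IsLocalRing.residue_surjective (R := B) y
    obtain ⟨o, ho⟩ := h.residue_surjective (IsLocalRing.residue A (b : A))
    refine ⟨o, ?_⟩
    simp only [Function.comp_apply] at ho ⊢
    rw [← sub_eq_zero, ← map_sub, IsLocalRing.residue_eq_zero_iff] at ho ⊢
    rw [IsLocalRing.mem_maximalIdeal, mem_nonunits_iff] at ho ⊢
    intro hu
    exact ho (hu.map (B.val : B →+* A))

end Subalgebra

section Surjective

variable {A : Type} [CommRing A] [IsLocalRing A] [Algebra 𝒪 A]
variable {B : Type} [CommRing B] [IsLocalRing B] [Algebra 𝒪 B]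

/-- A surjective ring hom between local rings is local. -/
theorem isLocalHom_of_surjective (φ : A →+* B) (hφ : Function.Surjective φ) : IsLocalHom φ :=
  IsLocalHom.of_surjective φ hφ

/-- The image of a test algebra under a surjective algebra hom onto a local ring is a test
algebra. -/
theorem of_surjective (h : IsArtinianTestAlgebra 𝒪 A) (φ : A →ₐ[𝒪] B)
    (hφ : Function.Surjective φ) : IsArtinianTestAlgebra 𝒪 B := by
  have hloc : IsLocalHom (φ : A →+* B) := IsLocalHom.of_surjective _ hφ
  have hO := h.isLocalHom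
  have hart := h.isArtinian
  refine ⟨⟨fun x hx => ?_⟩, ?_, ?_⟩
  · have h1 : IsUnit ((φ : A →+* B) (algebraMap 𝒪 A x)) := by
      simpa using hx
    exact hO.map_nonunit x (hloc.map_nonunit _ h1)
  · intro y
    obtain ⟨b, rfl⟩ := IsLocalRing.residue_surjective (R := B) y
    obtain ⟨a, rfl⟩ := hφ b
    obtain ⟨o, ho⟩ := h.residue_surjective (IsLocalRing.residue A a)
    refine ⟨o, ?_⟩
    simp only [Function.comp_apply] at ho ⊢
    rw [← sub_eq_zero, ← map_sub, IsLocalRing.residue_eq_zero_iff] at ho ⊢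
    rw [IsLocalRing.mem_maximalIdeal, mem_nonunits_iff] at ho ⊢
    intro hu
    apply ho
    apply hloc.map_nonunit
    simpa using hu
  · exact (Function.Surjective.isArtinianRing (f := (φ : A →+* B)) hφ)

end Surjective

section Quotient

variable {A : Type} [CommRing A] [IsLocalRing A] [Algebra 𝒪 A]

/-- The quotient of a complete-type local `𝒪`-algebra by a power of the maximal ideal is a test
algebra.  (Only Noetherianity and finiteness of the residue field are used.) -/
theorem quotient_maximalIdeal_pow [Finite (ResidueField 𝒪)] [IsNoetherianRing A]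
    (h1 : IsLocalHom (algebraMap 𝒪 A))
    (h2 : Function.Surjective (IsLocalRing.residue A ∘ algebraMap 𝒪 A)) (n : ℕ)
    [IsLocalRing (A ⧸ maximalIdeal A ^ n)] :
    IsArtinianTestAlgebra 𝒪 (A ⧸ maximalIdeal A ^ n) := by
  have hq : Function.Surjective (Ideal.Quotient.mk (maximalIdeal A ^ n)) :=
    Ideal.Quotient.mk_surjective
  have hloc : IsLocalHom (Ideal.Quotient.mk (maximalIdeal A ^ n)) :=
    IsLocalHom.of_surjective _ hq
  have : Finite (ResidueField A) := finite_residueField h2
  have hfin : Finite (A ⧸ maximalIdeal A ^ n) :=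
    (IsLocalRing.finite_quotient_iff).mpr ⟨n, le_rfl⟩
  refine ⟨⟨fun x hx => ?_⟩, ?_, inferInstance⟩
  · have h3 : IsUnit (Ideal.Quotient.mk (maximalIdeal A ^ n) (algebraMap 𝒪 A x)) := hx
    exact h1.map_nonunit x (hloc.map_nonunit _ h3)
  · intro y
    obtain ⟨b, rfl⟩ := IsLocalRing.residue_surjective (R := A ⧸ maximalIdeal A ^ n) y
    obtain ⟨a, rfl⟩ := hq b
    obtain ⟨o, ho⟩ := h2 (IsLocalRing.residue A a)
    refine ⟨o, ?_⟩
    simp only [Function.comp_apply] at ho ⊢
    rw [← sub_eq_zero, ← map_sub, IsLocalRing.residue_eq_zero_iff] at ho ⊢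
    rw [IsLocalRing.mem_maximalIdeal, mem_nonunits_iff] at ho ⊢
    intro hu
    apply ho
    apply hloc.map_nonunit
    rw [map_sub]
    exact hu

/-- `A ⧸ 𝔪 ^ (n+1)` is a local ring. -/
theorem isLocalRing_quotient_maximalIdeal_pow_succ (n : ℕ) :
    IsLocalRing (A ⧸ maximalIdeal A ^ (n + 1)) := by
  have hne : maximalIdeal A ^ (n + 1) ≠ ⊤ := by
    intro htop
    have hle : maximalIdeal A ^ (n + 1) ≤ maximalIdeal A := Ideal.pow_le_self (Nat.succ_ne_zero n)
    rw [htop] at hle
    exact (IsLocalRing.maximalIdeal.isMaximal A).ne_top (top_le_iff.mp hle)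
  have : Nontrivial (A ⧸ maximalIdeal A ^ (n + 1)) := Ideal.Quotient.nontrivial_iff.mpr hne
  exact IsLocalRing.of_surjective' (Ideal.Quotient.mk _) Ideal.Quotient.mk_surjective

end Quotient

section Goursat

variable {P A B : Type} [CommRing P] [IsLocalRing P] [Algebra 𝒪 P]
  [CommRing A] [IsLocalRing A] [Algebra 𝒪 A] [CommRing B] [IsLocalRing B] [Algebra 𝒪 B]

/-- **Goursat's lemma** for test algebras: if `P` maps onto `A` and `B`, then `P` surjects
onto the fibre product `A ×_C B` for a test algebra `C` (a quotient of `A`).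
(Joint injectivity is not needed for this statement.) -/
theorem exists_fibreProduct_of_surjective (hA' : IsArtinianTestAlgebra 𝒪 A)
    (pA : P →ₐ[𝒪] A) (pB : P →ₐ[𝒪] B)
    (hA : Function.Surjective pA) (hB : Function.Surjective pB) :
    ∃ (C : Type) (_ : CommRing C) (_ : IsLocalRing C) (_ : Algebra 𝒪 C),
      IsArtinianTestAlgebra 𝒪 C ∧ ∃ (f : A →ₐ[𝒪] C) (g : B →ₐ[𝒪] C),
        f.comp pA = g.comp pB ∧ ∀ a b, f a = g b → ∃ x, pA x = a ∧ pB x = b := by
  classical
  let I : Ideal A := Ideal.map (pA : P →+* A) (RingHom.ker (pB : P →+* B))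
  have hmemI : ∀ a : A, a ∈ I ↔ ∃ z : P, pB z = 0 ∧ pA z = a := by
    intro a
    constructor
    · intro ha
      obtain ⟨z, hz, rfl⟩ := (Ideal.mem_map_iff_of_surjective (pA : P →+* A) hA).mp ha
      exact ⟨z, hz, rfl⟩
    · rintro ⟨z, hz, rfl⟩
      exact Ideal.mem_map_of_mem _ hz
  have hlocA : IsLocalHom (pA : P →+* A) := IsLocalHom.of_surjective _ hA
  have hI : I ≠ ⊤ := by
    intro htop
    have h1 : (1 : A) ∈ I := by rw [htop]; trivial
    obtain ⟨z, hz0, hz1⟩ := (hmemI 1).mp h1
    have hu : IsUnit z := hlocA.map_nonunit z (by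
      show IsUnit (pA z)
      rw [hz1]; exact isUnit_one)
    have := hu.map (pB : P →+* B)
    have h0 : (pB : P →+* B) z = 0 := hz0
    rw [h0] at this
    exact not_isUnit_zero this
  have hnt : Nontrivial (A ⧸ I) := Ideal.Quotient.nontrivial_iff.mpr hI
  have hlocC : IsLocalRing (A ⧸ I) :=
    IsLocalRing.of_surjective' (Ideal.Quotient.mk I) Ideal.Quotient.mk_surjective
  let f : A →ₐ[𝒪] A ⧸ I := Ideal.Quotient.mkₐ 𝒪 I
  have hf : Function.Surjective f := Ideal.Quotient.mkₐ_surjective 𝒪 I
  have hkill : ∀ x : P, x ∈ RingHom.ker (pB : P →ₐ[𝒪] B) → (f.comp pA) x = 0 := by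
    intro x hx
    show Ideal.Quotient.mk I (pA x) = 0
    rw [Ideal.Quotient.eq_zero_iff_mem]
    exact (hmemI _).mpr ⟨x, hx, rfl⟩
  let g₀ : (P ⧸ RingHom.ker (pB : P →ₐ[𝒪] B)) →ₐ[𝒪] A ⧸ I :=
    Ideal.Quotient.liftₐ (RingHom.ker (pB : P →ₐ[𝒪] B)) (f.comp pA) hkill
  let e : (P ⧸ RingHom.ker (pB : P →ₐ[𝒪] B)) ≃ₐ[𝒪] B :=
    Ideal.quotientKerAlgEquivOfSurjective hB
  let g : B →ₐ[𝒪] A ⧸ I := g₀.comp (e.symm : B →ₐ[𝒪] _)
  have hgpB : ∀ x : P, g (pB x) = f (pA x) := by
    intro x
    have h1 : e.symm (pB x) = Ideal.Quotient.mk _ x := by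
      rw [AlgEquiv.symm_apply_eq]
      rfl
    show g₀ (e.symm (pB x)) = f (pA x)
    rw [h1]
    rfl
  refine ⟨A ⧸ I, inferInstance, hlocC, inferInstance, of_surjective hA' f hf, f, g, ?_, ?_⟩
  · ext x
    exact (hgpB x).symm
  · intro a b hab
    obtain ⟨y, rfl⟩ := hB b
    rw [hgpB] at hab
    have h2 : a - pA y ∈ I := by
      rw [← Ideal.Quotient.eq_zero_iff_mem, map_sub, sub_eq_zero]
      exact hab
    obtain ⟨z, hz0, hz1⟩ := (hmemI _).mp h2
    refine ⟨y + z, ?_, ?_⟩
    · rw [map_add, hz1]; ring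
    · rw [map_add, hz0, add_zero]

end Goursat

end Fermat.Agent.S53.TestAlgebra
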