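import Mathlib.RingTheory.AdicCompletion.Basic
import Mathlib.RingTheory.Ideal.Quotient.Operations
import Mathlib.Data.Fintype.Basic

set_option autoImplicit false

/-!
# Compactness lemmas for adically complete rings with finite quotients

`P` is a commutative ring, `𝔪` an ideal, `P` is `𝔪`-adically precomplete and all `P ⧸ 𝔪 ^ n` are
finite.  We prove:

* `Fermat.Agent.S53.exists_forall_sub_mem`: a compatible, downward directed family of cosets
  `f α + I α` of ideals each containing a power of `𝔪` has a common point.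
* `Fermat.Agent.S53.exists_le_iInf_sup_pow` (Chevalley): for a downward directed family of
  ideals each containing a power of `𝔪`, for every `n` some member is contained in
  `(⨅ β, I β) ⊔ 𝔪 ^ n`.
* `Fermat.Agent.S53.exists_map_eq_of_forall_sub_mem`: closedness of the image of a ring hom
  into a Hausdorff ring.
-/

namespace Fermat.Agent.S53

section Compactness

variable {P : Type*} [CommRing P] (𝔪 : Ideal P)

/-- finite directedness from binary directedness -/
theorem exists_lower_bound_list {ι : Type*} (I : ι → Ideal P) (f : ι → P)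
    (hdir : ∀ α β, ∃ γ, I γ ≤ I α ⊓ I β ∧ f γ - f α ∈ I α ∧ f γ - f β ∈ I β)
    (α₀ : ι) (l : List ι) :
    ∃ γ, ∀ α ∈ l, I γ ≤ I α ∧ f γ - f α ∈ I α := by
  induction l with
  | nil => exact ⟨α₀, fun α hα => absurd hα (List.not_mem_nil)⟩
  | cons a l ih =>
    obtain ⟨γ', hγ'⟩ := ih
    obtain ⟨γ, hγle, hγ1, hγ2⟩ := hdir γ' a
    refine ⟨γ, fun α hα => ?_⟩
    rcases List.mem_cons.mp hα with rfl | hα
    · exact ⟨hγle.trans inf_le_right, hγ2⟩
    · obtain ⟨h1, h2⟩ := hγ' α hα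
      refine ⟨(hγle.trans inf_le_left).trans h1, ?_⟩
      have : f γ - f α = (f γ - f γ') + (f γ' - f α) := by ring
      rw [this]
      exact Ideal.add_mem _ (h1 hγ1) h2

variable {𝔪}

/-- **Compactness**: a compatible downward directed family of cosets of open ideals has a common
point. -/
theorem exists_forall_sub_mem [IsPrecomplete 𝔪 P] (hfin : ∀ n, Finite (P ⧸ 𝔪 ^ n))
    {ι : Type*} (I : ι → Ideal P) (f : ι → P)
    (hopen : ∀ α, ∃ n, 𝔪 ^ n ≤ I α)
    (hdir : ∀ α β, ∃ γ, I γ ≤ I α ⊓ I β ∧ f γ - f α ∈ I α ∧ f γ - f β ∈ I β) :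
    ∃ x : P, ∀ α, x - f α ∈ I α := by
  classical
  rcases isEmpty_or_nonempty ι with hι | ⟨⟨α₀⟩⟩
  · exact ⟨0, fun α => (hι.false α).elim⟩
  -- `Good n x`: the class of `x` modulo `𝔪 ^ n` meets every coset
  let Good : ℕ → P → Prop := fun n x => ∀ α, ∃ y, y - f α ∈ I α ∧ y - x ∈ 𝔪 ^ n
  have hstep : ∀ n x, Good n x → ∃ x', x' - x ∈ 𝔪 ^ n ∧ Good (n + 1) x' := by
    intro n x hx
    by_contra hcon
    simp only [not_exists, not_and] at hcon
    have := hfin (n + 1)
    let _ : Fintype (P ⧸ 𝔪 ^ (n + 1)) := Fintype.ofFinite _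
    -- for every class choose a bad index
    have hbad : ∀ c : P ⧸ 𝔪 ^ (n + 1), ∃ α : ι,
        (∃ x', Ideal.Quotient.mk (𝔪 ^ (n + 1)) x' = c ∧ x' - x ∈ 𝔪 ^ n) →
          ∀ y, y - f α ∈ I α → Ideal.Quotient.mk (𝔪 ^ (n + 1)) y ≠ c := by
      intro c
      by_cases hc : ∃ x', Ideal.Quotient.mk (𝔪 ^ (n + 1)) x' = c ∧ x' - x ∈ 𝔪 ^ n
      · obtain ⟨x', hx'c, hx'x⟩ := hc
        have := hcon x' hx'x
        simp only [Good, not_forall, not_exists, not_and] at this
        obtain ⟨α, hα⟩ := this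
        refine ⟨α, fun _ y hy hyc => ?_⟩
        apply hα y hy
        rw [← hx'c] at hyc
        exact (Ideal.Quotient.eq).mp hyc
      · exact ⟨α₀, fun h => absurd h hc⟩
    choose a ha using hbad
    obtain ⟨γ, hγ⟩ := exists_lower_bound_list I f hdir α₀
      ((Finset.univ : Finset (P ⧸ 𝔪 ^ (n + 1))).toList.map a)
    obtain ⟨y, hyγ, hyx⟩ := hx γ
    set c := Ideal.Quotient.mk (𝔪 ^ (n + 1)) y with hc
    have hmem : a c ∈ (Finset.univ : Finset (P ⧸ 𝔪 ^ (n + 1))).toList.map a :=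
      List.mem_map.mpr ⟨c, by simp, rfl⟩
    obtain ⟨h1, h2⟩ := hγ (a c) hmem
    have hy : y - f (a c) ∈ I (a c) := by
      have : y - f (a c) = (y - f γ) + (f γ - f (a c)) := by ring
      rw [this]
      exact Ideal.add_mem _ (h1 hyγ) h2
    exact ha c ⟨y, rfl, hyx⟩ y hy rfl
  have hgood0 : Good 0 0 := by
    intro α
    exact ⟨f α, by simp, by simp⟩
  -- build the sequence
  let seq : ∀ n, {x : P // Good n x} := fun n =>
    Nat.rec (motive := fun n => {x : P // Good n x}) ⟨0, hgood0⟩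
      (fun n xn => ⟨(hstep n xn.1 xn.2).choose, (hstep n xn.1 xn.2).choose_spec.2⟩) n
  have hseq : ∀ n, (seq (n + 1)).1 - (seq n).1 ∈ 𝔪 ^ n := fun n =>
    (hstep n (seq n).1 (seq n).2).choose_spec.1
  have hcauchy : ∀ {m n}, m ≤ n →
      (seq m).1 ≡ (seq n).1 [SMOD (𝔪 ^ m • ⊤ : Submodule P P)] := by
    intro m n hmn
    induction n, hmn using Nat.le_induction with
    | base => exact SModEq.rfl
    | succ n hmn ih =>
      refine ih.trans ?_
      rw [SModEq.sub_mem, smul_eq_mul, Ideal.mul_top]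
      have := hseq n
      rw [← neg_sub]
      exact Ideal.neg_mem_iff _ |>.mpr (Ideal.pow_le_pow_right hmn this)
  obtain ⟨L, hL⟩ := IsPrecomplete.prec ‹IsPrecomplete 𝔪 P› hcauchy
  refine ⟨L, fun α => ?_⟩
  obtain ⟨n, hn⟩ := hopen α
  obtain ⟨y, hyα, hyx⟩ := (seq n).2 α
  have h1 : (seq n).1 - L ∈ 𝔪 ^ n := by
    have := hL n
    rwa [SModEq.sub_mem, smul_eq_mul, Ideal.mul_top] at this
  have : L - f α = (y - f α) - (y - (seq n).1) - ((seq n).1 - L) := by ring
  rw [this]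
  exact Ideal.sub_mem _ (Ideal.sub_mem _ hyα (hn hyx)) (hn h1)

/-- **Chevalley's lemma** (finite-quotient version): a downward directed family of open ideals
is eventually contained in `(⨅ β, I β) ⊔ 𝔪 ^ n`, for every `n`. -/
theorem exists_le_iInf_sup_pow [IsPrecomplete 𝔪 P] (hfin : ∀ n, Finite (P ⧸ 𝔪 ^ n))
    {ι : Type*} [Nonempty ι] (I : ι → Ideal P)
    (hopen : ∀ α, ∃ n, 𝔪 ^ n ≤ I α)
    (hdir : ∀ α β, ∃ γ, I γ ≤ I α ⊓ I β) (n : ℕ) :
    ∃ α, I α ≤ (⨅ β, I β) ⊔ 𝔪 ^ n := by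
  classical
  have := hfin n
  -- images of the `I α` in the finite ring `P ⧸ 𝔪 ^ n`
  let img : ι → Set (P ⧸ 𝔪 ^ n) := fun α => (Ideal.Quotient.mk (𝔪 ^ n)) '' (I α : Set P)
  have himg_mono : ∀ {α β}, I α ≤ I β → img α ⊆ img β := fun h => Set.image_mono h
  -- choose `α₀` with minimal image
  obtain ⟨α₀, hα₀⟩ : ∃ α₀, ∀ β, img β ⊆ img α₀ → img β = img α₀ := by
    have hfinset : (Set.range img).Finite := Set.toFinite _
    obtain ⟨s, hs, hmin⟩ := hfinset.exists_minimal (Set.range_nonempty img)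
    obtain ⟨α₀, rfl⟩ := hs
    refine ⟨α₀, fun β hβ => ?_⟩
    exact le_antisymm hβ (hmin ⟨β, rfl⟩ hβ)
  have hα₀' : ∀ β, img α₀ ⊆ img β := by
    intro β
    obtain ⟨γ, hγ⟩ := hdir α₀ β
    have h1 : img γ = img α₀ := hα₀ γ (himg_mono (hγ.trans inf_le_left))
    rw [← h1]
    exact himg_mono (hγ.trans inf_le_right)
  refine ⟨α₀, fun x hx => ?_⟩
  -- for every `β` there is an element of `I β` congruent to `x` modulo `𝔪 ^ n`
  have hex : ∀ β, ∃ y, y ∈ I β ∧ y - x ∈ 𝔪 ^ n := by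
    intro β
    have hxβ : Ideal.Quotient.mk (𝔪 ^ n) x ∈ img β := hα₀' β ⟨x, hx, rfl⟩
    obtain ⟨y, hy, hyx⟩ := hxβ
    exact ⟨y, hy, (Ideal.Quotient.eq).mp hyx⟩
  choose f hfI hfx using hex
  obtain ⟨y, hy⟩ := exists_forall_sub_mem (𝔪 := 𝔪) hfin (fun β => I β ⊓ 𝔪 ^ n) f
    (fun β => by
      obtain ⟨k, hk⟩ := hopen β
      refine ⟨max k n, le_inf ((Ideal.pow_le_pow_right (le_max_left k n)).trans hk)
        (Ideal.pow_le_pow_right (le_max_right k n))⟩)
    (fun α β => by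
      obtain ⟨γ, hγ⟩ := hdir α β
      refine ⟨γ, le_inf (inf_le_inf_right _ (hγ.trans inf_le_left))
        (inf_le_inf_right _ (hγ.trans inf_le_right)), ?_, ?_⟩
      · refine ⟨Ideal.sub_mem _ ((hγ.trans inf_le_left) (hfI γ)) (hfI α), ?_⟩
        have : f γ - f α = (f γ - x) - (f α - x) := by ring
        rw [this]
        exact Ideal.sub_mem _ (hfx γ) (hfx α)
      · refine ⟨Ideal.sub_mem _ ((hγ.trans inf_le_right) (hfI γ)) (hfI β), ?_⟩
        have : f γ - f β = (f γ - x) - (f β - x) := by ring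
        rw [this]
        exact Ideal.sub_mem _ (hfx γ) (hfx β))
  -- `y` lies in all `I β` and is congruent to `x`
  have hyI : y ∈ ⨅ β, I β := by
    rw [Ideal.mem_iInf]
    intro β
    have := (hy β).1
    have h2 : y = (y - f β) + f β := by ring
    rw [h2]
    exact Ideal.add_mem _ this (hfI β)
  have hyx : x - y ∈ 𝔪 ^ n := by
    obtain ⟨β⟩ := ‹Nonempty ι›
    have h1 := (hy β).2
    have h2 : x - y = -((y - f β) + (f β - x)) := by ring
    rw [h2]
    exact Ideal.neg_mem_iff _ |>.mpr (Ideal.add_mem _ h1 (hfx β))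
  have h3 : x = y + (x - y) := by ring
  rw [h3]
  exact Ideal.add_mem _ (Ideal.mem_sup_left hyI) (Ideal.mem_sup_right hyx)

/-- **Closed image**: if `φ : P → R'` maps `𝔪` into `𝔪'`, `R'` is `𝔪'`-adically Hausdorff and
`x` is approximated modulo every `𝔪' ^ n` by elements of the image of `φ`, then `x` is in the
image of `φ`. -/
theorem exists_map_eq_of_forall_sub_mem [IsPrecomplete 𝔪 P] (hfin : ∀ n, Finite (P ⧸ 𝔪 ^ n))
    {R' : Type*} [CommRing R'] (𝔪' : Ideal R') [IsHausdorff 𝔪' R'] (φ : P →+* R')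
    (hφ : 𝔪.map φ ≤ 𝔪') (x : R') (hx : ∀ n, ∃ p, φ p - x ∈ 𝔪' ^ n) :
    ∃ p, φ p = x := by
  choose f hf using hx
  have hpow : ∀ n, 𝔪 ^ n ≤ (𝔪' ^ n).comap φ := by
    intro n
    rw [← Ideal.map_le_iff_le_comap, Ideal.map_pow]
    exact Ideal.pow_right_mono hφ n
  obtain ⟨p, hp⟩ := exists_forall_sub_mem (𝔪 := 𝔪) hfin (fun n : ℕ => (𝔪' ^ n).comap φ) f
    (fun n => ⟨n, hpow n⟩)
    (fun m n => by
      refine ⟨max m n, le_inf (Ideal.comap_mono (Ideal.pow_le_pow_right (le_max_left m n)))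
        (Ideal.comap_mono (Ideal.pow_le_pow_right (le_max_right m n))), ?_, ?_⟩
      · rw [Ideal.mem_comap, map_sub]
        have : φ (f (max m n)) - φ (f m) = (φ (f (max m n)) - x) - (φ (f m) - x) := by ring
        rw [this]
        exact Ideal.sub_mem _ (Ideal.pow_le_pow_right (le_max_left m n) (hf _)) (hf m)
      · rw [Ideal.mem_comap, map_sub]
        have : φ (f (max m n)) - φ (f n) = (φ (f (max m n)) - x) - (φ (f n) - x) := by ring
        rw [this]
        exact Ideal.sub_mem _ (Ideal.pow_le_pow_right (le_max_right m n) (hf _)) (hf n))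
  refine ⟨p, ?_⟩
  rw [← sub_eq_zero]
  apply IsHausdorff.haus ‹IsHausdorff 𝔪' R'›
  intro n
  rw [SModEq.zero, smul_eq_mul, Ideal.mul_top]
  have h1 := hp n
  rw [Ideal.mem_comap, map_sub] at h1
  have : φ p - x = (φ p - φ (f n)) + (φ (f n) - x) := by ring
  rw [this]
  exact Ideal.add_mem _ h1 (hf n)

end Compactness

end Fermat.Agent.S53
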