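import Mathlib
import Fermat.Prelude.Def_GaloisRep_DeformationCondition
import Fermat.Agent.S53.PowerSeries
import Fermat.Agent.S53.Complete
import Fermat.Agent.S53.Topology
import Fermat.Agent.S53.TestAlgebra
import Fermat.Agent.S53.TangentGen
import Fermat.Agent.S53.TangentKL

/-!
# Abstract pro-representability

A predicate `F A y` on families `y : X → A` over local `𝒪`-algebras which is stable under maps of
Artinian test algebras, descends along jointly injective pairs, has finitely many points over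
the dual numbers and at least one point, is pro-represented by a quotient of a power series
ring in finitely many variables over `𝒪`.
-/

set_option autoImplicit false
set_option linter.unusedSectionVars false
set_option linter.style.haveILetI false
set_option linter.unusedVariables false

open IsLocalRing GaloisRep

namespace Fermat.Agent.S53.ProRepB

open Fermat.Agent.S53.PS Fermat.Agent.S53.Cpl Fermat.Agent.S53.TestAlgebra
open Fermat.Agent.S53.TangentGen

variable {𝒪 : Type} [CommRing 𝒪] [IsLocalRing 𝒪]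
variable {X : Type}

/-- The hypotheses on the predicate `F`. -/
structure FunctorHyp
    (F : ∀ (A : Type) [CommRing A] [IsLocalRing A] [Algebra 𝒪 A], (X → A) → Prop) : Prop where
  mem_max : ∀ (A : Type) [CommRing A] [IsLocalRing A] [Algebra 𝒪 A],
    IsArtinianTestAlgebra 𝒪 A → ∀ y : X → A, F A y → ∀ x, y x ∈ maximalIdeal A
  map : ∀ (A B : Type) [CommRing A] [IsLocalRing A] [Algebra 𝒪 A]
    [CommRing B] [IsLocalRing B] [Algebra 𝒪 B],
    IsArtinianTestAlgebra 𝒪 A → IsArtinianTestAlgebra 𝒪 B →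
    ∀ (φ : A →ₐ[𝒪] B), IsLocalHom (φ : A →+* B) → ∀ y : X → A, F A y → F B (φ ∘ y)
  of_pair : ∀ (P A B : Type) [CommRing P] [IsLocalRing P] [Algebra 𝒪 P]
    [CommRing A] [IsLocalRing A] [Algebra 𝒪 A] [CommRing B] [IsLocalRing B] [Algebra 𝒪 B],
    IsArtinianTestAlgebra 𝒪 P → IsArtinianTestAlgebra 𝒪 A → IsArtinianTestAlgebra 𝒪 B →
    ∀ (pA : P →ₐ[𝒪] A) (pB : P →ₐ[𝒪] B),
      IsLocalHom (pA : P →+* A) → IsLocalHom (pB : P →+* B) →
      Function.Injective (fun x => (pA x, pB x)) →
      ∀ y : X → P, F A (pA ∘ y) → F B (pB ∘ y) → F P y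
  tangent : letI := dualNumberAlgebra 𝒪
    {y : X → DualNumber (ResidueField 𝒪) | F (DualNumber (ResidueField 𝒪)) y}.Finite
  point : ∃ (A : Type) (_ : CommRing A) (_ : IsLocalRing A) (_ : Algebra 𝒪 A),
    IsArtinianTestAlgebra 𝒪 A ∧ ∃ y : X → A, F A y

variable (F : ∀ (A : Type) [CommRing A] [IsLocalRing A] [Algebra 𝒪 A], (X → A) → Prop)

/-- A point of `F` over a test algebra generated by the values of the point. -/
structure Pt : Type 1 where
  A : Type
  [cr : CommRing A]
  [lr : IsLocalRing A]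
  [alg : Algebra 𝒪 A]
  test : IsArtinianTestAlgebra 𝒪 A
  y : X → A
  hy : F A y
  gen : Algebra.adjoin 𝒪 (Set.range y) = ⊤

attribute [instance] Pt.cr Pt.lr Pt.alg

variable {F}

section RestrictFam

variable {M : Type} [CommRing M] [Algebra 𝒪 M]

/-- The family `y`, viewed in the subalgebra generated by its values. -/
def restrictFam (y : X → M) : X → Algebra.adjoin 𝒪 (Set.range y) :=
  fun x => ⟨y x, Algebra.subset_adjoin ⟨x, rfl⟩⟩

@[simp]
theorem coe_restrictFam (y : X → M) (x : X) : ((restrictFam (𝒪 := 𝒪) y x : _) : M) = y x := rfl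

theorem adjoin_range_restrictFam (y : X → M) :
    Algebra.adjoin 𝒪 (Set.range (restrictFam (𝒪 := 𝒪) y)) = ⊤ := by
  have hinj : Function.Injective
      (Subalgebra.map (Algebra.adjoin 𝒪 (Set.range y)).val) :=
    Subalgebra.map_injective Subtype.val_injective
  apply hinj
  rw [AlgHom.map_adjoin, Algebra.map_top, Subalgebra.range_val]
  congr 1
  ext a
  constructor
  · rintro ⟨_, ⟨x, rfl⟩, rfl⟩
    exact ⟨x, rfl⟩
  · rintro ⟨x, rfl⟩
    exact ⟨restrictFam y x, ⟨x, rfl⟩, rfl⟩

end RestrictFam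

section Restrict

variable [Finite (ResidueField 𝒪)]
variable {A : Type} [CommRing A] [IsLocalRing A] [Algebra 𝒪 A]

/-- The generated point attached to an arbitrary point over a test algebra. -/
noncomputable def Pt.ofPoint (H : FunctorHyp F) (hA : IsArtinianTestAlgebra 𝒪 A) (y : X → A)
    (hy : F A y) : Pt F :=
  haveI : Finite A := finite_of_isArtinianTestAlgebra hA
  letI : IsLocalRing (Algebra.adjoin 𝒪 (Set.range y)) :=
    isLocalRing_subalgebra_of_finite (Algebra.adjoin 𝒪 (Set.range y))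
  { A := Algebra.adjoin 𝒪 (Set.range y)
    test := TestAlgebra.subalgebra hA _
    y := restrictFam y
    hy := by
      have hloc := isLocalHom_val_of_finite (Algebra.adjoin 𝒪 (Set.range y))
      exact H.of_pair _ A A (TestAlgebra.subalgebra hA _) hA hA
        (Algebra.adjoin 𝒪 (Set.range y)).val (Algebra.adjoin 𝒪 (Set.range y)).val hloc hloc
        (fun a b h => Subtype.val_injective (congrArg Prod.fst h)) (restrictFam y) hy hy
    gen := adjoin_range_restrictFam y }

/-- The inclusion of the generated subalgebra. -/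
noncomputable def Pt.ofPointVal (H : FunctorHyp F) (hA : IsArtinianTestAlgebra 𝒪 A) (y : X → A)
    (hy : F A y) : (Pt.ofPoint H hA y hy).A →ₐ[𝒪] A :=
  (Algebra.adjoin 𝒪 (Set.range y)).val

theorem Pt.ofPointVal_y (H : FunctorHyp F) (hA : IsArtinianTestAlgebra 𝒪 A) (y : X → A)
    (hy : F A y) (x : X) :
    Pt.ofPointVal H hA y hy ((Pt.ofPoint H hA y hy).y x) = y x := rfl

theorem Pt.ofPointVal_injective (H : FunctorHyp F) (hA : IsArtinianTestAlgebra 𝒪 A) (y : X → A)
    (hy : F A y) : Function.Injective (Pt.ofPointVal H hA y hy) :=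
  Subtype.val_injective

end Restrict

section ProdSub

variable {A B : Type} [CommRing A] [IsLocalRing A] [Algebra 𝒪 A]
  [CommRing B] [IsLocalRing B] [Algebra 𝒪 B]

/-- In the subalgebra of `A × B` generated by pairs of elements of the maximal ideals, the two
components of an element have the same residue class. -/
theorem fst_mem_iff_snd_mem (hA : IsArtinianTestAlgebra 𝒪 A) (hB : IsArtinianTestAlgebra 𝒪 B)
    (T : Set (A × B)) (hT : ∀ t ∈ T, t.1 ∈ maximalIdeal A ∧ t.2 ∈ maximalIdeal B)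
    {c : A × B} (hc : c ∈ Algebra.adjoin 𝒪 T) :
    c.1 ∈ maximalIdeal A ↔ c.2 ∈ maximalIdeal B := by
  have key : resTo hA.isLocalHom hA.residue_surjective c.1 =
      resTo hB.isLocalHom hB.residue_surjective c.2 := by
    induction hc using Algebra.adjoin_induction with
    | mem t ht =>
      rw [(resTo_eq_zero_iff _ _ _).mpr (hT t ht).1, (resTo_eq_zero_iff _ _ _).mpr (hT t ht).2]
    | algebraMap r =>
      have h1 : (algebraMap 𝒪 (A × B) r).1 = algebraMap 𝒪 A r := rfl
      have h2 : (algebraMap 𝒪 (A × B) r).2 = algebraMap 𝒪 B r := rfl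
      rw [h1, h2, resTo_algebraMap, resTo_algebraMap]
    | add x y _ _ hx hy =>
      rw [Prod.fst_add, Prod.snd_add, map_add, map_add, hx, hy]
    | mul x y _ _ hx hy =>
      rw [Prod.fst_mul, Prod.snd_mul, map_mul, map_mul, hx, hy]
  rw [← resTo_eq_zero_iff hA.isLocalHom hA.residue_surjective,
    ← resTo_eq_zero_iff hB.isLocalHom hB.residue_surjective, key]

variable [Finite (ResidueField 𝒪)]

/-- The first projection from such a subalgebra is a local homomorphism. -/
theorem isLocalHom_fst_adjoin (hA : IsArtinianTestAlgebra 𝒪 A) (hB : IsArtinianTestAlgebra 𝒪 B)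
    (T : Set (A × B)) (hT : ∀ t ∈ T, t.1 ∈ maximalIdeal A ∧ t.2 ∈ maximalIdeal B) :
    IsLocalHom (((AlgHom.fst 𝒪 A B).comp (Algebra.adjoin 𝒪 T).val : _ →ₐ[𝒪] A) :
      Algebra.adjoin 𝒪 T →+* A) := by
  haveI : Finite A := finite_of_isArtinianTestAlgebra hA
  haveI : Finite B := finite_of_isArtinianTestAlgebra hB
  haveI : Finite (Algebra.adjoin 𝒪 T) :=
    Finite.of_injective (fun x : Algebra.adjoin 𝒪 T => (x : A × B)) Subtype.val_injective
  refine ⟨fun c hc => ?_⟩
  have hc1 : IsUnit (c : A × B).1 := hc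
  have hc2 : IsUnit (c : A × B).2 := by
    by_contra hnu
    have h2 : (c : A × B).2 ∈ maximalIdeal B := (mem_maximalIdeal _).mpr hnu
    have h1 := (fst_mem_iff_snd_mem hA hB T hT c.2).mpr h2
    exact ((mem_maximalIdeal _).mp h1) hc1
  have hcu : IsUnit (c : A × B) := Prod.isUnit_iff.mpr ⟨hc1, hc2⟩
  apply IsArtinianRing.isUnit_of_mem_nonZeroDivisors
  rw [mem_nonZeroDivisors_iff]
  constructor
  · intro x hx
    apply Subtype.ext
    have h := congrArg (fun y : Algebra.adjoin 𝒪 T => (y : A × B)) hx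
    simp only [MulMemClass.coe_mul, ZeroMemClass.coe_zero] at h
    exact (hcu.mul_right_eq_zero).mp h
  · intro x hx
    apply Subtype.ext
    have h := congrArg (fun y : Algebra.adjoin 𝒪 T => (y : A × B)) hx
    simp only [MulMemClass.coe_mul, ZeroMemClass.coe_zero] at h
    exact (hcu.mul_left_eq_zero).mp h

/-- Such a subalgebra is a local ring. -/
theorem isLocalRing_adjoin_prod (hA : IsArtinianTestAlgebra 𝒪 A)
    (hB : IsArtinianTestAlgebra 𝒪 B)
    (T : Set (A × B)) (hT : ∀ t ∈ T, t.1 ∈ maximalIdeal A ∧ t.2 ∈ maximalIdeal B) :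
    IsLocalRing (Algebra.adjoin 𝒪 T) :=
  haveI := isLocalHom_fst_adjoin hA hB T hT
  RingHom.domain_isLocalRing
    (((AlgHom.fst 𝒪 A B).comp (Algebra.adjoin 𝒪 T).val : _ →ₐ[𝒪] A) : Algebra.adjoin 𝒪 T →+* A)

/-- Such a subalgebra is a test algebra. -/
theorem isArtinianTestAlgebra_adjoin_prod (hA : IsArtinianTestAlgebra 𝒪 A)
    (hB : IsArtinianTestAlgebra 𝒪 B)
    (T : Set (A × B)) (hT : ∀ t ∈ T, t.1 ∈ maximalIdeal A ∧ t.2 ∈ maximalIdeal B)
    [IsLocalRing (Algebra.adjoin 𝒪 T)] :
    IsArtinianTestAlgebra 𝒪 (Algebra.adjoin 𝒪 T) := by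
  haveI : Finite A := finite_of_isArtinianTestAlgebra hA
  haveI : Finite B := finite_of_isArtinianTestAlgebra hB
  haveI : Finite (Algebra.adjoin 𝒪 T) :=
    Finite.of_injective (fun x : Algebra.adjoin 𝒪 T => (x : A × B)) Subtype.val_injective
  have hloc := isLocalHom_fst_adjoin hA hB T hT
  have hO := hA.isLocalHom
  refine ⟨⟨fun x hx => ?_⟩, ?_, inferInstance⟩
  · have h1 : IsUnit ((((AlgHom.fst 𝒪 A B).comp (Algebra.adjoin 𝒪 T).val : _ →ₐ[𝒪] A) :
        Algebra.adjoin 𝒪 T →+* A) (algebraMap 𝒪 (Algebra.adjoin 𝒪 T) x)) := hx.map _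
    exact hO.map_nonunit x h1
  · intro z
    obtain ⟨c, rfl⟩ := IsLocalRing.residue_surjective (R := Algebra.adjoin 𝒪 T) z
    obtain ⟨o, ho⟩ := hA.residue_surjective (IsLocalRing.residue A (c : A × B).1)
    refine ⟨o, ?_⟩
    simp only [Function.comp_apply] at ho ⊢
    rw [← sub_eq_zero, ← map_sub, IsLocalRing.residue_eq_zero_iff] at ho ⊢
    rw [IsLocalRing.mem_maximalIdeal, mem_nonunits_iff] at ho ⊢
    intro hu
    exact ho (hu.map (((AlgHom.fst 𝒪 A B).comp (Algebra.adjoin 𝒪 T).val : _ →ₐ[𝒪] A) :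
      Algebra.adjoin 𝒪 T →+* A))

end ProdSub

section Pair

variable [Finite (ResidueField 𝒪)]

/-- The family of pairs of values of two points. -/
def pairFam (α β : Pt F) : X → α.A × β.A := fun x => (α.y x, β.y x)

theorem pairFam_mem (H : FunctorHyp F) (α β : Pt F) :
    ∀ t ∈ Set.range (pairFam α β), t.1 ∈ maximalIdeal α.A ∧ t.2 ∈ maximalIdeal β.A := by
  rintro _ ⟨x, rfl⟩
  exact ⟨H.mem_max α.A α.test α.y α.hy x, H.mem_max β.A β.test β.y β.hy x⟩

/-- The point over the subalgebra of the product generated by the values of two points. -/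
noncomputable def Pt.pair (H : FunctorHyp F) (α β : Pt F) : Pt F :=
  letI : IsLocalRing (Algebra.adjoin 𝒪 (Set.range (pairFam α β))) :=
    isLocalRing_adjoin_prod α.test β.test _ (pairFam_mem H α β)
  have htest : IsArtinianTestAlgebra 𝒪 (Algebra.adjoin 𝒪 (Set.range (pairFam α β))) :=
    isArtinianTestAlgebra_adjoin_prod α.test β.test _ (pairFam_mem H α β)
  { A := Algebra.adjoin 𝒪 (Set.range (pairFam α β))
    test := htest
    y := restrictFam (pairFam α β)
    hy := by
      refine H.of_pair _ α.A β.A htest α.test β.test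
        ((AlgHom.fst 𝒪 α.A β.A).comp (Algebra.adjoin 𝒪 (Set.range (pairFam α β))).val)
        ((AlgHom.snd 𝒪 α.A β.A).comp (Algebra.adjoin 𝒪 (Set.range (pairFam α β))).val)
        (isLocalHom_of_residue_surjective α.test.residue_surjective _)
        (isLocalHom_of_residue_surjective β.test.residue_surjective _)
        (fun a b h => ?_) (restrictFam (pairFam α β)) α.hy β.hy
      apply Subtype.ext
      exact Prod.ext (congrArg Prod.fst h) (congrArg Prod.snd h)
    gen := adjoin_range_restrictFam _ }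

/-- The first projection of the pair point. -/
noncomputable def Pt.pairFst (H : FunctorHyp F) (α β : Pt F) : (Pt.pair H α β).A →ₐ[𝒪] α.A :=
  (AlgHom.fst 𝒪 α.A β.A).comp (Algebra.adjoin 𝒪 (Set.range (pairFam α β))).val

/-- The second projection of the pair point. -/
noncomputable def Pt.pairSnd (H : FunctorHyp F) (α β : Pt F) : (Pt.pair H α β).A →ₐ[𝒪] β.A :=
  (AlgHom.snd 𝒪 α.A β.A).comp (Algebra.adjoin 𝒪 (Set.range (pairFam α β))).val

theorem Pt.pairFst_comp_y (H : FunctorHyp F) (α β : Pt F) :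
    Pt.pairFst H α β ∘ (Pt.pair H α β).y = α.y := rfl

theorem Pt.pairSnd_comp_y (H : FunctorHyp F) (α β : Pt F) :
    Pt.pairSnd H α β ∘ (Pt.pair H α β).y = β.y := rfl

end Pair

section Eval

variable (S : Finset X)
variable {A : Type} [CommRing A] [IsLocalRing A] [Algebra 𝒪 A]
variable {B : Type} [CommRing B] [IsLocalRing B] [Algebra 𝒪 B]

/-- Evaluation of power series in the variables `S` at the `S`-entries of a point over a test
algebra. -/
noncomputable def evT (H : FunctorHyp F) (hA : IsArtinianTestAlgebra 𝒪 A) (y : X → A)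
    (hy : F A y) : MvPowerSeries S 𝒪 →ₐ[𝒪] A :=
  haveI := isAdicComplete_of_pow_eq_bot (maximalIdeal A) (exists_maximalIdeal_pow_eq_bot hA)
  evalHom (fun s : S => y s) (fun s => H.mem_max A hA y hy s)

theorem evT_X (H : FunctorHyp F) (hA : IsArtinianTestAlgebra 𝒪 A) (y : X → A)
    (hy : F A y) (s : S) : evT S H hA y hy (MvPowerSeries.X s) = y s := by
  haveI := isAdicComplete_of_pow_eq_bot (maximalIdeal A) (exists_maximalIdeal_pow_eq_bot hA)
  exact evalHom_X _ _ s

/-- An algebra map from the power series ring with the right values on the variables is the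
evaluation map. -/
theorem eq_evT_of_X (H : FunctorHyp F) (hA : IsArtinianTestAlgebra 𝒪 A) (y : X → A)
    (hy : F A y) (φ : MvPowerSeries S 𝒪 →ₐ[𝒪] A)
    (h : ∀ s : S, φ (MvPowerSeries.X s) = y s) : φ = evT S H hA y hy := by
  haveI := isHausdorff_of_pow_eq_bot (maximalIdeal A) (exists_maximalIdeal_pow_eq_bot hA)
  refine algHom_ext_of_X φ _ (fun s => ?_) (fun s => ?_)
  · rw [h s]; exact H.mem_max A hA y hy s
  · rw [h s, evT_X]

/-- Naturality of the evaluation maps. -/
theorem map_evT (H : FunctorHyp F) (hA : IsArtinianTestAlgebra 𝒪 A) (y : X → A)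
    (hy : F A y) (hB : IsArtinianTestAlgebra 𝒪 B) (φ : A →ₐ[𝒪] B) (hy' : F B (φ ∘ y))
    (G : MvPowerSeries S 𝒪) :
    φ (evT S H hA y hy G) = evT S H hB (φ ∘ y) hy' G := by
  have := eq_evT_of_X S H hB (φ ∘ y) hy' (φ.comp (evT S H hA y hy)) (fun s => by
    rw [AlgHom.comp_apply, evT_X]; rfl)
  rw [← this, AlgHom.comp_apply]

/-- The kernel of an evaluation map is open. -/
theorem evT_mem_pow (H : FunctorHyp F) (hA : IsArtinianTestAlgebra 𝒪 A) (y : X → A)
    (hy : F A y) (n : ℕ) {G : MvPowerSeries S 𝒪}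
    (hG : G ∈ maximalIdeal (MvPowerSeries S 𝒪) ^ n) :
    evT S H hA y hy G ∈ maximalIdeal A ^ n := by
  haveI := hA.isLocalHom
  exact algHom_map_maximalIdeal_pow_le hA.residue_surjective _ n hG

theorem exists_pow_le_ker_evT (H : FunctorHyp F) (hA : IsArtinianTestAlgebra 𝒪 A) (y : X → A)
    (hy : F A y) :
    ∃ n, maximalIdeal (MvPowerSeries S 𝒪) ^ n ≤
      RingHom.ker (evT S H hA y hy : MvPowerSeries S 𝒪 →+* A) := by
  obtain ⟨n, hn⟩ := exists_maximalIdeal_pow_eq_bot hA
  refine ⟨n, fun G hG => ?_⟩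
  have := evT_mem_pow S H hA y hy n hG
  rw [hn] at this
  exact (RingHom.mem_ker).mpr ((Submodule.mem_bot A).mp this)

end Eval

section Separating

/-- The separation property of a finite set of indices. -/
def Separates (F : ∀ (A : Type) [CommRing A] [IsLocalRing A] [Algebra 𝒪 A], (X → A) → Prop)
    (S : Finset X) : Prop :=
  letI := dualNumberAlgebra 𝒪
  ∀ y y' : X → DualNumber (ResidueField 𝒪),
    F (DualNumber (ResidueField 𝒪)) y → F (DualNumber (ResidueField 𝒪)) y' →
    (∀ x ∈ (S : Set X), y x = y' x) → y = y'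

theorem exists_separates (H : FunctorHyp F) : ∃ S : Finset X, Separates F S := by
  letI := dualNumberAlgebra 𝒪
  obtain ⟨S, hS⟩ := exists_finset_separating _ H.tangent
  exact ⟨S, fun y y' hy hy' h => hS y hy y' hy' fun x hx => h x (Finset.mem_coe.mpr hx)⟩

variable {S : Finset X}

/-- The evaluation map of a generated point is surjective. -/
theorem evT_surjective (H : FunctorHyp F) (hS : Separates F S) (α : Pt F) :
    Function.Surjective (evT S H α.test α.y α.hy) := by
  have hgen : Algebra.adjoin 𝒪 (α.y '' (S : Set X)) = ⊤ :=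
    adjoin_image_eq_top_of_separated F H.map (S : Set X) hS α.test α.y α.hy α.gen
  rw [← AlgHom.range_eq_top, eq_top_iff, ← hgen, Algebra.adjoin_le_iff]
  rintro _ ⟨x, hx, rfl⟩
  exact ⟨MvPowerSeries.X ⟨x, Finset.mem_coe.mp hx⟩, evT_X S H α.test α.y α.hy _⟩

end Separating

section Kernel

variable [IsNoetherianRing 𝒪] [IsAdicComplete (maximalIdeal 𝒪) 𝒪] [Finite (ResidueField 𝒪)]
variable (H : FunctorHyp F) (S : Finset X)

/-- The kernel of the evaluation map of a generated point. -/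
noncomputable def kerI (α : Pt F) : Ideal (MvPowerSeries S 𝒪) :=
  RingHom.ker (evT S H α.test α.y α.hy : MvPowerSeries S 𝒪 →+* α.A)

theorem mem_kerI {α : Pt F} {G : MvPowerSeries S 𝒪} :
    G ∈ kerI H S α ↔ evT S H α.test α.y α.hy G = 0 := RingHom.mem_ker

/-- The intersection of all kernels. -/
noncomputable def kerJ : Ideal (MvPowerSeries S 𝒪) := ⨅ α : Pt F, kerI H S α

theorem mem_kerJ {G : MvPowerSeries S 𝒪} :
    G ∈ kerJ H S ↔ ∀ α : Pt F, evT S H α.test α.y α.hy G = 0 := by
  rw [kerJ, Ideal.mem_iInf]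
  exact forall_congr' fun α => mem_kerI H S

theorem pairFst_evT (α β : Pt F) (G : MvPowerSeries S 𝒪) :
    Pt.pairFst H α β (evT S H (Pt.pair H α β).test (Pt.pair H α β).y (Pt.pair H α β).hy G) =
      evT S H α.test α.y α.hy G :=
  map_evT S H (Pt.pair H α β).test (Pt.pair H α β).y (Pt.pair H α β).hy α.test
    (Pt.pairFst H α β) α.hy G

theorem pairSnd_evT (α β : Pt F) (G : MvPowerSeries S 𝒪) :
    Pt.pairSnd H α β (evT S H (Pt.pair H α β).test (Pt.pair H α β).y (Pt.pair H α β).hy G) =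
      evT S H β.test β.y β.hy G :=
  map_evT S H (Pt.pair H α β).test (Pt.pair H α β).y (Pt.pair H α β).hy β.test
    (Pt.pairSnd H α β) β.hy G

theorem kerI_pair_le (α β : Pt F) : kerI H S (Pt.pair H α β) ≤ kerI H S α ⊓ kerI H S β := by
  intro G hG
  rw [mem_kerI] at hG
  refine ⟨?_, ?_⟩
  · rw [SetLike.mem_coe, mem_kerI, ← pairFst_evT H S α β, hG, map_zero]
  · rw [SetLike.mem_coe, mem_kerI, ← pairSnd_evT H S α β, hG, map_zero]

include H in
theorem nonempty_pt : Nonempty (Pt F) := by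
  obtain ⟨A, _, _, _, hA, y, hy⟩ := H.point
  exact ⟨Pt.ofPoint H hA y hy⟩

theorem exists_pow_le_kerI (α : Pt F) :
    ∃ n, maximalIdeal (MvPowerSeries S 𝒪) ^ n ≤ kerI H S α :=
  exists_pow_le_ker_evT S H α.test α.y α.hy

theorem kerJ_ne_top : kerJ H S ≠ ⊤ := by
  obtain ⟨α⟩ := nonempty_pt H
  intro htop
  have h1 : (1 : MvPowerSeries S 𝒪) ∈ kerJ H S := by rw [htop]; trivial
  have h2 := (mem_kerJ H S).mp h1 α
  rw [map_one] at h2
  exact one_ne_zero h2

variable {S}

/-- Values of evaluation maps at arbitrary points reduce to those at generated points. -/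
theorem evT_eq_val {A : Type} [CommRing A] [IsLocalRing A] [Algebra 𝒪 A]
    (hA : IsArtinianTestAlgebra 𝒪 A) (y : X → A) (hy : F A y) (G : MvPowerSeries S 𝒪) :
    evT S H hA y hy G = Pt.ofPointVal H hA y hy
      (evT S H (Pt.ofPoint H hA y hy).test (Pt.ofPoint H hA y hy).y (Pt.ofPoint H hA y hy).hy G) :=
  (map_evT S H (Pt.ofPoint H hA y hy).test (Pt.ofPoint H hA y hy).y (Pt.ofPoint H hA y hy).hy hA
    (Pt.ofPointVal H hA y hy) hy G).symm

/-- Elements of `kerJ` are killed by all evaluation maps. -/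
theorem evT_eq_zero_of_mem_kerJ {A : Type} [CommRing A] [IsLocalRing A] [Algebra 𝒪 A]
    (hA : IsArtinianTestAlgebra 𝒪 A) (y : X → A) (hy : F A y) {G : MvPowerSeries S 𝒪}
    (hG : G ∈ kerJ H S) : evT S H hA y hy G = 0 := by
  rw [evT_eq_val, (mem_kerJ H S).mp hG, map_zero]

/-- Existence of a power series with prescribed values at all generated points. -/
theorem exists_lift (hS : Separates F S) (x : X) :
    ∃ p : MvPowerSeries S 𝒪, ∀ α : Pt F, evT S H α.test α.y α.hy p = α.y x := by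
  haveI := isAdicComplete_mvPowerSeries (𝒪 := 𝒪) (σ := S)
  have hfin : ∀ n, Finite (MvPowerSeries S 𝒪 ⧸ maximalIdeal (MvPowerSeries S 𝒪) ^ n) :=
    fun n => finite_quotient_mvPowerSeries n
  choose f hf using fun α : Pt F => evT_surjective H hS α (α.y x)
  obtain ⟨p, hp⟩ := exists_forall_sub_mem (𝔪 := maximalIdeal (MvPowerSeries S 𝒪)) hfin
    (kerI H S) f (exists_pow_le_kerI H S) (fun α β => ⟨Pt.pair H α β, kerI_pair_le H S α β, by
      rw [mem_kerI, map_sub, sub_eq_zero, hf α, ← pairFst_evT H S α β, hf]; rfl, by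
      rw [mem_kerI, map_sub, sub_eq_zero, hf β, ← pairSnd_evT H S α β, hf]; rfl⟩)
  refine ⟨p, fun α => ?_⟩
  have := hp α
  rw [mem_kerI, map_sub, sub_eq_zero, hf α] at this
  exact this

end Kernel

section Universal

variable [IsNoetherianRing 𝒪] [IsAdicComplete (maximalIdeal 𝒪) 𝒪] [Finite (ResidueField 𝒪)]
variable (H : FunctorHyp F) {S : Finset X} (hS : Separates F S)

/-- A power series whose value at every point is the `x`-entry of the point. -/
noncomputable def uLift (x : X) : MvPowerSeries S 𝒪 := Classical.choose (exists_lift H hS x)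

theorem evT_uLift_pt (α : Pt F) (x : X) :
    evT S H α.test α.y α.hy (uLift H hS x) = α.y x :=
  Classical.choose_spec (exists_lift H hS x) α

theorem evT_uLift {A : Type} [CommRing A] [IsLocalRing A] [Algebra 𝒪 A]
    (hA : IsArtinianTestAlgebra 𝒪 A) (y : X → A) (hy : F A y) (x : X) :
    evT S H hA y hy (uLift H hS x) = y x := by
  rw [evT_eq_val, evT_uLift_pt]
  rfl

theorem uLift_sub_X_mem (s : S) :
    uLift H hS (s : X) - MvPowerSeries.X s ∈ kerJ H S := by
  rw [mem_kerJ]
  intro α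
  rw [map_sub, evT_uLift_pt, evT_X, sub_self]

/-- The universal family. -/
noncomputable def univFam (x : X) : MvPowerSeries S 𝒪 ⧸ kerJ H S :=
  Ideal.Quotient.mk _ (uLift H hS x)

theorem univFam_coe (s : S) :
    univFam H hS (s : X) = Ideal.Quotient.mk (kerJ H S) (MvPowerSeries.X s) :=
  Ideal.Quotient.eq.mpr (uLift_sub_X_mem H hS s)

/-- (U2) Every algebra map from the universal ring to a test algebra carries the universal
family to a point of `F`. -/
theorem univ_U2 (B : Type) [CommRing B] [IsLocalRing B] [Algebra 𝒪 B]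
    (hB : IsArtinianTestAlgebra 𝒪 B) (q : (MvPowerSeries S 𝒪 ⧸ kerJ H S) →ₐ[𝒪] B) :
    F B (q ∘ univFam H hS) := by
  haveI := isAdicComplete_mvPowerSeries (𝒪 := 𝒪) (σ := S)
  have hfin : ∀ n, Finite (MvPowerSeries S 𝒪 ⧸ maximalIdeal (MvPowerSeries S 𝒪) ^ n) :=
    fun n => finite_quotient_mvPowerSeries n
  haveI := nonempty_pt H
  obtain ⟨n, hn⟩ := exists_maximalIdeal_pow_eq_bot hB
  let q' : MvPowerSeries S 𝒪 →ₐ[𝒪] B := q.comp (Ideal.Quotient.mkₐ 𝒪 (kerJ H S))
  obtain ⟨α, hα⟩ := exists_le_iInf_sup_pow (𝔪 := maximalIdeal (MvPowerSeries S 𝒪)) hfin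
    (kerI H S) (exists_pow_le_kerI H S) (fun α β => ⟨Pt.pair H α β, kerI_pair_le H S α β⟩) n
  have hker : RingHom.ker (evT S H α.test α.y α.hy) ≤ RingHom.ker q' := by
    intro G hG
    have h1 : G ∈ kerJ H S ⊔ maximalIdeal (MvPowerSeries S 𝒪) ^ n := hα hG
    obtain ⟨a, ha, b, hb, rfl⟩ := Submodule.mem_sup.mp h1
    have ha0 : q' a = 0 := by
      show q (Ideal.Quotient.mk (kerJ H S) a) = 0
      rw [Ideal.Quotient.eq_zero_iff_mem.mpr ha, map_zero]
    have hb0 : q' b = 0 := by
      haveI := hB.isLocalHom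
      have := algHom_map_maximalIdeal_pow_le hB.residue_surjective q' n hb
      rw [hn] at this
      exact (Submodule.mem_bot B).mp this
    rw [RingHom.mem_ker, map_add, ha0, hb0, add_zero]
  let ψ : α.A →ₐ[𝒪] B := AlgHom.liftOfSurjective (evT S H α.test α.y α.hy)
    (evT_surjective H hS α) q' hker
  have hψ : ∀ G, ψ (evT S H α.test α.y α.hy G) = q' G := fun G =>
    AlgHom.liftOfSurjective_apply _ _ _ _ G
  have heq : q ∘ univFam H hS = ψ ∘ α.y := by
    funext x
    show q (Ideal.Quotient.mk _ (uLift H hS x)) = ψ (α.y x)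
    rw [← evT_uLift_pt H hS α x, hψ]
    rfl
  rw [heq]
  exact H.map α.A B α.test hB ψ (isLocalHom_of_residue_surjective hB.residue_surjective ψ)
    α.y α.hy

section Complete

variable {A : Type} [CommRing A] [IsLocalRing A] [IsNoetherianRing A]
  [IsAdicComplete (maximalIdeal A) A] [Algebra 𝒪 A] [IsLocalHom (algebraMap 𝒪 A)]

/-- Equality in a Hausdorff local ring can be tested modulo the powers `𝔪 ^ (n + 1)`. -/
theorem eq_of_forall_mk_succ_eq {A : Type} [CommRing A] [IsLocalRing A]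
    [IsHausdorff (maximalIdeal A) A] (a b : A)
    (h : ∀ n : ℕ, Ideal.Quotient.mk (maximalIdeal A ^ (n + 1)) a =
      Ideal.Quotient.mk (maximalIdeal A ^ (n + 1)) b) : a = b := by
  rw [← sub_eq_zero]
  refine IsHausdorff.haus (inferInstance : IsHausdorff (maximalIdeal A) A) _ fun n => ?_
  rw [SModEq.zero, smul_eq_mul, Ideal.mul_top]
  have h1 : a - b ∈ maximalIdeal A ^ (n + 1) := Ideal.Quotient.eq.mp (h n)
  exact Ideal.pow_le_pow_right (Nat.le_succ n) h1

/-- The levels of a family over a complete ring all of whose Artinian quotients carry points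
of `F`. -/
theorem exists_level (hres : Function.Surjective (IsLocalRing.residue A ∘ algebraMap 𝒪 A))
    (y : X → A)
    (hy : ∀ (B : Type) [CommRing B] [IsLocalRing B] [Algebra 𝒪 B], IsArtinianTestAlgebra 𝒪 B →
      ∀ q : A →ₐ[𝒪] B, IsLocalHom (q : A →+* B) → Function.Surjective q → F B (q ∘ y))
    (n : ℕ) :
    ∃ (_ : IsLocalRing (A ⧸ maximalIdeal A ^ (n + 1)))
      (_ : IsArtinianTestAlgebra 𝒪 (A ⧸ maximalIdeal A ^ (n + 1))),
      F (A ⧸ maximalIdeal A ^ (n + 1)) (Ideal.Quotient.mkₐ 𝒪 (maximalIdeal A ^ (n + 1)) ∘ y) := by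
  letI : IsLocalRing (A ⧸ maximalIdeal A ^ (n + 1)) :=
    isLocalRing_quotient_maximalIdeal_pow_succ n
  have hB : IsArtinianTestAlgebra 𝒪 (A ⧸ maximalIdeal A ^ (n + 1)) :=
    quotient_maximalIdeal_pow inferInstance hres (n + 1)
  refine ⟨inferInstance, hB, hy _ hB (Ideal.Quotient.mkₐ 𝒪 (maximalIdeal A ^ (n + 1))) ?_ ?_⟩
  · exact IsLocalHom.of_surjective _ (Ideal.Quotient.mkₐ_surjective 𝒪 _)
  · exact Ideal.Quotient.mkₐ_surjective 𝒪 _

include H in
theorem mem_maximalIdeal_of_levels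
    (hres : Function.Surjective (IsLocalRing.residue A ∘ algebraMap 𝒪 A)) (y : X → A)
    (hy : ∀ (B : Type) [CommRing B] [IsLocalRing B] [Algebra 𝒪 B], IsArtinianTestAlgebra 𝒪 B →
      ∀ q : A →ₐ[𝒪] B, IsLocalHom (q : A →+* B) → Function.Surjective q → F B (q ∘ y))
    (x : X) : y x ∈ maximalIdeal A := by
  obtain ⟨hloc, hB, hF⟩ := exists_level (F := F) hres y hy 0
  have h1 := H.mem_max _ hB _ hF x
  rw [mem_maximalIdeal, mem_nonunits_iff] at h1 ⊢
  intro hu
  exact h1 (hu.map (Ideal.Quotient.mkₐ 𝒪 (maximalIdeal A ^ (0 + 1))))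

/-- Reduction of the evaluation map over the complete ring to the levels. -/
theorem mk_evalHom_eq_evT
    (hres : Function.Surjective (IsLocalRing.residue A ∘ algebraMap 𝒪 A)) (y : X → A)
    (hy : ∀ (B : Type) [CommRing B] [IsLocalRing B] [Algebra 𝒪 B], IsArtinianTestAlgebra 𝒪 B →
      ∀ q : A →ₐ[𝒪] B, IsLocalHom (q : A →+* B) → Function.Surjective q → F B (q ∘ y))
    (n : ℕ) (hloc : IsLocalRing (A ⧸ maximalIdeal A ^ (n + 1)))
    (hB : IsArtinianTestAlgebra 𝒪 (A ⧸ maximalIdeal A ^ (n + 1)))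
    (hF : F (A ⧸ maximalIdeal A ^ (n + 1)) (Ideal.Quotient.mkₐ 𝒪 (maximalIdeal A ^ (n + 1)) ∘ y))
    (G : MvPowerSeries S 𝒪) :
    Ideal.Quotient.mk (maximalIdeal A ^ (n + 1))
      (evalHom (fun s : S => y s) (fun s => mem_maximalIdeal_of_levels H hres y hy s) G) =
      evT S H hB _ hF G := by
  have := eq_evT_of_X S H hB _ hF
    ((Ideal.Quotient.mkₐ 𝒪 (maximalIdeal A ^ (n + 1))).comp
      (evalHom (fun s : S => y s) (fun s => mem_maximalIdeal_of_levels H hres y hy s)))
    (fun s => by rw [AlgHom.comp_apply, evalHom_X]; rfl)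
  rw [← this]
  rfl

/-- (U1) A family over a complete ring all of whose Artinian quotients carry points of `F` is
the image of the universal family under a unique algebra map. -/
theorem univ_U1 (hres : Function.Surjective (IsLocalRing.residue A ∘ algebraMap 𝒪 A))
    (y : X → A)
    (hy : ∀ (B : Type) [CommRing B] [IsLocalRing B] [Algebra 𝒪 B], IsArtinianTestAlgebra 𝒪 B →
      ∀ q : A →ₐ[𝒪] B, IsLocalHom (q : A →+* B) → Function.Surjective q → F B (q ∘ y)) :
    ∃! φ : (MvPowerSeries S 𝒪 ⧸ kerJ H S) →ₐ[𝒪] A,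
      IsLocalHom (φ : (MvPowerSeries S 𝒪 ⧸ kerJ H S) →+* A) ∧
        ∀ x, φ (univFam H hS x) = y x := by
  have hyS : ∀ s : S, y s ∈ maximalIdeal A := fun s => mem_maximalIdeal_of_levels H hres y hy s
  have hkill : ∀ G ∈ kerJ H S, evalHom (fun s : S => y s) hyS G = 0 := by
    intro G hG
    refine eq_of_forall_mk_succ_eq _ _ fun n => ?_
    obtain ⟨hloc, hB, hF⟩ := exists_level (F := F) hres y hy n
    rw [mk_evalHom_eq_evT H hres y hy n hloc hB hF, evT_eq_zero_of_mem_kerJ H hB _ hF hG,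
      map_zero]
  have hval : ∀ x, evalHom (fun s : S => y s) hyS (uLift H hS x) = y x := by
    intro x
    refine eq_of_forall_mk_succ_eq _ _ fun n => ?_
    obtain ⟨hloc, hB, hF⟩ := exists_level (F := F) hres y hy n
    rw [mk_evalHom_eq_evT H hres y hy n hloc hB hF, evT_uLift H hS hB _ hF x]
    rfl
  refine ⟨quotEval (kerJ H S) _ hyS hkill, ⟨?_, fun x => ?_⟩, fun φ' hφ' => ?_⟩
  · exact quot_algHom_isLocalHom (kerJ H S) hres (kerJ_ne_top H S) _
  · show quotEval (kerJ H S) _ hyS hkill (Ideal.Quotient.mk _ (uLift H hS x)) = y x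
    rw [quotEval_mk, hval]
  · refine quot_algHom_ext_of_X' (kerJ H S) hres _ _ fun s => ?_
    rw [← univFam_coe H hS s, hφ'.2]
    show y s = quotEval (kerJ H S) _ hyS hkill (Ideal.Quotient.mk _ (uLift H hS s))
    rw [quotEval_mk, hval]

end Complete

end Universal

section Final

variable [IsNoetherianRing 𝒪] [IsAdicComplete (maximalIdeal 𝒪) 𝒪] [Finite (ResidueField 𝒪)]

/-- **Abstract pro-representability.** -/
theorem exists_proRep (H : FunctorHyp F) :
    ∃ (R : Type) (_ : CommRing R) (_ : IsLocalRing R) (_ : IsNoetherianRing R)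
      (_ : IsAdicComplete (maximalIdeal R) R) (_ : Algebra 𝒪 R)
      (_ : IsLocalHom (algebraMap 𝒪 R))
      (_ : Function.Surjective (IsLocalRing.residue R ∘ algebraMap 𝒪 R)) (u : X → R),
      (∀ (A : Type) [CommRing A] [IsLocalRing A] [IsNoetherianRing A]
        [IsAdicComplete (maximalIdeal A) A] [Algebra 𝒪 A] [IsLocalHom (algebraMap 𝒪 A)],
        Function.Surjective (IsLocalRing.residue A ∘ algebraMap 𝒪 A) →
        ∀ y : X → A,
          (∀ (B : Type) [CommRing B] [IsLocalRing B] [Algebra 𝒪 B], IsArtinianTestAlgebra 𝒪 B →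
            ∀ q : A →ₐ[𝒪] B, IsLocalHom (q : A →+* B) → Function.Surjective q →
              F B (q ∘ y)) →
          ∃! φ : R →ₐ[𝒪] A, IsLocalHom (φ : R →+* A) ∧ ∀ x, φ (u x) = y x) ∧
      (∀ (B : Type) [CommRing B] [IsLocalRing B] [Algebra 𝒪 B], IsArtinianTestAlgebra 𝒪 B →
        ∀ q : R →ₐ[𝒪] B, IsLocalHom (q : R →+* B) → F B (q ∘ u)) := by
  obtain ⟨S, hS⟩ := exists_separates H
  have hJ := kerJ_ne_top H S
  refine ⟨MvPowerSeries S 𝒪 ⧸ kerJ H S, inferInstance, quotient_isLocalRing _ hJ, inferInstance,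
    quotient_isAdicComplete _ hJ, inferInstance, quotient_isLocalHom_algebraMap _ hJ,
    quotient_residue_surjective _ hJ, univFam H hS, ?_, ?_⟩
  · intro A _ _ _ _ _ _ hres y hy
    exact univ_U1 H hS hres y hy
  · intro B _ _ _ hB q _
    exact univ_U2 H hS B hB q

end Final

end Fermat.Agent.S53.ProRepB
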