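import Fermat.Agent.S53.Normalize

set_option autoImplicit false
set_option linter.unusedSectionVars false
set_option linter.style.haveILetI false
set_option linter.unusedSimpArgs false

namespace Fermat.Agent.S53

open IsLocalRing
open scoped TensorProduct

section ResMat

variable {k : Type} [Field k]

/-- The residual representation attached to a matrix representation over a field. -/
noncomputable def ofMatRes (r : Gal →* M2 k) (hr : GaloisFactorsThroughFiniteLevel r) :
    ResidualGaloisRep k where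
  V := Fin 2 → k
  finrank_eq := by simp
  ρ := (mulVecHom k).comp r
  factorsThroughFiniteLevel := by
    obtain ⟨L, hL, h⟩ := hr
    exact ⟨L, hL, fun σ hσ => by rw [MonoidHom.comp_apply, h σ hσ, map_one]⟩

lemma ofMatRes_ρ_apply (r : Gal →* M2 k) (hr : GaloisFactorsThroughFiniteLevel r) (σ : Gal)
    (v : Fin 2 → k) : (ofMatRes r hr).ρ σ v = (r σ).mulVec v := rfl

lemma ofMatRes_isEquiv_of_eq {r r' : Gal →* M2 k} (hr : GaloisFactorsThroughFiniteLevel r)
    (hr' : GaloisFactorsThroughFiniteLevel r') (h : r = r') :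
    (ofMatRes r hr).IsEquiv (ofMatRes r' hr') := by
  subst h
  exact ⟨ResidualGaloisRep.Equiv.refl _⟩

/-- A residual representation with a chosen basis is equivalent to a matrix representation. -/
lemma exists_ofMatRes_of_basis (ρ : ResidualGaloisRep k) (b : Module.Basis (Fin 2) k ρ.V) :
    ∃ (r : Gal →* M2 k) (hr : GaloisFactorsThroughFiniteLevel r), ρ.IsEquiv (ofMatRes r hr) ∧
      ∀ σ, r σ = LinearMap.toMatrix b b (ρ.ρ σ) := by
  let r : Gal →* M2 k :=
    { toFun := fun σ => LinearMap.toMatrix b b (ρ.ρ σ)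
      map_one' := by
        rw [map_one]
        exact LinearMap.toMatrix_one b
      map_mul' := fun σ τ => by
        rw [map_mul]
        exact LinearMap.toMatrix_mul b _ _ }
  have hr : GaloisFactorsThroughFiniteLevel r := by
    obtain ⟨L, hL, h⟩ := ρ.factorsThroughFiniteLevel
    refine ⟨L, hL, fun σ hσ => ?_⟩
    show LinearMap.toMatrix b b (ρ.ρ σ) = 1
    rw [h σ hσ]
    exact LinearMap.toMatrix_one b
  refine ⟨r, hr, ⟨{ toLinearEquiv := b.equivFun, map_apply := fun σ x => ?_ }⟩, fun σ => rfl⟩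
  change b.equivFun (ρ.ρ σ x) = (LinearMap.toMatrix b b (ρ.ρ σ)).mulVec (b.equivFun x)
  have := LinearMap.toMatrix_mulVec_repr b b (ρ.ρ σ) x
  ext i
  rw [Module.Basis.equivFun_apply]
  rw [← this]
  rfl

lemma factorsThrough_mapMat {k' : Type} [Field k'] (ψ : k →+* k') {r : Gal →* M2 k}
    (hr : GaloisFactorsThroughFiniteLevel r) : GaloisFactorsThroughFiniteLevel (mapMat ψ r) := by
  obtain ⟨L, hL, h⟩ := hr
  refine ⟨L, hL, fun σ hσ => ?_⟩
  show (ψ.mapMatrix (m := Fin 2)) (r σ) = 1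
  rw [h σ hσ, map_one]

/-- Base change of a residual matrix representation. -/
lemma baseChangeAlong_ofMatRes_isEquiv {k' : Type} [Field k'] (ψ : k →+* k') {r : Gal →* M2 k}
    (hr : GaloisFactorsThroughFiniteLevel r) :
    ((ofMatRes r hr).baseChangeAlong ψ).IsEquiv
      (ofMatRes (mapMat ψ r) (factorsThrough_mapMat ψ hr)) := by
  letI : Algebra k k' := ψ.toAlgebra
  exact ⟨{ toLinearEquiv := TensorProduct.piScalarRight k k' k' (Fin 2),
           map_apply := fun σ x => piScalarRight_baseChange_mulVecLin (r σ) x }⟩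

end ResMat

section Residual

variable {A : Type} [CommRing A] [IsLocalRing A]

lemma factorsThrough_residue {r : Gal →* M2 A} (hr : MatCont r) :
    GaloisFactorsThroughFiniteLevel (mapMat (residue A) r) := by
  obtain ⟨L, hL, h⟩ := hr 1
  refine ⟨L, hL, fun σ hσ => ?_⟩
  ext i j
  have := h σ hσ i j
  rw [pow_one, ← residue_eq_zero_iff, Matrix.sub_apply, map_sub, sub_eq_zero] at this
  rw [mapMat_apply, this, Matrix.one_apply, Matrix.one_apply]
  split_ifs <;> simp

/-- The residual representation of a matrix representation. -/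
lemma residual_ofMat_isEquiv {r : Gal →* M2 A} (hr : MatCont r) :
    (ofMat r hr).residual.IsEquiv (ofMatRes (mapMat (residue A) r) (factorsThrough_residue hr)) :=
  ⟨{ toLinearEquiv := TensorProduct.piScalarRight A (ResidueField A) (ResidueField A) (Fin 2),
     map_apply := fun σ x => piScalarRight_baseChange_mulVecLin (r σ) x }⟩

/-- Lifting a residual matrix form to a matrix form. -/
lemma exists_ofMat_of_residual_isEquiv (ρ : GaloisRepAdic A) {rbar : Gal →* M2 (ResidueField A)}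
    (hrbar : GaloisFactorsThroughFiniteLevel rbar)
    (h : ρ.residual.IsEquiv (ofMatRes rbar hrbar)) :
    ∃ (r : Gal →* M2 A) (hr : MatCont r), ρ.IsEquiv (ofMat r hr) ∧
      ∀ σ i j, residue A (r σ i j) = rbar σ i j := by
  classical
  obtain ⟨e⟩ := h
  let f : (ResidueField A ⊗[A] ρ.V) ≃ₗ[ResidueField A] (Fin 2 → ResidueField A) :=
    e.toLinearEquiv
  have hf : ∀ σ (x : ResidueField A ⊗[A] ρ.V),
      f ((ρ.ρ σ).baseChange (ResidueField A) x) = (rbar σ).mulVec (f x) := fun σ x =>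
    e.map_apply σ x
  -- the residual basis
  let bk : Module.Basis (Fin 2) (ResidueField A) (ResidueField A ⊗[A] ρ.V) :=
    Module.Basis.ofEquivFun f
  have hbk : ∀ i, f (bk i) = Pi.single i 1 := fun i => by
    simp [bk, Module.Basis.ofEquivFun]
  -- lift it
  have hsurj : Function.Surjective (TensorProduct.mk A (ResidueField A) ρ.V 1) :=
    TensorProduct.mk_surjective A ρ.V (ResidueField A) residue_surjective
  choose w hw using fun i => hsurj (bk i)
  have hli : LinearIndependent A w := by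
    apply Module.IsLocalRing.linearIndependent_of_flat
    have : (TensorProduct.mk A (ResidueField A) ρ.V 1) ∘ w = bk := funext hw
    rw [this]
    exact bk.linearIndependent
  have hsp : Submodule.span A (Set.range w) = ⊤ :=
    IsLocalRing.span_eq_top_of_tmul_eq_basis w bk hw
  let b : Module.Basis (Fin 2) A ρ.V := Module.Basis.mk hli (by rw [hsp])
  have hb : ∀ i, b i = w i := fun i => by simp [b]
  obtain ⟨r, hr, hequiv, hrm⟩ := exists_ofMat_of_basis ρ b
  refine ⟨r, hr, hequiv, fun σ i j => ?_⟩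
  -- compute in the residual basis
  have h1 : (1 : ResidueField A) ⊗ₜ[A] (ρ.ρ σ (b j)) =
      ∑ i, residue A (r σ i j) • bk i := by
    have hsum : ρ.ρ σ (b j) = ∑ i, r σ i j • b i := by
      rw [hrm]
      simp only [LinearMap.toMatrix_apply]
      exact (b.sum_repr _).symm
    rw [hsum, TensorProduct.tmul_sum]
    refine Finset.sum_congr rfl fun i _ => ?_
    rw [TensorProduct.tmul_smul, TensorProduct.smul_tmul', hb, ← hw i]
    simp only [TensorProduct.mk_apply]
    rw [TensorProduct.smul_tmul']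
    congr 1
  have h2 : (1 : ResidueField A) ⊗ₜ[A] (ρ.ρ σ (b j)) = ∑ i, rbar σ i j • bk i := by
    have : (1 : ResidueField A) ⊗ₜ[A] (ρ.ρ σ (b j)) =
        (ρ.ρ σ).baseChange (ResidueField A) (bk j) := by
      rw [← hw j, hb]
      simp
    rw [this]
    apply f.injective
    rw [hf, hbk, map_sum]
    simp only [map_smul, hbk]
    ext i
    simp [Matrix.mulVec, dotProduct, Finset.sum_apply, Pi.single_apply]
  have h3 := h1.symm.trans h2
  have h4 := congrArg (fun x => bk.repr x i) h3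
  simp only [map_sum, map_smul, Module.Basis.repr_self, Finsupp.coe_finset_sum, Finsupp.coe_smul,
    Finset.sum_apply, Pi.smul_apply, Finsupp.single_apply, smul_eq_mul, mul_ite, mul_one,
    mul_zero, Finset.sum_ite_eq', Finset.mem_univ, if_true] at h4
  exact h4

end Residual

section EquivHelpers

lemma adic_isEquiv_symm {A : Type} [CommRing A] [IsLocalRing A] {ρ₁ ρ₂ : GaloisRepAdic A}
    (h : ρ₁.IsEquiv ρ₂) : ρ₂.IsEquiv ρ₁ := by
  obtain ⟨e⟩ := h
  exact ⟨e.symm⟩

lemma adic_isEquiv_trans {A : Type} [CommRing A] [IsLocalRing A] {ρ₁ ρ₂ ρ₃ : GaloisRepAdic A}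
    (h : ρ₁.IsEquiv ρ₂) (h' : ρ₂.IsEquiv ρ₃) : ρ₁.IsEquiv ρ₃ := by
  obtain ⟨e⟩ := h
  obtain ⟨e'⟩ := h'
  exact ⟨e.trans e'⟩

lemma adic_isEquiv_refl {A : Type} [CommRing A] [IsLocalRing A] (ρ : GaloisRepAdic A) :
    ρ.IsEquiv ρ := ⟨GaloisRepAdic.Equiv.refl ρ⟩

lemma res_isEquiv_symm {k : Type} [Field k] {ρ₁ ρ₂ : ResidualGaloisRep k}
    (h : ρ₁.IsEquiv ρ₂) : ρ₂.IsEquiv ρ₁ := by
  obtain ⟨e⟩ := h
  exact ⟨e.symm⟩

lemma res_isEquiv_trans {k : Type} [Field k] {ρ₁ ρ₂ ρ₃ : ResidualGaloisRep k}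
    (h : ρ₁.IsEquiv ρ₂) (h' : ρ₂.IsEquiv ρ₃) : ρ₁.IsEquiv ρ₃ := by
  obtain ⟨e⟩ := h
  obtain ⟨e'⟩ := h'
  exact ⟨e.trans e'⟩

lemma res_isEquiv_baseChangeAlong {k k' : Type} [Field k] [Field k'] (ψ : k →+* k')
    {ρ₁ ρ₂ : ResidualGaloisRep k} (h : ρ₁.IsEquiv ρ₂) :
    (ρ₁.baseChangeAlong ψ).IsEquiv (ρ₂.baseChangeAlong ψ) := by
  obtain ⟨e⟩ := h
  exact ⟨e.baseChangeAlong ψ⟩

lemma adic_isEquiv_residual {A : Type} [CommRing A] [IsLocalRing A] {ρ₁ ρ₂ : GaloisRepAdic A}
    (h : ρ₁.IsEquiv ρ₂) : ρ₁.residual.IsEquiv ρ₂.residual := by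
  obtain ⟨e⟩ := h
  exact ⟨e.residual⟩

lemma adic_isEquiv_baseChangeAlong {A B : Type} [CommRing A] [IsLocalRing A] [CommRing B]
    [IsLocalRing B] (φ : A →+* B) (hφ : IsLocalHom φ) {ρ₁ ρ₂ : GaloisRepAdic A}
    (h : ρ₁.IsEquiv ρ₂) : (ρ₁.baseChangeAlong φ hφ).IsEquiv (ρ₂.baseChangeAlong φ hφ) := by
  obtain ⟨e⟩ := h
  exact ⟨e.baseChangeAlong φ hφ⟩

end EquivHelpers

section Dictionary

variable {𝒪 : Type} [CommRing 𝒪] [IsLocalRing 𝒪]

/-- `c` is a set-theoretic lift to `𝒪` of the matrices of `ρbar` in the basis `v`. -/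
def IsMatLiftOf (ρbar : ResidualGaloisRep (ResidueField 𝒪))
    (v : Module.Basis (Fin 2) (ResidueField 𝒪) ρbar.V) (c : Gal → M2 𝒪) : Prop :=
  ∀ σ i j, residue 𝒪 (c σ i j) = LinearMap.toMatrix v v (ρbar.ρ σ) i j

variable {ρbar : ResidualGaloisRep (ResidueField 𝒪)}
  {v : Module.Basis (Fin 2) (ResidueField 𝒪) ρbar.V} {c : Gal → M2 𝒪}
  {A : Type} [CommRing A] [IsLocalRing A] [Algebra 𝒪 A]

lemma mapMat_residue_eq (hc : IsMatLiftOf ρbar v c) (ψ : ResidueField 𝒪 →+* ResidueField A)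
    (hψ : ∀ x : 𝒪, ψ (residue 𝒪 x) = residue A (algebraMap 𝒪 A x))
    {rbar : Gal →* M2 (ResidueField 𝒪)} (hrbar : ∀ σ, rbar σ = LinearMap.toMatrix v v (ρbar.ρ σ))
    {r : Gal →* M2 A} (hl : IsLiftOf c r) : mapMat (residue A) r = mapMat ψ rbar := by
  ext σ i j
  rw [mapMat_apply, mapMat_apply, hrbar, ← hc σ i j, hψ]
  have := hl σ i j
  rw [← residue_eq_zero_iff, map_sub, sub_eq_zero] at this
  exact this

/-- (D4) A lift of the residual matrices has the right residual representation. -/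
theorem residual_isEquiv_of_isLiftOf (hc : IsMatLiftOf ρbar v c)
    (ψ : ResidueField 𝒪 →+* ResidueField A)
    (hψ : ∀ x : 𝒪, ψ (residue 𝒪 x) = residue A (algebraMap 𝒪 A x))
    {r : Gal →* M2 A} (hr : MatCont r) (hl : IsLiftOf c r) :
    (ofMat r hr).residual.IsEquiv (ρbar.baseChangeAlong ψ) := by
  obtain ⟨rbar, hrbar, hequiv, hrm⟩ := exists_ofMatRes_of_basis ρbar v
  have h1 := residual_ofMat_isEquiv hr
  have h2 := baseChangeAlong_ofMatRes_isEquiv ψ hrbar
  have h3 := res_isEquiv_baseChangeAlong ψ hequiv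
  have h4 : (ofMatRes (mapMat (residue A) r) (factorsThrough_residue hr)).IsEquiv
      (ofMatRes (mapMat ψ rbar) (factorsThrough_mapMat ψ hrbar)) :=
    ofMatRes_isEquiv_of_eq _ _ (mapMat_residue_eq hc ψ hψ hrm hl)
  exact res_isEquiv_trans h1 (res_isEquiv_trans h4
    (res_isEquiv_trans (res_isEquiv_symm h2) (res_isEquiv_symm h3)))

/-- (D1) A Galois representation with the right residual representation has a matrix form
lifting the residual matrices. -/
theorem exists_isLiftOf_of_residual_isEquiv (hc : IsMatLiftOf ρbar v c)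
    (ψ : ResidueField 𝒪 →+* ResidueField A)
    (hψ : ∀ x : 𝒪, ψ (residue 𝒪 x) = residue A (algebraMap 𝒪 A x))
    (ρ : GaloisRepAdic A) (h : ρ.residual.IsEquiv (ρbar.baseChangeAlong ψ)) :
    ∃ (r : Gal →* M2 A) (hr : MatCont r), ρ.IsEquiv (ofMat r hr) ∧ IsLiftOf c r := by
  obtain ⟨rbar, hrbar, hequiv, hrm⟩ := exists_ofMatRes_of_basis ρbar v
  have h2 := baseChangeAlong_ofMatRes_isEquiv ψ hrbar
  have h3 := res_isEquiv_baseChangeAlong ψ hequiv
  have h5 := res_isEquiv_trans h (res_isEquiv_trans h3 h2)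
  obtain ⟨r, hr, hρ, hres⟩ := exists_ofMat_of_residual_isEquiv ρ _ h5
  refine ⟨r, hr, hρ, fun σ i j => ?_⟩
  rw [← residue_eq_zero_iff, map_sub, sub_eq_zero, hres, mapMat_apply, hrm, ← hc σ i j, hψ]

/-- Normal form theorem (existence): over a henselian local `𝒪`-algebra, every Galois
representation with the right residual representation is equivalent to a normalized matrix
representation. -/
theorem exists_normalized_of_residual_isEquiv [HenselianLocalRing A] (D : NormData 𝒪)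
    (hc : IsMatLiftOf ρbar v D.c) (hloc : IsLocalHom (algebraMap 𝒪 A))
    (ψ : ResidueField 𝒪 →+* ResidueField A)
    (hψ : ∀ x : 𝒪, ψ (residue 𝒪 x) = residue A (algebraMap 𝒪 A x))
    (ρ : GaloisRepAdic A) (h : ρ.residual.IsEquiv (ρbar.baseChangeAlong ψ)) :
    ∃ (r : Gal →* M2 A) (hr : MatCont r), ρ.IsEquiv (ofMat r hr) ∧ IsLiftOf D.c r ∧
      IsNormalized D r := by
  obtain ⟨r₀, hr₀, hρ, hl⟩ := exists_isLiftOf_of_residual_isEquiv hc ψ hψ ρ h
  obtain ⟨M, N, hMN, hNM, hl', hn⟩ := exists_normalized D hloc hl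
  exact ⟨conjMat r₀ M N hMN hNM, matCont_conjMat hr₀ M N hMN hNM,
    adic_isEquiv_trans hρ (adic_isEquiv_symm (ofMat_conjMat_isEquiv hr₀ M N hMN hNM)), hl', hn⟩

/-- Normal form theorem (uniqueness): equivalent normalized lifts are equal. -/
theorem eq_of_isEquiv_of_isNormalized (D : NormData 𝒪) (hloc : IsLocalHom (algebraMap 𝒪 A))
    {r r' : Gal →* M2 A} (hr : MatCont r) (hr' : MatCont r')
    (hl : IsLiftOf D.c r) (hl' : IsLiftOf D.c r') (hn : IsNormalized D r)
    (hn' : IsNormalized D r') (h : (ofMat r hr).IsEquiv (ofMat r' hr')) : r = r' := by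
  obtain ⟨M, N, _, hNM, hconj⟩ := exists_conj_of_isEquiv hr hr' h
  have := rigidity D hloc hl hl' hn hn' M N hNM hconj
  exact DFunLike.coe_injective this

end Dictionary

end Fermat.Agent.S53
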