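import Fermat.Agent.S53.AssemblyDefs
import Fermat.Agent.S53.Residual
import Fermat.Agent.S53.TestAlgebra
import Fermat.Agent.S53.BaseChange

/-!
# S53: final assembly — from a pro-representing ring for normalised entry families to a
universal deformation ring
-/

set_option autoImplicit false
set_option linter.unusedSectionVars false
set_option linter.style.haveILetI false
set_option linter.unusedSimpArgs false

namespace Fermat.Agent.S53.Assembly

open IsLocalRing GaloisRep Fermat.Agent.S53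

section

variable {𝒪 : Type} [CommRing 𝒪] [IsLocalRing 𝒪]

variable {𝒟 : ∀ ⦃A : Type⦄ [CommRing A] [IsLocalRing A] [Algebra 𝒪 A], GaloisRepAdic A → Prop}

section Hausdorff

variable {R : Type} [CommRing R] [IsLocalRing R] [IsHausdorff (maximalIdeal R) R]

theorem eq_zero_of_forall_mem_pow {x : R} (h : ∀ n : ℕ, x ∈ maximalIdeal R ^ (n + 1)) :
    x = 0 := by
  apply IsHausdorff.haus (I := maximalIdeal R) inferInstance x
  intro n
  rw [SModEq.zero, smul_eq_mul, Ideal.mul_top]
  exact Ideal.pow_le_pow_right (Nat.le_succ n) (h n)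

theorem eq_of_forall_mk_eq {x y : R}
    (h : ∀ n : ℕ, Ideal.Quotient.mk (maximalIdeal R ^ (n + 1)) x =
      Ideal.Quotient.mk (maximalIdeal R ^ (n + 1)) y) : x = y := by
  rw [← sub_eq_zero]
  apply eq_zero_of_forall_mem_pow
  intro n
  exact Ideal.Quotient.eq.mp (h n)

end Hausdorff

end

section Main

variable {𝒪 : Type} [CommRing 𝒪] [IsLocalRing 𝒪] [Finite (ResidueField 𝒪)]
variable {𝒟 : ∀ ⦃A : Type⦄ [CommRing A] [IsLocalRing A] [Algebra 𝒪 A], GaloisRepAdic A → Prop}
variable (D : NormData 𝒪)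
variable {R : Type} [CommRing R] [IsLocalRing R] [IsNoetherianRing R]
  [IsAdicComplete (maximalIdeal R) R] [Algebra 𝒪 R]
variable (u : Idx → R)

/-- The universal matrix-valued function. -/
def univFun : Gal → M2 R :=
  fun σ => Matrix.of fun i j => u (σ, i, j) + algebraMap 𝒪 R (D.c σ i j)

@[simp] theorem univFun_apply (σ : Gal) (i j : Fin 2) :
    univFun D u σ i j = u (σ, i, j) + algebraMap 𝒪 R (D.c σ i j) := rfl

variable {D u}

theorem exists_rep_of_hypU2 (U2 : HypU2 𝒟 D u) {B : Type} [CommRing B] [IsLocalRing B]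
    [Algebra 𝒪 B] (hB : IsArtinianTestAlgebra 𝒪 B) (q : R →ₐ[𝒪] B)
    (hq : IsLocalHom (q : R →+* B)) :
    ∃ (r : Gal →* M2 B) (hr : MatCont r), IsLiftOf D.c r ∧ IsNormalized D r ∧ 𝒟 (ofMat r hr) ∧
      ∀ σ, r σ = (univFun D u σ).map q := by
  obtain ⟨r, hr, h1, h2, h3, h4⟩ := U2 B hB q hq
  refine ⟨r, hr, h1, h2, h3, fun σ => ?_⟩
  ext i j
  have := h4 σ i j
  simp only [Function.comp_apply] at this
  rw [Matrix.map_apply, univFun_apply, map_add, AlgHom.commutes, this]
  ring

section level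

variable (R) in
/-- The quotient map to the `n`-th level. -/
noncomputable abbrev lvl (n : ℕ) : R →ₐ[𝒪] R ⧸ maximalIdeal R ^ (n + 1) :=
  Ideal.Quotient.mkₐ 𝒪 (maximalIdeal R ^ (n + 1))

theorem lvl_isLocalHom (n : ℕ) :
    haveI := TestAlgebra.isLocalRing_quotient_maximalIdeal_pow_succ (A := R) n
    IsLocalHom ((lvl (𝒪 := 𝒪) R n : R →ₐ[𝒪] R ⧸ maximalIdeal R ^ (n + 1)) :
      R →+* R ⧸ maximalIdeal R ^ (n + 1)) := by
  haveI := TestAlgebra.isLocalRing_quotient_maximalIdeal_pow_succ (A := R) n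
  exact IsLocalHom.of_surjective _ Ideal.Quotient.mk_surjective

theorem exists_rep_level (hloc : IsLocalHom (algebraMap 𝒪 R))
    (hres : Function.Surjective (residue R ∘ algebraMap 𝒪 R)) (U2 : HypU2 𝒟 D u) (n : ℕ) :
    haveI := TestAlgebra.isLocalRing_quotient_maximalIdeal_pow_succ (A := R) n
    ∃ (r : Gal →* M2 (R ⧸ maximalIdeal R ^ (n + 1))) (hr : MatCont r),
      IsLiftOf D.c r ∧ IsNormalized D r ∧ 𝒟 (ofMat r hr) ∧
      ∀ σ, r σ = (univFun D u σ).map (Ideal.Quotient.mk (maximalIdeal R ^ (n + 1))) := by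
  haveI := TestAlgebra.isLocalRing_quotient_maximalIdeal_pow_succ (A := R) n
  have hB := TestAlgebra.quotient_maximalIdeal_pow (𝒪 := 𝒪) (A := R) hloc hres (n + 1)
  exact exists_rep_of_hypU2 U2 hB (lvl R n) (lvl_isLocalHom n)

end level

/-- The universal matrix representation. -/
noncomputable def univRep (hloc : IsLocalHom (algebraMap 𝒪 R))
    (hres : Function.Surjective (residue R ∘ algebraMap 𝒪 R)) (U2 : HypU2 𝒟 D u) :
    Gal →* M2 R where
  toFun := univFun D u
  map_one' := by
    ext i j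
    apply eq_of_forall_mk_eq
    intro n
    haveI := TestAlgebra.isLocalRing_quotient_maximalIdeal_pow_succ (A := R) n
    obtain ⟨r, -, -, -, -, h⟩ := exists_rep_level hloc hres U2 n
    have h1 := congrFun (congrFun (h 1) i) j
    rw [map_one, Matrix.map_apply] at h1
    rw [← h1]
    by_cases hij : i = j <;> simp [hij, Matrix.one_apply]
  map_mul' σ τ := by
    ext i j
    apply eq_of_forall_mk_eq
    intro n
    haveI := TestAlgebra.isLocalRing_quotient_maximalIdeal_pow_succ (A := R) n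
    obtain ⟨r, -, -, -, -, h⟩ := exists_rep_level hloc hres U2 n
    have h1 := congrFun (congrFun (h (σ * τ)) i) j
    rw [map_mul, h σ, h τ, Matrix.map_apply] at h1
    rw [← h1]
    simp [Matrix.mul_apply]

section props

variable (hloc : IsLocalHom (algebraMap 𝒪 R))
  (hres : Function.Surjective (residue R ∘ algebraMap 𝒪 R)) (U2 : HypU2 𝒟 D u)

@[simp] theorem univRep_apply (σ : Gal) : univRep hloc hres U2 σ = univFun D u σ := rfl

theorem cond_congr {A : Type} [CommRing A] [IsLocalRing A] [Algebra 𝒪 A]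
    {r r' : Gal →* M2 A} (h : r = r') (hr : MatCont r) (hr' : MatCont r')
    (hd : 𝒟 (ofMat r hr)) : 𝒟 (ofMat r' hr') := by
  subst h
  exact hd

/-- Every image of the universal representation in a test algebra is a normalised deformation
of type `𝒟`. -/
theorem mapMat_univRep {B : Type} [CommRing B] [IsLocalRing B]
    [Algebra 𝒪 B] (hB : IsArtinianTestAlgebra 𝒪 B) (q : R →ₐ[𝒪] B)
    (hq : IsLocalHom (q : R →+* B)) :
    ∃ hr : MatCont (mapMat (q : R →+* B) (univRep hloc hres U2)),
      IsLiftOf D.c (mapMat (q : R →+* B) (univRep hloc hres U2)) ∧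
      IsNormalized D (mapMat (q : R →+* B) (univRep hloc hres U2)) ∧
      𝒟 (ofMat (mapMat (q : R →+* B) (univRep hloc hres U2)) hr) := by
  obtain ⟨r, hr, h1, h2, h3, h4⟩ := exists_rep_of_hypU2 U2 hB q hq
  have : r = mapMat (q : R →+* B) (univRep hloc hres U2) := by
    ext σ i j
    rw [h4]
    rfl
  subst this
  exact ⟨hr, h1, h2, h3⟩

theorem maximalIdeal_quotient_pow_eq_bot (n : ℕ) :
    haveI := TestAlgebra.isLocalRing_quotient_maximalIdeal_pow_succ (A := R) n
    maximalIdeal (R ⧸ maximalIdeal R ^ (n + 1)) ^ (n + 1) = ⊥ := by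
  haveI := TestAlgebra.isLocalRing_quotient_maximalIdeal_pow_succ (A := R) n
  rw [← IsLocalRing.map_maximalIdeal_of_surjective
    (Ideal.Quotient.mk (maximalIdeal R ^ (n + 1))) Ideal.Quotient.mk_surjective,
    ← Ideal.map_pow, Ideal.map_quotient_self]

theorem matCont_univRep : MatCont (univRep hloc hres U2) := by
  intro n
  cases n with
  | zero =>
    refine ⟨⊥, inferInstance, fun σ _ i j => ?_⟩
    rw [pow_zero, Ideal.one_eq_top]
    exact Submodule.mem_top
  | succ n =>
    haveI := TestAlgebra.isLocalRing_quotient_maximalIdeal_pow_succ (A := R) n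
    have hB := TestAlgebra.quotient_maximalIdeal_pow (𝒪 := 𝒪) (A := R) hloc hres (n + 1)
    obtain ⟨hr, -, -, -⟩ := mapMat_univRep hloc hres U2 hB (lvl R n) (lvl_isLocalHom n)
    obtain ⟨L, hL, h⟩ := hr (n + 1)
    refine ⟨L, hL, fun σ hσ i j => ?_⟩
    have h1 := h σ hσ i j
    rw [maximalIdeal_quotient_pow_eq_bot, Ideal.mem_bot] at h1
    have h2 : Ideal.Quotient.mk (maximalIdeal R ^ (n + 1)) ((univRep hloc hres U2 σ - 1) i j)
        = 0 := by
      rw [← h1]
      simp only [Matrix.sub_apply, map_sub, mapMat_apply, Matrix.one_apply]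
      by_cases hij : i = j <;> simp [hij]
    exact Ideal.Quotient.eq_zero_iff_mem.mp h2

theorem isLiftOf_univRep : IsLiftOf D.c (univRep hloc hres U2) := by
  intro σ i j
  haveI := TestAlgebra.isLocalRing_quotient_maximalIdeal_pow_succ (A := R) 0
  have hB := TestAlgebra.quotient_maximalIdeal_pow (𝒪 := 𝒪) (A := R) hloc hres (0 + 1)
  obtain ⟨-, hl, -, -⟩ := mapMat_univRep hloc hres U2 hB (lvl R 0) (lvl_isLocalHom 0)
  have h1 := hl σ i j
  rw [mem_maximalIdeal, mem_nonunits_iff] at h1 ⊢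
  intro hu
  apply h1
  have := hu.map (lvl (𝒪 := 𝒪) R 0)
  convert this using 1
  simp only [mapMat_apply, map_sub, AlgHom.commutes]
  rfl

theorem isNormalized_univRep : IsNormalized D (univRep hloc hres U2) := by
  have key : ∀ (x : Gal →₀ 𝒪) (i j : Fin 2) (z : 𝒪),
      (∀ {B : Type} [CommRing B] [IsLocalRing B] [Algebra 𝒪 B] (r : Gal →* M2 B),
        IsNormalized D r → lin x r i j = algebraMap 𝒪 B z) →
      lin x (univRep hloc hres U2) i j = algebraMap 𝒪 R z := by
    intro x i j z hz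
    apply eq_of_forall_mk_eq
    intro n
    haveI := TestAlgebra.isLocalRing_quotient_maximalIdeal_pow_succ (A := R) n
    have hB := TestAlgebra.quotient_maximalIdeal_pow (𝒪 := 𝒪) (A := R) hloc hres (n + 1)
    obtain ⟨-, -, hn, -⟩ := mapMat_univRep hloc hres U2 hB (lvl R n) (lvl_isLocalHom n)
    have h1 := hz _ hn
    have h2 := lin_map (𝒪 := 𝒪) (A := R) (B := R ⧸ maximalIdeal R ^ (n + 1))
      (Ideal.Quotient.mk (maximalIdeal R ^ (n + 1)))
      (fun _ => rfl) x (univRep hloc hres U2)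
    have h3 := congrFun (congrFun h2 i) j
    rw [Matrix.map_apply] at h3
    have h4 : Ideal.Quotient.mk (maximalIdeal R ^ (n + 1)) (algebraMap 𝒪 R z) =
        algebraMap 𝒪 (R ⧸ maximalIdeal R ^ (n + 1)) z := rfl
    rw [h4, ← h1]
    exact h3.symm
  refine ⟨?_, ?_, ?_⟩
  · simpa using key D.a 0 1 0 (fun r hr => by simpa using hr.a01)
  · simpa using key D.a 1 0 0 (fun r hr => by simpa using hr.a10)
  · simpa using key D.b 1 0 1 (fun r hr => by simpa using hr.b10)

theorem cond_univRep (h𝒟 : IsDeformationCondition 𝒪 𝒟) :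
    𝒟 (ofMat (univRep hloc hres U2) (matCont_univRep hloc hres U2)) := by
  rw [h𝒟.iff_forall_surjective hloc hres]
  intro B _ _ _ hB q hq _
  obtain ⟨hr, -, -, hd⟩ := mapMat_univRep hloc hres U2 hB q hq
  exact h𝒟.of_isEquiv hB
    (BaseChange.IsEquiv.symm (baseChangeAlong_ofMat_isEquiv _ hq (matCont_univRep hloc hres U2)))
    hd

theorem univRep_entry (σ : Gal) (i j : Fin 2) :
    u (σ, i, j) = univRep hloc hres U2 σ i j - algebraMap 𝒪 R (D.c σ i j) := by
  simp

end props

end Main

end Fermat.Agent.S53.Assembly
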