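import Fermat.Agent.S53.TestAlgebra
import Fermat.Agent.S53.BaseChange

/-!
# S53: a deformation condition is closed under jointly injective pairs of test algebras
-/

set_option autoImplicit false
set_option linter.unusedSectionVars false
set_option linter.unnecessarySimpa false
set_option linter.style.haveILetI false

namespace Fermat.Agent.S53.Closure

open IsLocalRing GaloisRep TensorProduct Fermat.Agent.S53.TestAlgebra Fermat.Agent.S53.BaseChange

variable {𝒪 : Type} [CommRing 𝒪] [IsLocalRing 𝒪]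
variable {𝒟 : ∀ ⦃A : Type⦄ [CommRing A] [IsLocalRing A] [Algebra 𝒪 A], GaloisRepAdic A → Prop}

section

variable {P A : Type} [CommRing P] [IsLocalRing P] [Algebra 𝒪 P]
  [CommRing A] [IsLocalRing A] [Algebra 𝒪 A]

/-- Restricting along `P → range pA`: if `ρ ⊗ A` satisfies `𝒟` then so does `ρ ⊗ range pA`. -/
theorem of_range [Finite (ResidueField 𝒪)] (h𝒟 : IsDeformationCondition 𝒪 𝒟)
    (hA : IsArtinianTestAlgebra 𝒪 A) (pA : P →ₐ[𝒪] A) (hpA : IsLocalHom (pA : P →+* A))
    [IsLocalRing pA.range] (hpA' : IsLocalHom (pA.rangeRestrict : P →+* pA.range))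
    (ρ : GaloisRepAdic P) (h : 𝒟 (ρ.baseChangeAlong (pA : P →+* A) hpA)) :
    𝒟 (ρ.baseChangeAlong (pA.rangeRestrict : P →+* pA.range) hpA') := by
  have hfin : Finite A := finite_of_isArtinianTestAlgebra hA
  have hA' : IsArtinianTestAlgebra 𝒪 pA.range := TestAlgebra.subalgebra hA pA.range
  have hval : IsLocalHom ((pA.range.val : pA.range →ₐ[𝒪] A) : pA.range →+* A) :=
    isLocalHom_val_of_finite pA.range
  apply h𝒟.of_baseChangeAlong_injective hA' hA pA.range.val hval Subtype.val_injective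
  have hcomp : ((pA.range.val : pA.range →ₐ[𝒪] A) : pA.range →+* A).comp
      (pA.rangeRestrict : P →+* pA.range) = (pA : P →+* A) := by
    ext x; rfl
  have hloc : IsLocalHom (((pA.range.val : pA.range →ₐ[𝒪] A) : pA.range →+* A).comp
      (pA.rangeRestrict : P →+* pA.range)) := by
    rw [hcomp]; exact hpA
  have e1 := baseChangeAlong_comp (pA.rangeRestrict : P →+* pA.range) hpA'
    ((pA.range.val : pA.range →ₐ[𝒪] A) : pA.range →+* A) hval hloc ρ
  have e2 := baseChangeAlong_congr hcomp hloc hpA ρ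
  exact h𝒟.of_isEquiv hA (IsEquiv.symm (IsEquiv.trans e1 e2)) h

end

section Pair

variable {P A B : Type} [CommRing P] [IsLocalRing P] [Algebra 𝒪 P]
  [CommRing A] [IsLocalRing A] [Algebra 𝒪 A] [CommRing B] [IsLocalRing B] [Algebra 𝒪 B]

/-- Surjective version. -/
theorem of_pair_surjective (h𝒟 : IsDeformationCondition 𝒪 𝒟)
    (hP : IsArtinianTestAlgebra 𝒪 P) (hA : IsArtinianTestAlgebra 𝒪 A)
    (hB : IsArtinianTestAlgebra 𝒪 B) (pA : P →ₐ[𝒪] A) (pB : P →ₐ[𝒪] B)
    (hpA : IsLocalHom (pA : P →+* A)) (hpB : IsLocalHom (pB : P →+* B))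
    (hsA : Function.Surjective pA) (hsB : Function.Surjective pB)
    (hinj : Function.Injective (fun x => (pA x, pB x)))
    (ρ : GaloisRepAdic P) (h1 : 𝒟 (ρ.baseChangeAlong (pA : P →+* A) hpA))
    (h2 : 𝒟 (ρ.baseChangeAlong (pB : P →+* B) hpB)) : 𝒟 ρ := by
  obtain ⟨C, _, _, _, hC, f, g, hfg, hfib⟩ :=
    exists_fibreProduct_of_surjective (𝒪 := 𝒪) hA pA pB hsA hsB
  exact h𝒟.of_fibreProduct hA hB hC hP f g pA pB hpA hpB hfg hinj hfib h1 h2

/-- **Closure under jointly injective pairs**: if `P → A × B` is injective and the base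
changes of `ρ` to `A` and `B` satisfy `𝒟`, then so does `ρ`. -/
theorem of_pair [Finite (ResidueField 𝒪)] (h𝒟 : IsDeformationCondition 𝒪 𝒟)
    (hP : IsArtinianTestAlgebra 𝒪 P) (hA : IsArtinianTestAlgebra 𝒪 A)
    (hB : IsArtinianTestAlgebra 𝒪 B) (pA : P →ₐ[𝒪] A) (pB : P →ₐ[𝒪] B)
    (hpA : IsLocalHom (pA : P →+* A)) (hpB : IsLocalHom (pB : P →+* B))
    (hinj : Function.Injective (fun x => (pA x, pB x)))
    (ρ : GaloisRepAdic P) (h1 : 𝒟 (ρ.baseChangeAlong (pA : P →+* A) hpA))
    (h2 : 𝒟 (ρ.baseChangeAlong (pB : P →+* B) hpB)) : 𝒟 ρ := by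
  have hfinA : Finite A := finite_of_isArtinianTestAlgebra hA
  have hfinB : Finite B := finite_of_isArtinianTestAlgebra hB
  haveI : IsLocalRing pA.range := isLocalRing_subalgebra_of_finite pA.range
  haveI : IsLocalRing pB.range := isLocalRing_subalgebra_of_finite pB.range
  have hA' : IsArtinianTestAlgebra 𝒪 pA.range := TestAlgebra.subalgebra hA pA.range
  have hB' : IsArtinianTestAlgebra 𝒪 pB.range := TestAlgebra.subalgebra hB pB.range
  have hsA : Function.Surjective pA.rangeRestrict := pA.rangeRestrict_surjective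
  have hsB : Function.Surjective pB.rangeRestrict := pB.rangeRestrict_surjective
  have hlA : IsLocalHom (pA.rangeRestrict : P →+* pA.range) :=
    IsLocalHom.of_surjective _ hsA
  have hlB : IsLocalHom (pB.rangeRestrict : P →+* pB.range) :=
    IsLocalHom.of_surjective _ hsB
  refine of_pair_surjective h𝒟 hP hA' hB' pA.rangeRestrict pB.rangeRestrict hlA hlB hsA hsB ?_ ρ
    (of_range h𝒟 hA pA hpA hlA ρ h1) (of_range h𝒟 hB pB hpB hlB ρ h2)
  intro x y hxy
  apply hinj
  simp only [Prod.mk.injEq] at hxy ⊢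
  exact ⟨congrArg Subtype.val hxy.1, congrArg Subtype.val hxy.2⟩

end Pair

end Fermat.Agent.S53.Closure
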