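import Mathlib
import Fermat.Prelude.Def_GaloisRep_DeformationRingData
import Fermat.Prelude.Def_GaloisRep_DeformationCondition

set_option autoImplicit false
set_option linter.unusedSectionVars false
set_option linter.style.haveILetI false
set_option linter.unusedSimpArgs false

namespace Fermat.Agent.S53

open IsLocalRing
open scoped TensorProduct

/-- The absolute Galois group of `ℚ`. -/
abbrev Gal : Type := AlgebraicClosure ℚ ≃ₐ[ℚ] AlgebraicClosure ℚ

/-- The 2 x 2 matrices. -/
abbrev M2 (A : Type) : Type := Matrix (Fin 2) (Fin 2) A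

section Basic

variable {A : Type} [CommRing A]

lemma mem_smul_top_of_forall_mem (I : Ideal A) (v : Fin 2 → A) (hv : ∀ i, v i ∈ I) :
    v ∈ I • (⊤ : Submodule A (Fin 2 → A)) := by
  have : v = ∑ i, v i • (Pi.single i (1 : A) : Fin 2 → A) := by
    ext j
    simp [Finset.sum_apply, Pi.single_apply]
  rw [this]
  exact Submodule.sum_mem _ fun i _ => Submodule.smul_mem_smul (hv i) Submodule.mem_top

lemma forall_mem_of_mem_smul_top (I : Ideal A) (v : Fin 2 → A)
    (hv : v ∈ I • (⊤ : Submodule A (Fin 2 → A))) (i : Fin 2) : v i ∈ I := by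
  refine Submodule.smul_induction_on hv ?_ ?_
  · intro a ha w _
    simpa using I.mul_mem_right (w i) ha
  · intro x y hx hy
    simpa using I.add_mem hx hy

/-- The monoid homomorphism `M ↦ M.mulVecLin`. -/
noncomputable def mulVecHom (A : Type) [CommRing A] : M2 A →* Module.End A (Fin 2 → A) where
  toFun M := M.mulVecLin
  map_one' := Matrix.mulVecLin_one
  map_mul' M N := Matrix.mulVecLin_mul M N

@[simp] lemma mulVecHom_apply (M : M2 A) (v : Fin 2 → A) : mulVecHom A M v = M.mulVec v := rfl

lemma mulVecHom_injective : Function.Injective (mulVecHom A) := by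
  intro M N h
  ext i j
  have := congrFun (LinearMap.congr_fun h (Pi.single j 1)) i
  simpa using this

/-- The linear equivalence given by an invertible matrix. -/
noncomputable def mulVecEquiv (M N : M2 A) (hMN : M * N = 1) (hNM : N * M = 1) :
    (Fin 2 → A) ≃ₗ[A] (Fin 2 → A) :=
  LinearEquiv.ofLinear M.mulVecLin N.mulVecLin
    (by rw [← Matrix.mulVecLin_mul, hMN, Matrix.mulVecLin_one])
    (by rw [← Matrix.mulVecLin_mul, hNM, Matrix.mulVecLin_one])

@[simp] lemma mulVecEquiv_apply (M N : M2 A) (hMN : M * N = 1) (hNM : N * M = 1)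
    (v : Fin 2 → A) : mulVecEquiv M N hMN hNM v = M.mulVec v := rfl

variable [IsLocalRing A]

/-- matrix-valued adic continuity -/
def MatCont (r : Gal →* M2 A) : Prop :=
  ∀ n : ℕ, ∃ L : IntermediateField ℚ (AlgebraicClosure ℚ), FiniteDimensional ℚ L ∧
    ∀ σ : Gal, (∀ x ∈ L, σ x = x) → ∀ i j, (r σ - 1) i j ∈ maximalIdeal A ^ n

/-- The Galois representation attached to a continuous matrix representation. -/
noncomputable def ofMat (r : Gal →* M2 A) (hr : MatCont r) : GaloisRepAdic A where
  V := Fin 2 → A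
  finrank_eq := by simp
  ρ := (mulVecHom A).comp r
  isAdicContinuous := by
    intro n
    obtain ⟨L, hL, h⟩ := hr n
    refine ⟨L, hL, fun σ hσ v => ?_⟩
    have h1 : ((mulVecHom A).comp r) σ v - v = (r σ - 1).mulVec v := by
      simp [Matrix.sub_mulVec]
    rw [h1]
    apply mem_smul_top_of_forall_mem
    intro i
    simp only [Matrix.mulVec, dotProduct]
    exact Ideal.sum_mem _ fun j _ => Ideal.mul_mem_right _ _ (h σ hσ i j)

lemma ofMat_ρ_apply (r : Gal →* M2 A) (hr : MatCont r) (σ : Gal) (v : Fin 2 → A) :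
    (ofMat r hr).ρ σ v = (r σ).mulVec v := rfl

/-- Conjugate matrix representations give equivalent Galois representations. -/
lemma ofMat_isEquiv_of_conj {r r' : Gal →* M2 A} (hr : MatCont r) (hr' : MatCont r')
    (M N : M2 A) (hMN : M * N = 1) (hNM : N * M = 1) (h : ∀ σ, M * r σ = r' σ * M) :
    (ofMat r hr).IsEquiv (ofMat r' hr') := by
  refine ⟨{ toLinearEquiv := mulVecEquiv M N hMN hNM, map_apply := fun σ x => ?_ }⟩
  change M.mulVec ((r σ).mulVec x) = (r' σ).mulVec (M.mulVec x)
  rw [Matrix.mulVec_mulVec, Matrix.mulVec_mulVec, h]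

/-- Equivalent matrix representations are conjugate. -/
lemma exists_conj_of_isEquiv {r r' : Gal →* M2 A} (hr : MatCont r) (hr' : MatCont r')
    (h : (ofMat r hr).IsEquiv (ofMat r' hr')) :
    ∃ M N : M2 A, M * N = 1 ∧ N * M = 1 ∧ ∀ σ, M * r σ = r' σ * M := by
  obtain ⟨e⟩ := h
  let f : (Fin 2 → A) ≃ₗ[A] (Fin 2 → A) := e.toLinearEquiv
  have hf : ∀ σ (x : Fin 2 → A), f ((r σ).mulVec x) = (r' σ).mulVec (f x) := fun σ x =>
    e.map_apply σ x
  refine ⟨LinearMap.toMatrix' f.toLinearMap, LinearMap.toMatrix' f.symm.toLinearMap, ?_, ?_, ?_⟩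
  · rw [← LinearMap.toMatrix'_comp]
    simp
  · rw [← LinearMap.toMatrix'_comp]
    simp
  · intro σ
    apply mulVecHom_injective
    apply LinearMap.ext
    intro x
    show (LinearMap.toMatrix' (f : (Fin 2 → A) →ₗ[A] (Fin 2 → A)) * r σ).mulVec x =
      (r' σ * LinearMap.toMatrix' (f : (Fin 2 → A) →ₗ[A] (Fin 2 → A))).mulVec x
    rw [← Matrix.mulVec_mulVec, ← Matrix.mulVec_mulVec, LinearMap.toMatrix'_mulVec,
      LinearMap.toMatrix'_mulVec]
    exact hf σ x

/-- A Galois representation with a chosen basis is equivalent to a matrix representation. -/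
lemma exists_ofMat_of_basis (ρ : GaloisRepAdic A) (b : Module.Basis (Fin 2) A ρ.V) :
    ∃ (r : Gal →* M2 A) (hr : MatCont r), ρ.IsEquiv (ofMat r hr) ∧
      ∀ σ, r σ = LinearMap.toMatrix b b (ρ.ρ σ) := by
  let r : Gal →* M2 A :=
    { toFun := fun σ => LinearMap.toMatrix b b (ρ.ρ σ)
      map_one' := by
        rw [map_one]
        exact LinearMap.toMatrix_one b
      map_mul' := fun σ τ => by
        rw [map_mul]
        exact LinearMap.toMatrix_mul b _ _ }
  have hr : MatCont r := by
    intro n
    obtain ⟨L, hL, h⟩ := ρ.isAdicContinuous n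
    refine ⟨L, hL, fun σ hσ i j => ?_⟩
    have h1 : (r σ - 1) i j = b.repr (ρ.ρ σ (b j) - b j) i := by
      show (LinearMap.toMatrix b b (ρ.ρ σ) - 1) i j = _
      rw [Matrix.sub_apply, LinearMap.toMatrix_apply, map_sub, Finsupp.sub_apply,
        Module.Basis.repr_self, Matrix.one_apply, Finsupp.single_apply]
      congr 1
      by_cases hij : i = j
      · simp [hij]
      · simp [hij, Ne.symm hij]
    rw [h1]
    have h2 := h σ hσ (b j)
    refine Submodule.smul_induction_on h2 ?_ ?_
    · intro a ha w _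
      rw [map_smul, Finsupp.smul_apply, smul_eq_mul]
      exact Ideal.mul_mem_right _ _ ha
    · intro x y hx hy
      rw [map_add, Finsupp.add_apply]
      exact Ideal.add_mem _ hx hy
  refine ⟨r, hr, ⟨{ toLinearEquiv := b.equivFun, map_apply := fun σ x => ?_ }⟩, fun σ => rfl⟩
  change b.equivFun (ρ.ρ σ x) = (LinearMap.toMatrix b b (ρ.ρ σ)).mulVec (b.equivFun x)
  have := LinearMap.toMatrix_mulVec_repr b b (ρ.ρ σ) x
  ext i
  rw [Module.Basis.equivFun_apply]
  rw [← this]
  rfl

end Basic

section BaseChange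

variable {A B : Type} [CommRing A] [CommRing B]

/-- Push a matrix representation forward along a ring homomorphism. -/
noncomputable def mapMat (φ : A →+* B) (r : Gal →* M2 A) : Gal →* M2 B :=
  (φ.mapMatrix (m := Fin 2)).toMonoidHom.comp r

@[simp] lemma mapMat_apply (φ : A →+* B) (r : Gal →* M2 A) (σ : Gal) (i j : Fin 2) :
    mapMat φ r σ i j = φ (r σ i j) := rfl

lemma mapMat_apply' (φ : A →+* B) (r : Gal →* M2 A) (σ : Gal) :
    mapMat φ r σ = (r σ).map φ := rfl

lemma piScalarRight_baseChange_mulVecLin [Algebra A B] (M : M2 A) (x : B ⊗[A] (Fin 2 → A)) :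
    TensorProduct.piScalarRight A B B (Fin 2) ((M.mulVecLin).baseChange B x) =
      (M.map (algebraMap A B)).mulVec (TensorProduct.piScalarRight A B B (Fin 2) x) := by
  induction x using TensorProduct.induction_on with
  | zero => simp
  | tmul b v =>
    rw [LinearMap.baseChange_tmul, TensorProduct.piScalarRight_apply,
      TensorProduct.piScalarRightHom_tmul, TensorProduct.piScalarRight_apply,
      TensorProduct.piScalarRightHom_tmul]
    ext i
    rw [Matrix.mulVecLin_apply]
    simp only [Matrix.mulVec, dotProduct, Matrix.map_apply, Algebra.smul_def, Finset.sum_mul,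
      map_sum, map_mul]
    refine Finset.sum_congr rfl fun j _ => ?_
    ring
  | add x y hx hy => simp only [map_add, hx, hy, Matrix.mulVec_add]

variable [IsLocalRing A] [IsLocalRing B]

lemma map_maximalIdeal_pow_le (φ : A →+* B) (hφ : IsLocalHom φ) (n : ℕ) :
    (maximalIdeal A ^ n).map φ ≤ maximalIdeal B ^ n := by
  rw [Ideal.map_pow]
  exact Ideal.pow_right_mono (Ideal.map_le_iff_le_comap.mpr fun a ha =>
    Ideal.mem_comap.mpr (haveI := hφ; map_nonunit φ a ha)) n

lemma matCont_mapMat (φ : A →+* B) (hφ : IsLocalHom φ) {r : Gal →* M2 A} (hr : MatCont r) :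
    MatCont (mapMat φ r) := by
  intro n
  obtain ⟨L, hL, h⟩ := hr n
  refine ⟨L, hL, fun σ hσ i j => ?_⟩
  have h1 : (mapMat φ r σ - 1) i j = φ ((r σ - 1) i j) := by
    simp only [Matrix.sub_apply, mapMat_apply, map_sub, Matrix.one_apply]
    split_ifs <;> simp
  rw [h1]
  exact map_maximalIdeal_pow_le φ hφ n (Ideal.mem_map_of_mem φ (h σ hσ i j))

/-- Base change of a matrix representation is the matrix representation with mapped entries. -/
lemma baseChangeAlong_ofMat_isEquiv (φ : A →+* B) (hφ : IsLocalHom φ) {r : Gal →* M2 A}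
    (hr : MatCont r) :
    ((ofMat r hr).baseChangeAlong φ hφ).IsEquiv (ofMat (mapMat φ r) (matCont_mapMat φ hφ hr)) := by
  letI : Algebra A B := φ.toAlgebra
  exact ⟨{ toLinearEquiv := TensorProduct.piScalarRight A B B (Fin 2),
           map_apply := fun σ x => piScalarRight_baseChange_mulVecLin (r σ) x }⟩

end BaseChange

end Fermat.Agent.S53
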