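import Fermat.Agent.S53.Normalize
import Fermat.Agent.S53.Closure

/-!
# S53: the functor of normalized `𝒟`-deformations (entry families)

`X := Gal × Fin 2 × Fin 2`.  To a matrix representation `r : Gal →* M2 A` lifting `c` we attach
its entry family `y (g,i,j) = r g i j - c g i j ∈ 𝔪_A`.  We verify the formal properties
(stability under base change, descent along injections, fibre products) needed by the abstract
pro-representability theorem.
-/

set_option autoImplicit false
set_option linter.unusedSectionVars false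
set_option linter.unnecessarySimpa false
set_option linter.style.haveILetI false
set_option linter.unusedSimpArgs false

namespace Fermat.Agent.S53.NormFunctor

open IsLocalRing GaloisRep Fermat.Agent.S53 Fermat.Agent.S53.TestAlgebra
  Fermat.Agent.S53.BaseChange

/-- The index type of matrix entries. -/
abbrev X : Type := Gal × Fin 2 × Fin 2

variable {𝒪 : Type} [CommRing 𝒪] [IsLocalRing 𝒪]
variable {𝒟 : ∀ ⦃A : Type⦄ [CommRing A] [IsLocalRing A] [Algebra 𝒪 A], GaloisRepAdic A → Prop}

section Defs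

variable {A : Type} [CommRing A] [Algebra 𝒪 A]

/-- The entry family of a matrix-valued function relative to the lift `c`. -/
def entryFamily (c : Gal → M2 𝒪) (r : Gal → M2 A) : X → A :=
  fun x => r x.1 x.2.1 x.2.2 - algebraMap 𝒪 A (c x.1 x.2.1 x.2.2)

/-- The matrix-valued function with a given entry family. -/
def matOfFamily (c : Gal → M2 𝒪) (y : X → A) : Gal → M2 A :=
  fun g => Matrix.of fun i j => y (g, i, j) + algebraMap 𝒪 A (c g i j)

@[simp] lemma matOfFamily_apply (c : Gal → M2 𝒪) (y : X → A) (g : Gal) (i j : Fin 2) :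
    matOfFamily c y g i j = y (g, i, j) + algebraMap 𝒪 A (c g i j) := rfl

@[simp] lemma entryFamily_apply (c : Gal → M2 𝒪) (r : Gal → M2 A) (g : Gal) (i j : Fin 2) :
    entryFamily c r (g, i, j) = r g i j - algebraMap 𝒪 A (c g i j) := rfl

lemma matOfFamily_entryFamily (c : Gal → M2 𝒪) (r : Gal → M2 A) :
    matOfFamily c (entryFamily c r) = r := by
  funext g
  ext i j
  simp

lemma entryFamily_matOfFamily (c : Gal → M2 𝒪) (y : X → A) :
    entryFamily c (matOfFamily c y) = y := by
  funext x
  obtain ⟨g, i, j⟩ := x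
  simp

lemma entryFamily_map {B : Type} [CommRing B] [Algebra 𝒪 B] (φ : A →ₐ[𝒪] B)
    (c : Gal → M2 𝒪) (r : Gal → M2 A) :
    entryFamily c (fun g => (r g).map φ) = φ ∘ entryFamily c r := by
  funext x
  obtain ⟨g, i, j⟩ := x
  simp [entryFamily]

end Defs

section NormDef

variable {A : Type} [CommRing A] [IsLocalRing A] [Algebra 𝒪 A]

/-- `r` is a normalized `𝒟`-deformation (in matrix form). -/
structure IsNormDef (D : NormData 𝒪)
    (𝒟 : ∀ ⦃A : Type⦄ [CommRing A] [IsLocalRing A] [Algebra 𝒪 A], GaloisRepAdic A → Prop)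
    (r : Gal →* M2 A) : Prop where
  cont : MatCont r
  lift : IsLiftOf D.c (r : Gal → M2 A)
  norm : IsNormalized D (r : Gal → M2 A)
  cond : 𝒟 (ofMat r cont)

/-- The set of entry families of normalized `𝒟`-deformations over `A`. -/
def F (D : NormData 𝒪)
    (𝒟 : ∀ ⦃A : Type⦄ [CommRing A] [IsLocalRing A] [Algebra 𝒪 A], GaloisRepAdic A → Prop)
    (A : Type) [CommRing A] [IsLocalRing A] [Algebra 𝒪 A] (y : X → A) : Prop :=
  ∃ r : Gal →* M2 A, IsNormDef D 𝒟 r ∧ y = entryFamily D.c (r : Gal → M2 A)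

/-- (F0) entry families take values in the maximal ideal. -/
theorem F_mem_maximalIdeal {D : NormData 𝒪} {y : X → A} (h : F D 𝒟 A y) (x : X) :
    y x ∈ maximalIdeal A := by
  obtain ⟨r, hr, rfl⟩ := h
  exact hr.lift x.1 x.2.1 x.2.2

/-- The representation is determined by the entry family. -/
theorem eq_of_entryFamily_eq {D : NormData 𝒪} {r r' : Gal →* M2 A}
    (h : entryFamily D.c (r : Gal → M2 A) = entryFamily D.c (r' : Gal → M2 A)) : r = r' := by
  apply MonoidHom.ext
  intro g
  ext i j
  have := congrFun h (g, i, j)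
  simpa [entryFamily] using this

end NormDef

section Map

variable {A B : Type} [CommRing A] [IsLocalRing A] [Algebra 𝒪 A]
  [CommRing B] [IsLocalRing B] [Algebra 𝒪 B]

lemma coe_mapMat (φ : A →+* B) (r : Gal →* M2 A) :
    ((mapMat φ r : Gal →* M2 B) : Gal → M2 B) = fun g => (r g).map φ := rfl

lemma isLiftOf_mapMat (φ : A →ₐ[𝒪] B) (hφ : IsLocalHom (φ : A →+* B)) {c : Gal → M2 𝒪}
    {r : Gal →* M2 A} (h : IsLiftOf c (r : Gal → M2 A)) :
    IsLiftOf c ((mapMat (φ : A →+* B) r : Gal →* M2 B) : Gal → M2 B) := by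
  intro σ i j
  have h1 := h σ i j
  have h2 : mapMat (φ : A →+* B) r σ i j - algebraMap 𝒪 B (c σ i j) =
      φ (r σ i j - algebraMap 𝒪 A (c σ i j)) := by
    rw [map_sub, AlgHom.commutes]; rfl
  rw [h2]
  rw [mem_maximalIdeal, mem_nonunits_iff] at h1 ⊢
  intro hu
  exact h1 (hφ.map_nonunit _ hu)

lemma isNormalized_mapMat (φ : A →ₐ[𝒪] B) {D : NormData 𝒪}
    {r : Gal →* M2 A} (h : IsNormalized D (r : Gal → M2 A)) :
    IsNormalized D ((mapMat (φ : A →+* B) r : Gal →* M2 B) : Gal → M2 B) := by
  have key : ∀ x : Gal →₀ 𝒪, lin x ((mapMat (φ : A →+* B) r : Gal →* M2 B) : Gal → M2 B) =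
      (lin x (r : Gal → M2 A)).map (φ : A →+* B) := by
    intro x
    rw [coe_mapMat]
    exact lin_map (φ : A →+* B) (fun o => φ.commutes o) x _
  refine ⟨?_, ?_, ?_⟩
  · rw [key, Matrix.map_apply, h.a01, map_zero]
  · rw [key, Matrix.map_apply, h.a10, map_zero]
  · rw [key, Matrix.map_apply, h.b10, map_one]

/-- (F1) stability under local homomorphisms of test algebras. -/
theorem isNormDef_mapMat (h𝒟 : IsDeformationCondition 𝒪 𝒟)
    (hA : IsArtinianTestAlgebra 𝒪 A) (hB : IsArtinianTestAlgebra 𝒪 B)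
    (φ : A →ₐ[𝒪] B) (hφ : IsLocalHom (φ : A →+* B)) {D : NormData 𝒪}
    {r : Gal →* M2 A} (h : IsNormDef D 𝒟 r) :
    IsNormDef D 𝒟 (mapMat (φ : A →+* B) r) := by
  refine ⟨matCont_mapMat _ hφ h.cont, isLiftOf_mapMat φ hφ h.lift, isNormalized_mapMat φ h.norm, ?_⟩
  have h1 : 𝒟 ((ofMat r h.cont).baseChangeAlong (φ : A →+* B) hφ) :=
    h𝒟.baseChangeAlong hA hB φ hφ h.cond
  exact h𝒟.of_isEquiv hB (baseChangeAlong_ofMat_isEquiv (φ : A →+* B) hφ h.cont) h1

theorem F_map (h𝒟 : IsDeformationCondition 𝒪 𝒟)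
    (hA : IsArtinianTestAlgebra 𝒪 A) (hB : IsArtinianTestAlgebra 𝒪 B)
    (φ : A →ₐ[𝒪] B) (hφ : IsLocalHom (φ : A →+* B)) {D : NormData 𝒪}
    {y : X → A} (h : F D 𝒟 A y) : F D 𝒟 B (φ ∘ y) := by
  obtain ⟨r, hr, rfl⟩ := h
  refine ⟨mapMat (φ : A →+* B) r, isNormDef_mapMat h𝒟 hA hB φ hφ hr, ?_⟩
  rw [coe_mapMat]
  exact (entryFamily_map φ D.c _).symm

end Map

section Descent

variable {A : Type} [CommRing A] [IsLocalRing A] [Algebra 𝒪 A]

lemma map_matOfFamily {B : Type} [CommRing B] [Algebra 𝒪 B] (φ : A →ₐ[𝒪] B)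
    (c : Gal → M2 𝒪) (y : X → A) (g : Gal) :
    (matOfFamily c y g).map φ = matOfFamily c (φ ∘ y) g := by
  ext i j
  simp [matOfFamily]

/-- Over an Artinian test algebra a continuous matrix representation is trivial on an open
subgroup. -/
lemma exists_trivial_of_matCont (hA : IsArtinianTestAlgebra 𝒪 A) {r : Gal →* M2 A}
    (hr : MatCont r) :
    ∃ L : IntermediateField ℚ (AlgebraicClosure ℚ), FiniteDimensional ℚ L ∧
      ∀ σ : Gal, (∀ x ∈ L, σ x = x) → r σ = 1 := by
  obtain ⟨n, hn⟩ := exists_maximalIdeal_pow_eq_bot hA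
  obtain ⟨L, hL, h⟩ := hr n
  refine ⟨L, hL, fun σ hσ => ?_⟩
  ext i j
  have := h σ hσ i j
  rw [hn, Ideal.mem_bot, Matrix.sub_apply, sub_eq_zero] at this
  exact this

/-- A matrix-valued function which is trivial on an open subgroup is continuous. -/
lemma matCont_of_trivial {r : Gal →* M2 A}
    (h : ∃ L : IntermediateField ℚ (AlgebraicClosure ℚ), FiniteDimensional ℚ L ∧
      ∀ σ : Gal, (∀ x ∈ L, σ x = x) → r σ = 1) : MatCont r := by
  obtain ⟨L, hL, h⟩ := h
  intro n
  refine ⟨L, hL, fun σ hσ i j => ?_⟩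
  rw [h σ hσ, sub_self]
  exact Ideal.zero_mem _

/-- Construction of a monoid hom from a jointly injective family of alg homs. -/
theorem exists_hom_of_jointly_injective {ι : Type} (B : ι → Type) [∀ i, CommRing (B i)]
    [∀ i, Algebra 𝒪 (B i)] (φ : ∀ i, A →ₐ[𝒪] B i)
    (hinj : ∀ a a' : A, (∀ i, φ i a = φ i a') → a = a') (c : Gal → M2 𝒪) (y : X → A)
    (r : ∀ i, Gal →* M2 (B i)) (hr : ∀ i, φ i ∘ y = entryFamily c (r i : Gal → M2 (B i))) :
    ∃ rA : Gal →* M2 A, (rA : Gal → M2 A) = matOfFamily c y ∧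
      ∀ i, mapMat (φ i : A →+* B i) rA = r i := by
  have hmap : ∀ i g, (matOfFamily c y g).map (φ i) = r i g := by
    intro i g
    rw [map_matOfFamily, hr i, matOfFamily_entryFamily]
  have hinjM : ∀ M M' : M2 A, (∀ i, M.map (φ i) = M'.map (φ i)) → M = M' := by
    intro M M' h
    ext k l
    apply hinj
    intro i
    have := congrFun (congrFun (h i) k) l
    simpa using this
  let rA : Gal →* M2 A :=
    { toFun := matOfFamily c y
      map_one' := by
        apply hinjM
        intro i
        rw [hmap, map_one]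
        exact (Matrix.map_one (φ i) (map_zero _) (map_one _)).symm
      map_mul' := by
        intro g h
        apply hinjM
        intro i
        rw [hmap, map_mul]
        have : (matOfFamily c y g * matOfFamily c y h).map (φ i) =
            (matOfFamily c y g).map (φ i) * (matOfFamily c y h).map (φ i) :=
          Matrix.map_mul (f := (φ i : A →+* B i))
        rw [this, hmap, hmap] }
  refine ⟨rA, rfl, fun i => ?_⟩
  apply MonoidHom.ext
  intro g
  exact hmap i g

/-- (F2) descent along an injective local homomorphism of test algebras. -/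
theorem F_of_injective {B : Type} [CommRing B] [IsLocalRing B] [Algebra 𝒪 B]
    (h𝒟 : IsDeformationCondition 𝒪 𝒟)
    (hA : IsArtinianTestAlgebra 𝒪 A) (hB : IsArtinianTestAlgebra 𝒪 B)
    (φ : A →ₐ[𝒪] B) (hφ : IsLocalHom (φ : A →+* B)) (hinj : Function.Injective φ)
    {D : NormData 𝒪} {y : X → A} (h : F D 𝒟 B (φ ∘ y)) : F D 𝒟 A y := by
  obtain ⟨rB, hrB, hy⟩ := h
  obtain ⟨rA, hrA, hmap⟩ := exists_hom_of_jointly_injective (ι := Unit) (fun _ => B)
    (fun _ => φ) (fun a a' h => hinj (h ())) D.c y (fun _ => rB) (fun _ => hy)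
  have hmap' : mapMat (φ : A →+* B) rA = rB := hmap ()
  have hcont : MatCont rA := by
    apply matCont_of_trivial
    obtain ⟨L, hL, hLt⟩ := exists_trivial_of_matCont hB hrB.cont
    refine ⟨L, hL, fun σ hσ => ?_⟩
    have h1 : (rA σ).map φ = (1 : M2 A).map φ := by
      have := hLt σ hσ
      rw [← hmap'] at this
      have h2 : (rA σ).map φ = 1 := this
      rw [h2]
      exact (Matrix.map_one φ (map_zero _) (map_one _)).symm
    exact Matrix.map_injective hinj h1
  have hlift : IsLiftOf D.c (rA : Gal → M2 A) := by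
    intro σ i j
    have h1 := hrB.lift σ i j
    rw [← hmap'] at h1
    have h2 : mapMat (φ : A →+* B) rA σ i j - algebraMap 𝒪 B (D.c σ i j) =
        φ (rA σ i j - algebraMap 𝒪 A (D.c σ i j)) := by
      rw [map_sub, AlgHom.commutes]; rfl
    rw [h2] at h1
    rw [mem_maximalIdeal, mem_nonunits_iff] at h1 ⊢
    intro hu
    exact h1 (hu.map φ)
  have hnorm : IsNormalized D (rA : Gal → M2 A) := by
    have key : ∀ x : Gal →₀ 𝒪, (lin x (rA : Gal → M2 A)).map (φ : A →+* B) =
        lin x (rB : Gal → M2 B) := by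
      intro x
      rw [← hmap', coe_mapMat]
      exact (lin_map (φ : A →+* B) (fun o => φ.commutes o) x _).symm
    have hN := hrB.norm
    refine ⟨hinj ?_, hinj ?_, hinj ?_⟩
    · have := congrFun (congrFun (key D.a) 0) 1
      rw [Matrix.map_apply] at this
      rw [map_zero, ← hN.a01]; exact this
    · have := congrFun (congrFun (key D.a) 1) 0
      rw [Matrix.map_apply] at this
      rw [map_zero, ← hN.a10]; exact this
    · have := congrFun (congrFun (key D.b) 1) 0
      rw [Matrix.map_apply] at this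
      rw [map_one, ← hN.b10]; exact this
  refine ⟨rA, ⟨hcont, hlift, hnorm, ?_⟩, ?_⟩
  · apply h𝒟.of_baseChangeAlong_injective hA hB φ hφ hinj
    have e := baseChangeAlong_ofMat_isEquiv (φ : A →+* B) hφ hcont
    have h3 : 𝒟 (ofMat (mapMat (φ : A →+* B) rA) (matCont_mapMat _ hφ hcont)) := by
      have := hrB.cond
      subst hmap'
      exact this
    exact h𝒟.of_isEquiv hB (BaseChange.IsEquiv.symm e) h3
  · rw [hrA, entryFamily_matOfFamily]

end Descent

section Pair

variable {P A B : Type} [CommRing P] [IsLocalRing P] [Algebra 𝒪 P]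
  [CommRing A] [IsLocalRing A] [Algebra 𝒪 A] [CommRing B] [IsLocalRing B] [Algebra 𝒪 B]

/-- Construction of a monoid hom from a jointly injective pair of alg homs. -/
theorem exists_hom_of_pair (pA : P →ₐ[𝒪] A) (pB : P →ₐ[𝒪] B)
    (hinj : Function.Injective (fun x => (pA x, pB x))) (c : Gal → M2 𝒪) (y : X → P)
    (rA : Gal →* M2 A) (rB : Gal →* M2 B)
    (hrA : pA ∘ y = entryFamily c (rA : Gal → M2 A))
    (hrB : pB ∘ y = entryFamily c (rB : Gal → M2 B)) :
    ∃ rP : Gal →* M2 P, (rP : Gal → M2 P) = matOfFamily c y ∧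
      mapMat (pA : P →+* A) rP = rA ∧ mapMat (pB : P →+* B) rP = rB := by
  have hmapA : ∀ g, (matOfFamily c y g).map pA = rA g := by
    intro g
    rw [map_matOfFamily, hrA, matOfFamily_entryFamily]
  have hmapB : ∀ g, (matOfFamily c y g).map pB = rB g := by
    intro g
    rw [map_matOfFamily, hrB, matOfFamily_entryFamily]
  have hinjM : ∀ M M' : M2 P, M.map pA = M'.map pA → M.map pB = M'.map pB → M = M' := by
    intro M M' h h'
    ext k l
    apply hinj
    have e1 := congrFun (congrFun h k) l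
    have e2 := congrFun (congrFun h' k) l
    simp only [Matrix.map_apply] at e1 e2
    simp only [Prod.mk.injEq]
    exact ⟨e1, e2⟩
  let rP : Gal →* M2 P :=
    { toFun := matOfFamily c y
      map_one' := by
        apply hinjM
        · rw [hmapA, map_one]
          exact (Matrix.map_one pA (map_zero _) (map_one _)).symm
        · rw [hmapB, map_one]
          exact (Matrix.map_one pB (map_zero _) (map_one _)).symm
      map_mul' := by
        intro g h
        apply hinjM
        · rw [hmapA, map_mul]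
          have : (matOfFamily c y g * matOfFamily c y h).map pA =
              (matOfFamily c y g).map pA * (matOfFamily c y h).map pA :=
            Matrix.map_mul (f := (pA : P →+* A))
          rw [this, hmapA, hmapA]
        · rw [hmapB, map_mul]
          have : (matOfFamily c y g * matOfFamily c y h).map pB =
              (matOfFamily c y g).map pB * (matOfFamily c y h).map pB :=
            Matrix.map_mul (f := (pB : P →+* B))
          rw [this, hmapB, hmapB] }
  refine ⟨rP, rfl, ?_, ?_⟩
  · apply MonoidHom.ext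
    intro g
    exact hmapA g
  · apply MonoidHom.ext
    intro g
    exact hmapB g

/-- (F3) fibre products / jointly injective pairs: if `P → A × B` is injective (local homs of
test algebras) and the images of `y` are entry families of normalized `𝒟`-deformations over `A`
and `B`, then `y` is one over `P`. -/
theorem F_of_pair [Finite (ResidueField 𝒪)] (h𝒟 : IsDeformationCondition 𝒪 𝒟)
    (hP : IsArtinianTestAlgebra 𝒪 P) (hA : IsArtinianTestAlgebra 𝒪 A)
    (hB : IsArtinianTestAlgebra 𝒪 B) (pA : P →ₐ[𝒪] A) (pB : P →ₐ[𝒪] B)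
    (hpA : IsLocalHom (pA : P →+* A)) (hpB : IsLocalHom (pB : P →+* B))
    (hinj : Function.Injective (fun x => (pA x, pB x)))
    {D : NormData 𝒪} {y : X → P} (h1 : F D 𝒟 A (pA ∘ y)) (h2 : F D 𝒟 B (pB ∘ y)) :
    F D 𝒟 P y := by
  obtain ⟨rA, hrA, hyA⟩ := h1
  obtain ⟨rB, hrB, hyB⟩ := h2
  obtain ⟨rP, hrP, hmapA, hmapB⟩ := exists_hom_of_pair pA pB hinj D.c y rA rB hyA hyB
  have hinjM : ∀ M M' : M2 P, M.map pA = M'.map pA → M.map pB = M'.map pB → M = M' := by
    intro M M' h h'
    ext k l
    apply hinj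
    have e1 := congrFun (congrFun h k) l
    have e2 := congrFun (congrFun h' k) l
    simp only [Matrix.map_apply] at e1 e2
    simp only [Prod.mk.injEq]
    exact ⟨e1, e2⟩
  have hcont : MatCont rP := by
    apply matCont_of_trivial
    obtain ⟨L, hL, hLt⟩ := exists_trivial_of_matCont hA hrA.cont
    obtain ⟨L', hL', hLt'⟩ := exists_trivial_of_matCont hB hrB.cont
    refine ⟨L ⊔ L', IntermediateField.finiteDimensional_sup L L', fun σ hσ => ?_⟩
    have hσ1 : ∀ x ∈ L, σ x = x := fun x hx => hσ x ((le_sup_left : L ≤ L ⊔ L') hx)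
    have hσ2 : ∀ x ∈ L', σ x = x := fun x hx => hσ x ((le_sup_right : L' ≤ L ⊔ L') hx)
    apply hinjM
    · have := hLt σ hσ1
      rw [← hmapA] at this
      have h2 : (rP σ).map pA = 1 := this
      rw [h2]
      exact (Matrix.map_one pA (map_zero _) (map_one _)).symm
    · have := hLt' σ hσ2
      rw [← hmapB] at this
      have h2 : (rP σ).map pB = 1 := this
      rw [h2]
      exact (Matrix.map_one pB (map_zero _) (map_one _)).symm
  have hlift : IsLiftOf D.c (rP : Gal → M2 P) := by
    intro σ i j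
    have h1 := hrA.lift σ i j
    rw [← hmapA] at h1
    have h2 : mapMat (pA : P →+* A) rP σ i j - algebraMap 𝒪 A (D.c σ i j) =
        pA (rP σ i j - algebraMap 𝒪 P (D.c σ i j)) := by
      rw [map_sub, AlgHom.commutes]; rfl
    rw [h2] at h1
    rw [mem_maximalIdeal, mem_nonunits_iff] at h1 ⊢
    intro hu
    exact h1 (hu.map pA)
  have hnorm : IsNormalized D (rP : Gal → M2 P) := by
    have keyA : ∀ x : Gal →₀ 𝒪, (lin x (rP : Gal → M2 P)).map (pA : P →+* A) =
        lin x (rA : Gal → M2 A) := by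
      intro x
      rw [← hmapA, coe_mapMat]
      exact (lin_map (pA : P →+* A) (fun o => pA.commutes o) x _).symm
    have keyB : ∀ x : Gal →₀ 𝒪, (lin x (rP : Gal → M2 P)).map (pB : P →+* B) =
        lin x (rB : Gal → M2 B) := by
      intro x
      rw [← hmapB, coe_mapMat]
      exact (lin_map (pB : P →+* B) (fun o => pB.commutes o) x _).symm
    have hNA := hrA.norm
    have hNB := hrB.norm
    have hentry : ∀ (x : Gal →₀ 𝒪) (i j : Fin 2) (v : P), pA v = lin x (rA : Gal → M2 A) i j →
        pB v = lin x (rB : Gal → M2 B) i j → lin x (rP : Gal → M2 P) i j = v := by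
      intro x i j v hvA hvB
      apply hinj
      simp only [Prod.mk.injEq]
      constructor
      · have := congrFun (congrFun (keyA x) i) j
        rw [Matrix.map_apply] at this
        rw [hvA]; exact this
      · have := congrFun (congrFun (keyB x) i) j
        rw [Matrix.map_apply] at this
        rw [hvB]; exact this
    refine ⟨?_, ?_, ?_⟩
    · exact hentry D.a 0 1 0 (by rw [map_zero, hNA.a01]) (by rw [map_zero, hNB.a01])
    · exact hentry D.a 1 0 0 (by rw [map_zero, hNA.a10]) (by rw [map_zero, hNB.a10])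
    · exact hentry D.b 1 0 1 (by rw [map_one, hNA.b10]) (by rw [map_one, hNB.b10])
  refine ⟨rP, ⟨hcont, hlift, hnorm, ?_⟩, ?_⟩
  · apply Closure.of_pair h𝒟 hP hA hB pA pB hpA hpB hinj
    · have e := baseChangeAlong_ofMat_isEquiv (pA : P →+* A) hpA hcont
      have h3 : 𝒟 (ofMat (mapMat (pA : P →+* A) rP) (matCont_mapMat _ hpA hcont)) := by
        have := hrA.cond
        subst hmapA
        exact this
      exact h𝒟.of_isEquiv hA (BaseChange.IsEquiv.symm e) h3
    · have e := baseChangeAlong_ofMat_isEquiv (pB : P →+* B) hpB hcont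
      have h3 : 𝒟 (ofMat (mapMat (pB : P →+* B) rP) (matCont_mapMat _ hpB hcont)) := by
        have := hrB.cond
        subst hmapB
        exact this
      exact h𝒟.of_isEquiv hB (BaseChange.IsEquiv.symm e) h3
  · rw [hrP, entryFamily_matOfFamily]

end Pair

end Fermat.Agent.S53.NormFunctor
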