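import Fermat.Agent.S53.MatrixRep

set_option autoImplicit false
set_option linter.unusedSectionVars false
set_option linter.style.haveILetI false
set_option linter.unusedSimpArgs false

namespace Fermat.Agent.S53

open IsLocalRing

section Lin

variable {𝒪 : Type} [CommRing 𝒪] {A : Type} [CommRing A] [Algebra 𝒪 A]

/-- Linear extension of a matrix-valued function to finite formal sums of group elements. -/
noncomputable def lin (c : Gal →₀ 𝒪) (r : Gal → M2 A) : M2 A :=
  c.sum fun g x => algebraMap 𝒪 A x • r g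

lemma lin_apply (c : Gal →₀ 𝒪) (r : Gal → M2 A) (i j : Fin 2) :
    lin c r i j = c.sum fun g x => algebraMap 𝒪 A x * r g i j := by
  unfold lin Finsupp.sum
  rw [Matrix.sum_apply]
  rfl

lemma mul_lin (c : Gal →₀ 𝒪) (r : Gal → M2 A) (M : M2 A) :
    M * lin c r = lin c fun g => M * r g := by
  unfold lin Finsupp.sum
  rw [Finset.mul_sum]
  exact Finset.sum_congr rfl fun g _ => by rw [Matrix.mul_smul]

lemma lin_mul (c : Gal →₀ 𝒪) (r : Gal → M2 A) (M : M2 A) :
    lin c r * M = lin c fun g => r g * M := by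
  unfold lin Finsupp.sum
  rw [Finset.sum_mul]
  exact Finset.sum_congr rfl fun g _ => by rw [Matrix.smul_mul]

lemma lin_conj (c : Gal →₀ 𝒪) {r r' : Gal → M2 A} (M : M2 A)
    (h : ∀ σ, M * r σ = r' σ * M) : M * lin c r = lin c r' * M := by
  rw [mul_lin, lin_mul]
  congr 1
  funext g
  exact h g

lemma lin_map {B : Type} [CommRing B] [Algebra 𝒪 B] (φ : A →+* B)
    (hφ : ∀ x : 𝒪, φ (algebraMap 𝒪 A x) = algebraMap 𝒪 B x) (c : Gal →₀ 𝒪) (r : Gal → M2 A) :
    lin c (fun g => (r g).map φ) = (lin c r).map φ := by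
  ext i j
  rw [Matrix.map_apply, lin_apply, lin_apply]
  unfold Finsupp.sum
  rw [map_sum]
  refine Finset.sum_congr rfl fun g _ => ?_
  show algebraMap 𝒪 B (c g) * φ (r g i j) = φ (algebraMap 𝒪 A (c g) * r g i j)
  rw [map_mul, hφ]

end Lin

section Normalized

variable {𝒪 : Type} [CommRing 𝒪] [IsLocalRing 𝒪]

/-- Normalizing data: a set-theoretic lift `c` of the residual matrices and two formal sums
`a`, `b` of group elements such that `a` acts (residually) as `E₁₁` and `b` has residual
`(1,0)`-entry equal to `1`. -/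
structure NormData (𝒪 : Type) [CommRing 𝒪] [IsLocalRing 𝒪] where
  c : Gal → M2 𝒪
  a : Gal →₀ 𝒪
  b : Gal →₀ 𝒪
  ha00 : lin a c 0 0 - 1 ∈ maximalIdeal 𝒪
  ha01 : lin a c 0 1 ∈ maximalIdeal 𝒪
  ha10 : lin a c 1 0 ∈ maximalIdeal 𝒪
  ha11 : lin a c 1 1 ∈ maximalIdeal 𝒪
  hb10 : lin b c 1 0 - 1 ∈ maximalIdeal 𝒪

variable {A : Type} [CommRing A] [IsLocalRing A] [Algebra 𝒪 A]

/-- `r` lifts the residual matrices (given through their set-theoretic lift `c`). -/
def IsLiftOf (c : Gal → M2 𝒪) (r : Gal → M2 A) : Prop :=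
  ∀ σ i j, r σ i j - algebraMap 𝒪 A (c σ i j) ∈ maximalIdeal A

/-- The normalization conditions. -/
structure IsNormalized (D : NormData 𝒪) (r : Gal → M2 A) : Prop where
  a01 : lin D.a r 0 1 = 0
  a10 : lin D.a r 1 0 = 0
  b10 : lin D.b r 1 0 = 1

lemma lin_sub_mem {c : Gal → M2 𝒪} {r : Gal → M2 A} (h : IsLiftOf c r) (x : Gal →₀ 𝒪)
    (i j : Fin 2) : lin x r i j - algebraMap 𝒪 A (lin x c i j) ∈ maximalIdeal A := by
  rw [lin_apply, lin_apply]
  unfold Finsupp.sum
  rw [map_sum, ← Finset.sum_sub_distrib]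
  refine Ideal.sum_mem _ fun g _ => ?_
  have : algebraMap 𝒪 A (x g) * r g i j - algebraMap 𝒪 A ((algebraMap 𝒪 𝒪) (x g) * c g i j)
      = algebraMap 𝒪 A (x g) * (r g i j - algebraMap 𝒪 A (c g i j)) := by
    rw [map_mul]
    simp only [Algebra.algebraMap_self, RingHom.id_apply]
    ring
  rw [this]
  exact Ideal.mul_mem_left _ _ (h g i j)

lemma algebraMap_mem_maximalIdeal (hloc : IsLocalHom (algebraMap 𝒪 A)) {x : 𝒪}
    (hx : x ∈ maximalIdeal 𝒪) : algebraMap 𝒪 A x ∈ maximalIdeal A := by
  haveI := hloc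
  exact map_nonunit (algebraMap 𝒪 A) x hx

section
variable (D : NormData 𝒪) (hloc : IsLocalHom (algebraMap 𝒪 A)) {r : Gal → M2 A}
  (h : IsLiftOf D.c r)
include hloc h

lemma lin_a00_mem : lin D.a r 0 0 - 1 ∈ maximalIdeal A := by
  have h1 := lin_sub_mem h D.a 0 0
  have h2 := algebraMap_mem_maximalIdeal hloc D.ha00
  rw [map_sub, map_one] at h2
  have := Ideal.add_mem _ h1 h2
  convert this using 1
  ring

lemma lin_a01_mem : lin D.a r 0 1 ∈ maximalIdeal A := by
  have h1 := lin_sub_mem h D.a 0 1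
  have h2 := algebraMap_mem_maximalIdeal hloc D.ha01
  have := Ideal.add_mem _ h1 h2
  convert this using 1
  ring

lemma lin_a10_mem : lin D.a r 1 0 ∈ maximalIdeal A := by
  have h1 := lin_sub_mem h D.a 1 0
  have h2 := algebraMap_mem_maximalIdeal hloc D.ha10
  have := Ideal.add_mem _ h1 h2
  convert this using 1
  ring

lemma lin_a11_mem : lin D.a r 1 1 ∈ maximalIdeal A := by
  have h1 := lin_sub_mem h D.a 1 1
  have h2 := algebraMap_mem_maximalIdeal hloc D.ha11
  have := Ideal.add_mem _ h1 h2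
  convert this using 1
  ring

lemma lin_b10_mem : lin D.b r 1 0 - 1 ∈ maximalIdeal A := by
  have h1 := lin_sub_mem h D.b 1 0
  have h2 := algebraMap_mem_maximalIdeal hloc D.hb10
  rw [map_sub, map_one] at h2
  have := Ideal.add_mem _ h1 h2
  convert this using 1
  ring

end

lemma isUnit_of_sub_one_mem {x : A} (h : x - 1 ∈ maximalIdeal A) : IsUnit x := by
  by_contra hx
  have hx' : x ∈ maximalIdeal A := (IsLocalRing.mem_maximalIdeal x).mpr hx
  have : (1 : A) ∈ maximalIdeal A := by
    have := Ideal.sub_mem _ hx' h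
    simpa using this
  exact (Ideal.ne_top_iff_one _).mp (IsLocalRing.maximalIdeal.isMaximal A).ne_top this

lemma isUnit_of_add_one_mem {x : A} (h : x + 1 ∈ maximalIdeal A) : IsUnit x := by
  have : IsUnit (-x) := isUnit_of_sub_one_mem (by
    have := Ideal.neg_mem_iff _ |>.mpr h
    convert this using 1
    ring)
  simpa using this.neg

/-- **Rigidity**: conjugate normalized lifts are equal. -/
theorem rigidity (D : NormData 𝒪) (hloc : IsLocalHom (algebraMap 𝒪 A))
    {r r' : Gal → M2 A} (hr : IsLiftOf D.c r) (hr' : IsLiftOf D.c r')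
    (hn : IsNormalized D r) (hn' : IsNormalized D r')
    (M N : M2 A) (hNM : N * M = 1) (h : ∀ σ, M * r σ = r' σ * M) : r = r' := by
  have hT := lin_conj D.a M h
  have hB := lin_conj D.b M h
  set T := lin D.a r with hTdef
  set T' := lin D.a r' with hT'def
  set B := lin D.b r with hBdef
  set B' := lin D.b r' with hB'def
  have e01 := congrFun (congrFun hT 0) 1
  have e10 := congrFun (congrFun hT 1) 0
  have f10 := congrFun (congrFun hB 1) 0
  simp only [Matrix.mul_apply, Fin.sum_univ_two] at e01 e10 f10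
  have a01 : T 0 1 = 0 := hn.a01
  have a01' : T' 0 1 = 0 := hn'.a01
  have a10 : T 1 0 = 0 := hn.a10
  have a10' : T' 1 0 = 0 := hn'.a10
  have b10 : B 1 0 = 1 := hn.b10
  have b10' : B' 1 0 = 1 := hn'.b10
  rw [a01, a01'] at e01
  rw [a10, a10'] at e10
  rw [b10, b10'] at f10
  -- e01 : M 0 0 * 0 + M 0 1 * T 1 1 = T' 0 0 * M 0 1 + 0 * M 1 1
  have u1 : IsUnit (T' 0 0 - T 1 1) := by
    apply isUnit_of_sub_one_mem
    have h1 := lin_a00_mem D hloc hr'
    have h2 := lin_a11_mem D hloc hr
    have := Ideal.sub_mem _ h1 h2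
    convert this using 1
    ring
  have u2 : IsUnit (T 0 0 - T' 1 1) := by
    apply isUnit_of_sub_one_mem
    have h1 := lin_a00_mem D hloc hr
    have h2 := lin_a11_mem D hloc hr'
    have := Ideal.sub_mem _ h1 h2
    convert this using 1
    ring
  have hM01 : M 0 1 = 0 := by
    have : (T' 0 0 - T 1 1) * M 0 1 = 0 := by linear_combination -e01
    exact (u1.mul_right_eq_zero).mp this
  have hM10 : M 1 0 = 0 := by
    have : (T 0 0 - T' 1 1) * M 1 0 = 0 := by linear_combination e10
    exact (u2.mul_right_eq_zero).mp this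
  have hM11 : M 1 1 = M 0 0 := by
    rw [hM10] at f10
    linear_combination f10
  have hMs : M = M 0 0 • (1 : M2 A) := by
    ext i j
    fin_cases i <;> fin_cases j <;> simp [hM01, hM10, hM11]
  have hu : IsUnit (M 0 0) := by
    have := congrFun (congrFun hNM 0) 0
    simp only [Matrix.mul_apply, Fin.sum_univ_two, hM10, Matrix.one_apply_eq, mul_zero,
      add_zero] at this
    exact IsUnit.of_mul_eq_one _ (by rw [mul_comm]; exact this)
  funext σ
  have := h σ
  rw [hMs] at this
  simp only [Matrix.smul_mul, Matrix.one_mul, Matrix.mul_smul, Matrix.mul_one] at this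
  ext i j
  have := congrFun (congrFun this i) j
  simp only [Matrix.smul_apply, smul_eq_mul] at this
  exact hu.mul_left_cancel this

section EntriesIn

variable {R : Type} [CommRing R]

/-- All entries of the matrix lie in the ideal. -/
def EntriesIn (I : Ideal R) (M : M2 R) : Prop := ∀ i j, M i j ∈ I

lemma EntriesIn.add {I : Ideal R} {M N : M2 R} (hM : EntriesIn I M) (hN : EntriesIn I N) :
    EntriesIn I (M + N) := fun i j => I.add_mem (hM i j) (hN i j)

lemma EntriesIn.sub {I : Ideal R} {M N : M2 R} (hM : EntriesIn I M) (hN : EntriesIn I N) :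
    EntriesIn I (M - N) := fun i j => I.sub_mem (hM i j) (hN i j)

lemma EntriesIn.neg {I : Ideal R} {M : M2 R} (hM : EntriesIn I M) :
    EntriesIn I (-M) := fun i j => I.neg_mem (hM i j)

lemma EntriesIn.mul_left {I : Ideal R} {M : M2 R} (hM : EntriesIn I M) (N : M2 R) :
    EntriesIn I (N * M) := fun i j => by
  rw [Matrix.mul_apply]
  exact I.sum_mem fun k _ => I.mul_mem_left _ (hM k j)

lemma EntriesIn.mul_right {I : Ideal R} {M : M2 R} (hM : EntriesIn I M) (N : M2 R) :
    EntriesIn I (M * N) := fun i j => by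
  rw [Matrix.mul_apply]
  exact I.sum_mem fun k _ => I.mul_mem_right _ (hM i k)

lemma EntriesIn.zero (I : Ideal R) : EntriesIn I (0 : M2 R) := fun _ _ => I.zero_mem

lemma EntriesIn.mono {I J : Ideal R} (h : I ≤ J) {M : M2 R} (hM : EntriesIn I M) :
    EntriesIn J M := fun i j => h (hM i j)

/-- Conjugation preserves congruence to the identity modulo an ideal. -/
lemma EntriesIn.conj_sub_one {I : Ideal R} {X : M2 R} (hX : EntriesIn I (X - 1))
    (M N : M2 R) (hNM : N * M = 1) : EntriesIn I (N * X * M - 1) := by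
  have : N * X * M - 1 = N * (X - 1) * M := by
    rw [Matrix.mul_sub, Matrix.sub_mul, Matrix.mul_one, hNM]
  rw [this]
  exact (hX.mul_left N).mul_right M

end EntriesIn

section Exists

variable {A : Type} [CommRing A] [IsLocalRing A]

/-- A matrix congruent to `1` modulo the maximal ideal is invertible, with inverse congruent to
`1`. -/
lemma exists_inverse_of_entriesIn (M : M2 A) (hM : EntriesIn (maximalIdeal A) (M - 1)) :
    ∃ N : M2 A, M * N = 1 ∧ N * M = 1 ∧ EntriesIn (maximalIdeal A) (N - 1) := by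
  have hdet : IsUnit M.det := by
    apply isUnit_of_sub_one_mem
    rw [Matrix.det_fin_two]
    have h00 := hM 0 0
    have h01 := hM 0 1
    have h10 := hM 1 0
    have h11 := hM 1 1
    simp only [Matrix.sub_apply, Matrix.one_apply_eq, Matrix.one_apply_ne, ne_eq,
      Fin.isValue, zero_ne_one, one_ne_zero, not_false_eq_true, sub_zero] at h00 h01 h10 h11
    have : M 0 0 * M 1 1 - M 0 1 * M 1 0 - 1 =
        (M 0 0 - 1) * M 1 1 + (M 1 1 - 1) - M 0 1 * M 1 0 := by ring
    rw [this]
    exact Ideal.sub_mem _ (Ideal.add_mem _ (Ideal.mul_mem_right _ _ h00) h11)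
      (Ideal.mul_mem_right _ _ h01)
  refine ⟨M⁻¹, Matrix.mul_nonsing_inv M hdet, Matrix.nonsing_inv_mul M hdet, ?_⟩
  have : M⁻¹ - 1 = -(M⁻¹ * (M - 1)) := by
    rw [Matrix.mul_sub, Matrix.nonsing_inv_mul M hdet, Matrix.mul_one]
    abel
  rw [this]
  exact (hM.mul_left _).neg

/-- The key normalization step: a matrix `T ≡ E₁₁` can be diagonalized by a matrix `≡ 1`,
and simultaneously the `(1,0)` entry of `B` (which is `≡ 1`) can be made equal to `1`. -/
theorem exists_normalizing_matrix [HenselianLocalRing A] (T B : M2 A)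
    (hT00 : T 0 0 - 1 ∈ maximalIdeal A) (hT01 : T 0 1 ∈ maximalIdeal A)
    (hT10 : T 1 0 ∈ maximalIdeal A) (hT11 : T 1 1 ∈ maximalIdeal A)
    (hB : B 1 0 - 1 ∈ maximalIdeal A) :
    ∃ M N : M2 A, M * N = 1 ∧ N * M = 1 ∧ EntriesIn (maximalIdeal A) (M - 1) ∧
      EntriesIn (maximalIdeal A) (N - 1) ∧
      (N * T * M) 0 1 = 0 ∧ (N * T * M) 1 0 = 0 ∧ (N * B * M) 1 0 = 1 := by
  classical
  set t := T 0 0 + T 1 1 with ht
  set δ := T 0 0 * T 1 1 - T 0 1 * T 1 0 with hδ
  -- Hensel
  let f : Polynomial A := Polynomial.X ^ 2 - Polynomial.C t * Polynomial.X + Polynomial.C δ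
  have hf : f.Monic := by
    have : f = Polynomial.X ^ 2 + (-(Polynomial.C t * Polynomial.X) + Polynomial.C δ) := by
      simp only [f]; ring
    rw [this]
    apply Polynomial.monic_X_pow_add
    refine lt_of_le_of_lt (Polynomial.degree_add_le _ _) ?_
    refine max_lt ?_ ?_
    · rw [Polynomial.degree_neg]
      refine lt_of_le_of_lt (Polynomial.degree_C_mul_X_le t) ?_
      norm_num
    · refine lt_of_le_of_lt Polynomial.degree_C_le ?_
      norm_num
  have hδm : δ ∈ maximalIdeal A := by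
    have : δ = (T 0 0 - 1) * T 1 1 + T 1 1 - T 0 1 * T 1 0 := by simp only [hδ]; ring
    rw [this]
    exact Ideal.sub_mem _ (Ideal.add_mem _ (Ideal.mul_mem_right _ _ hT00) hT11)
      (Ideal.mul_mem_right _ _ hT01)
  have htu : t - 1 ∈ maximalIdeal A := by
    have : t - 1 = (T 0 0 - 1) + T 1 1 := by simp only [ht]; ring
    rw [this]
    exact Ideal.add_mem _ hT00 hT11
  have h0 : Polynomial.eval 0 f ∈ maximalIdeal A := by
    simp only [f, Polynomial.eval_add, Polynomial.eval_sub, Polynomial.eval_pow,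
      Polynomial.eval_X, Polynomial.eval_mul, Polynomial.eval_C]
    simpa using hδm
  have h0' : IsUnit (Polynomial.eval 0 (Polynomial.derivative f)) := by
    simp only [f, Polynomial.derivative_add, Polynomial.derivative_sub,
      Polynomial.derivative_X_pow, Polynomial.derivative_mul, Polynomial.derivative_C,
      Polynomial.derivative_X, Polynomial.eval_add, Polynomial.eval_sub, Polynomial.eval_mul,
      Polynomial.eval_C, Polynomial.eval_X, Polynomial.eval_pow, Polynomial.eval_zero,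
      Polynomial.eval_one]
    have : IsUnit (-t) := (isUnit_of_sub_one_mem htu).neg
    simpa using this
  obtain ⟨μ, hμroot, hμm⟩ := HenselianLocalRing.is_henselian f hf 0 h0 h0'
  rw [sub_zero] at hμm
  have hμ : μ ^ 2 - t * μ + δ = 0 := by
    have := hμroot
    simp only [Polynomial.IsRoot.def, f, Polynomial.eval_add, Polynomial.eval_sub,
      Polynomial.eval_pow, Polynomial.eval_X, Polynomial.eval_mul, Polynomial.eval_C] at this
    exact this
  set lam := t - μ with hlam
  -- the first change of basis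
  let M₀ : M2 A := !![T 0 0 - μ, -T 0 1; T 1 0, lam - T 1 1]
  have hM₀ : EntriesIn (maximalIdeal A) (M₀ - 1) := by
    intro i j
    fin_cases i <;> fin_cases j
    · show T 0 0 - μ - 1 ∈ _
      have : T 0 0 - μ - 1 = (T 0 0 - 1) - μ := by ring
      rw [this]
      exact Ideal.sub_mem _ hT00 hμm
    · show -T 0 1 - 0 ∈ _
      rw [sub_zero]
      exact Ideal.neg_mem_iff _ |>.mpr hT01
    · show T 1 0 - 0 ∈ _
      rw [sub_zero]
      exact hT10
    · show lam - T 1 1 - 1 ∈ _
      have : lam - T 1 1 - 1 = (T 0 0 - 1) - μ := by simp only [hlam, ht]; ring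
      rw [this]
      exact Ideal.sub_mem _ hT00 hμm
  obtain ⟨N₀, hMN₀, hNM₀, hN₀⟩ := exists_inverse_of_entriesIn M₀ hM₀
  let Dg : M2 A := !![lam, 0; 0, μ]
  have hTM : T * M₀ = M₀ * Dg := by
    ext i j
    fin_cases i <;> fin_cases j
    · show (T * M₀) 0 0 = (M₀ * Dg) 0 0
      simp only [Matrix.mul_apply, Fin.sum_univ_two, M₀, Dg, Matrix.of_apply, Matrix.cons_val',
        Matrix.cons_val_zero, Matrix.cons_val_one, Matrix.cons_val_fin_one]
      simp only [hlam, ht, hδ] at hμ ⊢
      linear_combination (-1 : A) * hμ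
    · show (T * M₀) 0 1 = (M₀ * Dg) 0 1
      simp only [Matrix.mul_apply, Fin.sum_univ_two, M₀, Dg, Matrix.of_apply, Matrix.cons_val',
        Matrix.cons_val_zero, Matrix.cons_val_one, Matrix.cons_val_fin_one]
      simp only [hlam, ht, hδ] at hμ ⊢
      ring
    · show (T * M₀) 1 0 = (M₀ * Dg) 1 0
      simp only [Matrix.mul_apply, Fin.sum_univ_two, M₀, Dg, Matrix.of_apply, Matrix.cons_val',
        Matrix.cons_val_zero, Matrix.cons_val_one, Matrix.cons_val_fin_one]
      simp only [hlam, ht, hδ] at hμ ⊢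
      ring
    · show (T * M₀) 1 1 = (M₀ * Dg) 1 1
      simp only [Matrix.mul_apply, Fin.sum_univ_two, M₀, Dg, Matrix.of_apply, Matrix.cons_val',
        Matrix.cons_val_zero, Matrix.cons_val_one, Matrix.cons_val_fin_one]
      simp only [hlam, ht, hδ] at hμ ⊢
      linear_combination (1 : A) * hμ
  have hNTM : N₀ * T * M₀ = Dg := by
    rw [Matrix.mul_assoc, hTM, ← Matrix.mul_assoc, hNM₀, Matrix.one_mul]
  -- the scalar
  set β := (N₀ * B * M₀) 1 0 with hβ
  have hβm : β - 1 ∈ maximalIdeal A := by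
    have h1 : N₀ * B * M₀ - B = (N₀ - 1) * B * M₀ + B * (M₀ - 1) := by
      rw [Matrix.sub_mul, Matrix.sub_mul, Matrix.one_mul, Matrix.mul_sub, Matrix.mul_one]
      abel
    have h2 : EntriesIn (maximalIdeal A) (N₀ * B * M₀ - B) := by
      rw [h1]
      exact ((hN₀.mul_right B).mul_right M₀).add (hM₀.mul_left B)
    have h3 := h2 1 0
    rw [Matrix.sub_apply] at h3
    have : β - 1 = ((N₀ * B * M₀) 1 0 - B 1 0) + (B 1 0 - 1) := by simp only [hβ]; ring
    rw [this]
    exact Ideal.add_mem _ h3 hB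
  have hβu : IsUnit β := isUnit_of_sub_one_mem hβm
  obtain ⟨βi, hβi⟩ := hβu.exists_right_inv
  have hβi' : βi * β = 1 := by rw [mul_comm]; exact hβi
  have hβim : βi - 1 ∈ maximalIdeal A := by
    have : βi - 1 = -(βi * (β - 1)) := by linear_combination (1 : A) * hβi'
    rw [this]
    exact Ideal.neg_mem_iff _ |>.mpr (Ideal.mul_mem_left _ _ hβm)
  let Db : M2 A := !![1, 0; 0, β]
  let Db' : M2 A := !![1, 0; 0, βi]
  have hDD : Db * Db' = 1 := by
    ext i j
    fin_cases i <;> fin_cases j <;>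
      simp [Db, Db', Matrix.mul_apply, Fin.sum_univ_two, hβi]
  have hDD' : Db' * Db = 1 := by
    ext i j
    fin_cases i <;> fin_cases j <;>
      simp [Db, Db', Matrix.mul_apply, Fin.sum_univ_two, hβi']
  have hDb : EntriesIn (maximalIdeal A) (Db - 1) := by
    intro i j
    fin_cases i <;> fin_cases j <;> simp [Db, hβm]
  have hDb' : EntriesIn (maximalIdeal A) (Db' - 1) := by
    intro i j
    fin_cases i <;> fin_cases j <;> simp [Db', hβim]
  refine ⟨M₀ * Db, Db' * N₀, ?_, ?_, ?_, ?_, ?_, ?_, ?_⟩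
  · calc M₀ * Db * (Db' * N₀) = M₀ * (Db * Db') * N₀ := by simp only [Matrix.mul_assoc]
      _ = 1 := by rw [hDD, Matrix.mul_one, hMN₀]
  · calc Db' * N₀ * (M₀ * Db) = Db' * (N₀ * M₀) * Db := by simp only [Matrix.mul_assoc]
      _ = 1 := by rw [hNM₀, Matrix.mul_one, hDD']
  · have : M₀ * Db - 1 = (M₀ - 1) * Db + (Db - 1) := by
      rw [Matrix.sub_mul, Matrix.one_mul]; abel
    rw [this]
    exact (hM₀.mul_right Db).add hDb
  · have : Db' * N₀ - 1 = Db' * (N₀ - 1) + (Db' - 1) := by
      rw [Matrix.mul_sub, Matrix.mul_one]; abel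
    rw [this]
    exact (hN₀.mul_left Db').add hDb'
  · have : Db' * N₀ * T * (M₀ * Db) = Db' * (N₀ * T * M₀) * Db := by
      simp only [Matrix.mul_assoc]
    rw [this, hNTM]
    simp [Db, Db', Dg, Matrix.mul_apply, Fin.sum_univ_two]
  · have : Db' * N₀ * T * (M₀ * Db) = Db' * (N₀ * T * M₀) * Db := by
      simp only [Matrix.mul_assoc]
    rw [this, hNTM]
    simp [Db, Db', Dg, Matrix.mul_apply, Fin.sum_univ_two]
  · have : Db' * N₀ * B * (M₀ * Db) = Db' * (N₀ * B * M₀) * Db := by
      simp only [Matrix.mul_assoc]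
    have key : ∀ X : M2 A, (Db' * X * Db) 1 0 = βi * X 1 0 := by
      intro X
      simp only [Matrix.mul_apply, Fin.sum_univ_two]
      simp only [Db, Db', Matrix.of_apply, Matrix.cons_val', Matrix.cons_val_zero,
        Matrix.cons_val_one, Matrix.cons_val_fin_one]
      ring
    rw [this, key]
    exact hβi'

end Exists

section Conj

variable {A : Type} [CommRing A]

/-- Conjugate of a matrix representation by an invertible matrix. -/
noncomputable def conjMat (r : Gal →* M2 A) (M N : M2 A) (hMN : M * N = 1) (hNM : N * M = 1) :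
    Gal →* M2 A where
  toFun σ := N * r σ * M
  map_one' := by rw [map_one, Matrix.mul_one, hNM]
  map_mul' σ τ := by
    rw [map_mul]
    calc N * (r σ * r τ) * M = N * r σ * 1 * r τ * M := by simp only [Matrix.mul_assoc, Matrix.one_mul]
      _ = N * r σ * (M * N) * r τ * M := by rw [hMN]
      _ = N * r σ * M * (N * r τ * M) := by simp only [Matrix.mul_assoc]

@[simp] lemma conjMat_apply (r : Gal →* M2 A) (M N : M2 A) (hMN : M * N = 1) (hNM : N * M = 1)
    (σ : Gal) : conjMat r M N hMN hNM σ = N * r σ * M := rfl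

lemma mul_conjMat (r : Gal →* M2 A) (M N : M2 A) (hMN : M * N = 1) (hNM : N * M = 1)
    (σ : Gal) : M * conjMat r M N hMN hNM σ = r σ * M := by
  rw [conjMat_apply, ← Matrix.mul_assoc, ← Matrix.mul_assoc, hMN, Matrix.one_mul]

variable [IsLocalRing A]

lemma matCont_conjMat {r : Gal →* M2 A} (hr : MatCont r) (M N : M2 A) (hMN : M * N = 1)
    (hNM : N * M = 1) : MatCont (conjMat r M N hMN hNM) := by
  intro n
  obtain ⟨L, hL, h⟩ := hr n
  refine ⟨L, hL, fun σ hσ => ?_⟩
  exact EntriesIn.conj_sub_one (I := maximalIdeal A ^ n) (h σ hσ) M N hNM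

lemma ofMat_conjMat_isEquiv {r : Gal →* M2 A} (hr : MatCont r) (M N : M2 A) (hMN : M * N = 1)
    (hNM : N * M = 1) :
    (ofMat (conjMat r M N hMN hNM) (matCont_conjMat hr M N hMN hNM)).IsEquiv (ofMat r hr) :=
  ofMat_isEquiv_of_conj _ _ M N hMN hNM (mul_conjMat r M N hMN hNM)

end Conj

section Henselian

/-- A local ring complete with respect to its maximal ideal is henselian. -/
lemma henselianLocalRing_of_isAdicComplete (A : Type) [CommRing A] [IsLocalRing A]
    [IsAdicComplete (maximalIdeal A) A] : HenselianLocalRing A where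
  is_henselian f hf a₀ h₁ h₂ :=
    HenselianRing.is_henselian (I := maximalIdeal A) f hf a₀ h₁ (h₂.map _)

end Henselian

section ExistsNormalized

variable {𝒪 : Type} [CommRing 𝒪] [IsLocalRing 𝒪]
variable {A : Type} [CommRing A] [IsLocalRing A] [Algebra 𝒪 A]

lemma lin_conjMat (x : Gal →₀ 𝒪) (r : Gal →* M2 A) (M N : M2 A) (hMN : M * N = 1)
    (hNM : N * M = 1) : lin x (conjMat r M N hMN hNM) = N * lin x r * M := by
  rw [mul_lin, lin_mul]
  rfl

/-- **Existence of normalized forms**: every lift of the residual matrices over a henselian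
local ring is conjugate, by a matrix congruent to `1`, to a normalized lift. -/
theorem exists_normalized [HenselianLocalRing A] (D : NormData 𝒪)
    (hloc : IsLocalHom (algebraMap 𝒪 A)) {r₀ : Gal →* M2 A} (h₀ : IsLiftOf D.c r₀) :
    ∃ (M N : M2 A) (hMN : M * N = 1) (hNM : N * M = 1),
      IsLiftOf D.c (conjMat r₀ M N hMN hNM) ∧ IsNormalized D (conjMat r₀ M N hMN hNM) := by
  obtain ⟨M, N, hMN, hNM, hM, hN, h01, h10, hb⟩ :=
    exists_normalizing_matrix (lin D.a r₀) (lin D.b r₀) (lin_a00_mem D hloc h₀)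
      (lin_a01_mem D hloc h₀) (lin_a10_mem D hloc h₀) (lin_a11_mem D hloc h₀)
      (lin_b10_mem D hloc h₀)
  refine ⟨M, N, hMN, hNM, ?_, ?_⟩
  · intro σ i j
    have h1 : N * r₀ σ * M - r₀ σ = (N - 1) * r₀ σ * M + r₀ σ * (M - 1) := by
      rw [Matrix.sub_mul, Matrix.sub_mul, Matrix.one_mul, Matrix.mul_sub, Matrix.mul_one]
      abel
    have h2 : EntriesIn (maximalIdeal A) (N * r₀ σ * M - r₀ σ) := by
      rw [h1]
      exact ((hN.mul_right _).mul_right _).add (hM.mul_left _)
    have h3 := h2 i j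
    rw [Matrix.sub_apply] at h3
    have := Ideal.add_mem _ h3 (h₀ σ i j)
    rw [conjMat_apply]
    convert this using 1
    ring
  · refine ⟨?_, ?_, ?_⟩
    · rw [lin_conjMat]; exact h01
    · rw [lin_conjMat]; exact h10
    · rw [lin_conjMat]; exact hb

end ExistsNormalized

end Normalized

end Fermat.Agent.S53
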