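import Fermat.Agent.S53.TestAlgebra

/-!
# S53: local subalgebras of a product of two test algebras
-/

set_option autoImplicit false
set_option linter.unusedSectionVars false
set_option linter.style.haveILetI false

namespace Fermat.Agent.S53.PairAlg

open IsLocalRing GaloisRep Fermat.Agent.S53.TestAlgebra

variable {𝒪 : Type} [CommRing 𝒪] [IsLocalRing 𝒪]
variable {A B : Type} [CommRing A] [IsLocalRing A] [Algebra 𝒪 A]
  [CommRing B] [IsLocalRing B] [Algebra 𝒪 B]

/-- The fibre condition: both coordinates are congruent to the same scalar. -/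
def Fib (𝒪 : Type) [CommRing 𝒪] {A B : Type} [CommRing A] [IsLocalRing A] [Algebra 𝒪 A]
    [CommRing B] [IsLocalRing B] [Algebra 𝒪 B] (q : A × B) : Prop :=
  ∃ c : 𝒪, q.1 - algebraMap 𝒪 A c ∈ maximalIdeal A ∧ q.2 - algebraMap 𝒪 B c ∈ maximalIdeal B

theorem fib_adjoin {X : Type*} (w : X → A × B)
    (hw : ∀ x, (w x).1 ∈ maximalIdeal A ∧ (w x).2 ∈ maximalIdeal B) (q : A × B)
    (hq : q ∈ Algebra.adjoin 𝒪 (Set.range w)) : Fib 𝒪 q := by
  induction hq using Algebra.adjoin_induction with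
  | mem q hq =>
    obtain ⟨x, rfl⟩ := hq
    exact ⟨0, by simpa using (hw x).1, by simpa using (hw x).2⟩
  | algebraMap c =>
    exact ⟨c, by simp, by simp⟩
  | add q q' _ _ h h' =>
    obtain ⟨c, h1, h2⟩ := h
    obtain ⟨c', h1', h2'⟩ := h'
    refine ⟨c + c', ?_, ?_⟩
    · have := Ideal.add_mem _ h1 h1'
      convert this using 1
      simp only [Prod.fst_add, map_add]; ring
    · have := Ideal.add_mem _ h2 h2'
      convert this using 1
      simp only [Prod.snd_add, map_add]; ring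
  | mul q q' _ _ h h' =>
    obtain ⟨c, h1, h2⟩ := h
    obtain ⟨c', h1', h2'⟩ := h'
    refine ⟨c * c', ?_, ?_⟩
    · have := Ideal.add_mem _ (Ideal.mul_mem_left _ q.1 h1')
        (Ideal.mul_mem_right (algebraMap 𝒪 A c') _ h1)
      convert this using 1
      simp only [Prod.fst_mul, map_mul]; ring
    · have := Ideal.add_mem _ (Ideal.mul_mem_left _ q.2 h2')
        (Ideal.mul_mem_right (algebraMap 𝒪 B c') _ h2)
      convert this using 1
      simp only [Prod.snd_mul, map_mul]; ring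

section Sub

variable (Q : Subalgebra 𝒪 (A × B))

/-- First projection. -/
noncomputable def pr₁ : Q →ₐ[𝒪] A := (AlgHom.fst 𝒪 A B).comp Q.val

/-- Second projection. -/
noncomputable def pr₂ : Q →ₐ[𝒪] B := (AlgHom.snd 𝒪 A B).comp Q.val

@[simp] theorem pr₁_apply (q : Q) : pr₁ Q q = (q : A × B).1 := rfl
@[simp] theorem pr₂_apply (q : Q) : pr₂ Q q = (q : A × B).2 := rfl

theorem pr_injective : Function.Injective (fun q : Q => (pr₁ Q q, pr₂ Q q)) := by
  intro q q' h
  apply Subtype.ext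
  simpa using h

variable {Q}

theorem isUnit_snd_of_fib (hA : IsLocalHom (algebraMap 𝒪 A)) {q : A × B} (hq : Fib 𝒪 q)
    (hu : IsUnit q.1) : IsUnit q.2 := by
  obtain ⟨c, h1, h2⟩ := hq
  have hc : IsUnit (algebraMap 𝒪 A c) := by
    by_contra hnu
    have h3 : algebraMap 𝒪 A c ∈ maximalIdeal A := (mem_maximalIdeal _).mpr hnu
    have h4 := Ideal.add_mem _ h1 h3
    rw [sub_add_cancel] at h4
    exact (mem_maximalIdeal _).mp h4 hu
  have hc' : IsUnit c := hA.map_nonunit c hc
  have hcB : IsUnit (algebraMap 𝒪 B c) := hc'.map _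
  by_contra hnu
  have h3 : q.2 ∈ maximalIdeal B := (mem_maximalIdeal _).mpr hnu
  have h4 := Ideal.sub_mem _ h3 h2
  rw [sub_sub_cancel] at h4
  exact (mem_maximalIdeal _).mp h4 hcB

theorem isUnit_fst_of_fib (hB : IsLocalHom (algebraMap 𝒪 B)) {q : A × B} (hq : Fib 𝒪 q)
    (hu : IsUnit q.2) : IsUnit q.1 := by
  obtain ⟨c, h1, h2⟩ := hq
  have hc : IsUnit (algebraMap 𝒪 B c) := by
    by_contra hnu
    have h3 : algebraMap 𝒪 B c ∈ maximalIdeal B := (mem_maximalIdeal _).mpr hnu
    have h4 := Ideal.add_mem _ h2 h3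
    rw [sub_add_cancel] at h4
    exact (mem_maximalIdeal _).mp h4 hu
  have hc' : IsUnit c := hB.map_nonunit c hc
  have hcA : IsUnit (algebraMap 𝒪 A c) := hc'.map _
  by_contra hnu
  have h3 : q.1 ∈ maximalIdeal A := (mem_maximalIdeal _).mpr hnu
  have h4 := Ideal.sub_mem _ h3 h1
  rw [sub_sub_cancel] at h4
  exact (mem_maximalIdeal _).mp h4 hcA

/-- In a finite ring, an element of a subalgebra which is a unit in the ambient ring is a unit
of the subalgebra. -/
theorem isUnit_of_isUnit_val [Finite A] [Finite B] {q : Q} (hq : IsUnit (q : A × B)) :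
    IsUnit q := by
  have : Finite Q := Finite.of_injective (fun x : Q => (x : A × B)) Subtype.val_injective
  apply IsArtinianRing.isUnit_of_mem_nonZeroDivisors
  rw [mem_nonZeroDivisors_iff]
  constructor
  · intro x hx
    apply Subtype.ext
    have h := congrArg (fun y : Q => (y : A × B)) hx
    simp only [MulMemClass.coe_mul, ZeroMemClass.coe_zero] at h
    exact (hq.mul_right_eq_zero).mp h
  · intro x hx
    apply Subtype.ext
    have h := congrArg (fun y : Q => (y : A × B)) hx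
    simp only [MulMemClass.coe_mul, ZeroMemClass.coe_zero] at h
    exact (hq.mul_left_eq_zero).mp h

theorem isLocalHom_pr₁ [Finite A] [Finite B] (hA : IsLocalHom (algebraMap 𝒪 A))
    (hQ : ∀ q ∈ Q, Fib 𝒪 q) : IsLocalHom (pr₁ Q : Q →+* A) := by
  constructor
  intro q hq
  have h1 : IsUnit (q : A × B).1 := hq
  have h2 : IsUnit (q : A × B).2 := isUnit_snd_of_fib hA (hQ _ q.2) h1
  exact isUnit_of_isUnit_val (Prod.isUnit_iff.mpr ⟨h1, h2⟩)

theorem isLocalHom_pr₂ [Finite A] [Finite B] (hB : IsLocalHom (algebraMap 𝒪 B))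
    (hQ : ∀ q ∈ Q, Fib 𝒪 q) : IsLocalHom (pr₂ Q : Q →+* B) := by
  constructor
  intro q hq
  have h2 : IsUnit (q : A × B).2 := hq
  have h1 : IsUnit (q : A × B).1 := isUnit_fst_of_fib hB (hQ _ q.2) h2
  exact isUnit_of_isUnit_val (Prod.isUnit_iff.mpr ⟨h1, h2⟩)

theorem isLocalRing [Finite A] [Finite B] (hA : IsLocalHom (algebraMap 𝒪 A))
    (hQ : ∀ q ∈ Q, Fib 𝒪 q) : IsLocalRing Q :=
  haveI := isLocalHom_pr₁ hA hQ
  RingHom.domain_isLocalRing (pr₁ Q : Q →+* A)

theorem isArtinianTestAlgebra [Finite (ResidueField 𝒪)] (hA : IsArtinianTestAlgebra 𝒪 A)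
    (hB : IsArtinianTestAlgebra 𝒪 B) (hQ : ∀ q ∈ Q, Fib 𝒪 q) [IsLocalRing Q] :
    IsArtinianTestAlgebra 𝒪 Q := by
  have hfA : Finite A := finite_of_isArtinianTestAlgebra hA
  have hfB : Finite B := finite_of_isArtinianTestAlgebra hB
  have : Finite Q := Finite.of_injective (fun x : Q => (x : A × B)) Subtype.val_injective
  have hl := isLocalHom_pr₁ hA.isLocalHom hQ
  refine ⟨⟨fun x hx => ?_⟩, ?_, inferInstance⟩
  · have h1 : IsUnit ((pr₁ Q : Q →+* A) (algebraMap 𝒪 Q x)) := hx.map _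
    exact hA.isLocalHom.map_nonunit x h1
  · intro y
    obtain ⟨q, rfl⟩ := IsLocalRing.residue_surjective (R := Q) y
    obtain ⟨c, h1, -⟩ := hQ _ q.2
    refine ⟨c, ?_⟩
    simp only [Function.comp_apply]
    rw [← sub_eq_zero, ← map_sub, IsLocalRing.residue_eq_zero_iff]
    rw [IsLocalRing.mem_maximalIdeal, mem_nonunits_iff]
    intro hu
    have h2 := hu.map (pr₁ Q : Q →+* A)
    have h3 : (pr₁ Q : Q →+* A) (algebraMap 𝒪 Q c - q) = -((q : A × B).1 - algebraMap 𝒪 A c) := by
      simp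
    rw [h3, IsUnit.neg_iff] at h2
    exact (mem_maximalIdeal _).mp h1 h2

end Sub

end Fermat.Agent.S53.PairAlg
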