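import Mathlib
import Fermat.Prelude.Def_GaloisRep_DeformationCondition
import Fermat.Agent.S53.ProRepDefs
import Fermat.Agent.S53.PowerSeries
import Fermat.Agent.S53.Complete
import Fermat.Agent.S53.TestAlgebra
import Fermat.Agent.S53.TangentGen
import Fermat.Agent.S53.TangentKL
import Fermat.Agent.S53.Topology
import Fermat.Agent.S53.PairAlg

set_option autoImplicit false
set_option linter.unusedSectionVars false
set_option linter.style.haveILetI false

/-!
# Abstract pro-representability (Schlessinger/Grothendieck style, for subfunctors of `X → 𝔪_A`)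
-/

namespace Fermat.Agent.S53.ProRep

open IsLocalRing GaloisRep

section Ev

variable {𝒪 : Type} [CommRing 𝒪] [IsLocalRing 𝒪]
variable {σ : Type} [Finite σ]
variable {A : Type} [CommRing A] [IsLocalRing A] [Algebra 𝒪 A]
variable {B : Type} [CommRing B] [IsLocalRing B] [Algebra 𝒪 B]

theorem isAdicComplete_of_test (hA : IsArtinianTestAlgebra 𝒪 A) :
    IsAdicComplete (maximalIdeal A) A :=
  Cpl.isAdicComplete_of_pow_eq_bot _ (TestAlgebra.exists_maximalIdeal_pow_eq_bot hA)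

/-- Evaluation of power series at a family of elements of the maximal ideal of a test
algebra. -/
noncomputable def evT (hA : IsArtinianTestAlgebra 𝒪 A) (y : σ → A)
    (hy : ∀ s, y s ∈ maximalIdeal A) : MvPowerSeries σ 𝒪 →ₐ[𝒪] A :=
  haveI := isAdicComplete_of_test hA
  PS.evalHom y hy

theorem evT_X (hA : IsArtinianTestAlgebra 𝒪 A) (y : σ → A)
    (hy : ∀ s, y s ∈ maximalIdeal A) (s : σ) :
    evT hA y hy (MvPowerSeries.X s) = y s := by
  haveI := isAdicComplete_of_test hA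
  exact PS.evalHom_X y hy s

theorem eq_evT (hA : IsArtinianTestAlgebra 𝒪 A) (φ : MvPowerSeries σ 𝒪 →ₐ[𝒪] A) (y : σ → A)
    (hy : ∀ s, y s ∈ maximalIdeal A) (hφ : ∀ s, φ (MvPowerSeries.X s) = y s) :
    φ = evT hA y hy := by
  haveI := isAdicComplete_of_test hA
  exact PS.algHom_ext_of_X φ _ (fun s => by rw [hφ]; exact hy s)
    (fun s => by rw [hφ, evT_X])

theorem exists_pow_le_ker_of_test (hB : IsArtinianTestAlgebra 𝒪 B)
    (φ : MvPowerSeries σ 𝒪 →ₐ[𝒪] B) :
    ∃ n, maximalIdeal (MvPowerSeries σ 𝒪) ^ n ≤ RingHom.ker (φ : MvPowerSeries σ 𝒪 →+* B) := by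
  obtain ⟨n, hn⟩ := TestAlgebra.exists_maximalIdeal_pow_eq_bot hB
  refine ⟨n, fun p hp => ?_⟩
  haveI := hB.isLocalHom
  have := PS.algHom_map_maximalIdeal_pow_le hB.residue_surjective φ n hp
  rw [hn] at this
  exact this

end Ev

section FibreProduct

variable {𝒪 : Type} [CommRing 𝒪] [IsLocalRing 𝒪]
variable {A : Type} [CommRing A] [IsLocalRing A] [Algebra 𝒪 A]
variable {B : Type} [CommRing B] [IsLocalRing B] [Algebra 𝒪 B]

/-- The residue map of a test algebra, as an algebra map to the residue field of `𝒪`. -/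
noncomputable def resAlg (hA : IsArtinianTestAlgebra 𝒪 A) : A →ₐ[𝒪] ResidueField 𝒪 :=
  { TangentGen.resTo hA.isLocalHom hA.residue_surjective with
    commutes' := fun c => TangentGen.resTo_algebraMap hA.isLocalHom hA.residue_surjective c }

theorem resAlg_eq_zero_iff (hA : IsArtinianTestAlgebra 𝒪 A) (a : A) :
    resAlg hA a = 0 ↔ a ∈ maximalIdeal A :=
  TangentGen.resTo_eq_zero_iff hA.isLocalHom hA.residue_surjective a

/-- The fibre product of two test algebras over the residue field. -/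
noncomputable def fibProd (hA : IsArtinianTestAlgebra 𝒪 A) (hB : IsArtinianTestAlgebra 𝒪 B) :
    Subalgebra 𝒪 (A × B) :=
  AlgHom.equalizer ((resAlg hA).comp (AlgHom.fst 𝒪 A B)) ((resAlg hB).comp (AlgHom.snd 𝒪 A B))

theorem mem_fibProd (hA : IsArtinianTestAlgebra 𝒪 A) (hB : IsArtinianTestAlgebra 𝒪 B)
    {q : A × B} : q ∈ fibProd hA hB ↔ resAlg hA q.1 = resAlg hB q.2 :=
  Iff.rfl

theorem fib_of_mem_fibProd (hA : IsArtinianTestAlgebra 𝒪 A) (hB : IsArtinianTestAlgebra 𝒪 B)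
    (q : A × B) (hq : q ∈ fibProd hA hB) : PairAlg.Fib 𝒪 q := by
  obtain ⟨c, hc⟩ := TangentGen.exists_sub_mem_maximalIdeal hA.residue_surjective q.1
  refine ⟨c, hc, ?_⟩
  rw [← resAlg_eq_zero_iff hB, map_sub, ← (mem_fibProd hA hB).mp hq, AlgHom.commutes,
    ← AlgHom.commutes (resAlg hA), ← map_sub, resAlg_eq_zero_iff]
  exact hc

end FibreProduct

section Points

variable {𝒪 : Type} [CommRing 𝒪] [IsLocalRing 𝒪]

/-- A point of the functor `F` over some test algebra. -/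
structure Pt (𝒪 : Type) [CommRing 𝒪] [IsLocalRing 𝒪] (X : Type)
    (F : ∀ (A : Type) [CommRing A] [IsLocalRing A] [Algebra 𝒪 A], (X → A) → Prop) : Type 1 where
  A : Type
  [instCommRing : CommRing A]
  [instIsLocalRing : IsLocalRing A]
  [instAlgebra : Algebra 𝒪 A]
  test : IsArtinianTestAlgebra 𝒪 A
  y : X → A
  y_mem : ∀ x, y x ∈ maximalIdeal A
  mem : F A y

attribute [instance] Pt.instCommRing Pt.instIsLocalRing Pt.instAlgebra

variable {X : Type}
  {F : ∀ (A : Type) [CommRing A] [IsLocalRing A] [Algebra 𝒪 A], (X → A) → Prop}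

/-- The evaluation map attached to a point. -/
noncomputable def Pt.ev (S : Finset X) (α : Pt 𝒪 X F) : MvPowerSeries S 𝒪 →ₐ[𝒪] α.A :=
  evT α.test (fun s : S => α.y s) (fun s => α.y_mem s)

theorem Pt.ev_X (S : Finset X) (α : Pt 𝒪 X F) (s : S) :
    α.ev S (MvPowerSeries.X s) = α.y s :=
  evT_X _ _ _ s

theorem Pt.eq_ev (S : Finset X) (α : Pt 𝒪 X F) (φ : MvPowerSeries S 𝒪 →ₐ[𝒪] α.A)
    (hφ : ∀ s : S, φ (MvPowerSeries.X s) = α.y s) : φ = α.ev S :=
  eq_evT _ _ _ _ hφ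

theorem Pt.map_ev (S : Finset X) (α β : Pt 𝒪 X F) (ψ : α.A →ₐ[𝒪] β.A)
    (hψ : ∀ x, ψ (α.y x) = β.y x) (p : MvPowerSeries S 𝒪) :
    ψ (α.ev S p) = β.ev S p := by
  have h := β.eq_ev S (ψ.comp (α.ev S)) (fun s => by
    rw [AlgHom.comp_apply, Pt.ev_X, hψ])
  rw [← h]
  rfl

theorem Pt.exists_pow_le_ker (S : Finset X) (α : Pt 𝒪 X F) :
    ∃ n, maximalIdeal (MvPowerSeries S 𝒪) ^ n ≤
      RingHom.ker (α.ev S : MvPowerSeries S 𝒪 →+* α.A) :=
  exists_pow_le_ker_of_test α.test _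

/-- Two points are dominated by a third one (their fibre product over the residue field). -/
theorem Pt.exists_pair [Finite (ResidueField 𝒪)] (h : IsClosedFunctor 𝒪 X F)
    (α β : Pt 𝒪 X F) :
    ∃ (γ : Pt 𝒪 X F) (pA : γ.A →ₐ[𝒪] α.A) (pB : γ.A →ₐ[𝒪] β.A),
      (∀ x, pA (γ.y x) = α.y x) ∧ (∀ x, pB (γ.y x) = β.y x) := by
  have hfA : Finite α.A := TestAlgebra.finite_of_isArtinianTestAlgebra α.test
  have hfB : Finite β.A := TestAlgebra.finite_of_isArtinianTestAlgebra β.test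
  let Q : Subalgebra 𝒪 (α.A × β.A) := fibProd α.test β.test
  have hQ : ∀ q ∈ Q, PairAlg.Fib 𝒪 q := fib_of_mem_fibProd α.test β.test
  letI : IsLocalRing Q := PairAlg.isLocalRing α.test.isLocalHom hQ
  have hQt : IsArtinianTestAlgebra 𝒪 Q := PairAlg.isArtinianTestAlgebra α.test β.test hQ
  have hk : IsArtinianTestAlgebra 𝒪 (ResidueField 𝒪) := by
    refine ⟨?_, ?_, inferInstance⟩
    · rw [ResidueField.algebraMap_eq]
      infer_instance
    · intro y
      obtain ⟨x, rfl⟩ := IsLocalRing.residue_surjective y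
      obtain ⟨c, rfl⟩ := IsLocalRing.residue_surjective x
      exact ⟨c, rfl⟩
  have hw : ∀ x, (α.y x, β.y x) ∈ Q := by
    intro x
    rw [mem_fibProd]
    rw [(resAlg_eq_zero_iff α.test _).mpr (α.y_mem x),
      (resAlg_eq_zero_iff β.test _).mpr (β.y_mem x)]
  let w : X → Q := fun x => ⟨(α.y x, β.y x), hw x⟩
  have hlA : IsLocalHom (PairAlg.pr₁ Q : Q →+* α.A) := PairAlg.isLocalHom_pr₁ α.test.isLocalHom hQ
  have hlB : IsLocalHom (PairAlg.pr₂ Q : Q →+* β.A) := PairAlg.isLocalHom_pr₂ β.test.isLocalHom hQ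
  have hFw : F Q w := by
    refine h.of_fibreProduct α.test β.test hk hQt (resAlg α.test) (resAlg β.test)
      (PairAlg.pr₁ Q) (PairAlg.pr₂ Q) hlA hlB ?_ (PairAlg.pr_injective Q) ?_ ?_ ?_
    · ext q
      exact q.2
    · intro a b hab
      exact ⟨⟨(a, b), hab⟩, rfl, rfl⟩
    · exact α.mem
    · exact β.mem
  have hwm : ∀ x, w x ∈ maximalIdeal Q := by
    intro x
    rw [mem_maximalIdeal, mem_nonunits_iff]
    intro hu
    have := hu.map (PairAlg.pr₁ Q : Q →+* α.A)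
    exact (mem_maximalIdeal _).mp (α.y_mem x) this
  exact ⟨⟨Q, hQt, w, hwm, hFw⟩, PairAlg.pr₁ Q, PairAlg.pr₂ Q, fun _ => rfl, fun _ => rfl⟩

end Points

section Generation

variable {𝒪 : Type} [CommRing 𝒪] [IsLocalRing 𝒪] [Finite (ResidueField 𝒪)]
variable {X : Type}
  {F : ∀ (A : Type) [CommRing A] [IsLocalRing A] [Algebra 𝒪 A], (X → A) → Prop}

/-- **Claim 1**: the values of a point are attained by its evaluation map, if `S` separates the
tangent points. -/
theorem Pt.exists_ev_eq (h : IsClosedFunctor 𝒪 X F) (S : Finset X)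
    (hS : letI := TangentGen.dualNumberAlgebra 𝒪
      ∀ y y' : X → DualNumber (ResidueField 𝒪),
        F (DualNumber (ResidueField 𝒪)) y → F (DualNumber (ResidueField 𝒪)) y' →
        (∀ x ∈ (S : Set X), y x = y' x) → y = y')
    (α : Pt 𝒪 X F) (x : X) : ∃ p : MvPowerSeries S 𝒪, α.ev S p = α.y x := by
  have hfA : Finite α.A := TestAlgebra.finite_of_isArtinianTestAlgebra α.test
  let A' : Subalgebra 𝒪 α.A := Algebra.adjoin 𝒪 (Set.range α.y)
  letI : IsLocalRing A' := TestAlgebra.isLocalRing_subalgebra_of_finite A'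
  have hA' : IsArtinianTestAlgebra 𝒪 A' := TestAlgebra.subalgebra α.test A'
  let y' : X → A' := fun x => ⟨α.y x, Algebra.subset_adjoin ⟨x, rfl⟩⟩
  have hloc : IsLocalHom (A'.val : A' →+* α.A) := TestAlgebra.isLocalHom_val_of_finite A'
  have hF' : F A' y' :=
    h.of_map_injective hA' α.test A'.val hloc Subtype.val_injective α.mem
  have hy'm : ∀ x, y' x ∈ maximalIdeal A' := h.mem_maximalIdeal hA' hF'
  have hgen : Algebra.adjoin 𝒪 (Set.range y') = ⊤ := by
    have := Algebra.adjoin_adjoin_coe_preimage (R := 𝒪) (s := Set.range α.y)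
    convert this using 2
    ext z
    constructor
    · rintro ⟨x, rfl⟩; exact ⟨x, rfl⟩
    · rintro ⟨x, hx⟩; exact ⟨x, Subtype.ext hx⟩
  have hKL := TangentGen.adjoin_image_eq_top_of_separated F
    (fun A B _ _ _ _ _ _ hA hB φ hφ y hy => h.map hA hB φ hφ hy) (S : Set X) hS hA' y' hF' hgen
  -- the point over `A'`
  let α' : Pt 𝒪 X F := ⟨A', hA', y', hy'm, hF'⟩
  have hsurj : (α'.ev S).range = ⊤ := by
    rw [eq_top_iff, ← hKL, Algebra.adjoin_le_iff]
    rintro _ ⟨x, hx, rfl⟩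
    exact ⟨MvPowerSeries.X ⟨x, hx⟩, α'.ev_X S ⟨x, hx⟩⟩
  have hmem : y' x ∈ (α'.ev S).range := by rw [hsurj]; exact Algebra.mem_top
  obtain ⟨p, hp⟩ := hmem
  refine ⟨p, ?_⟩
  have h1 := Pt.map_ev S α' α A'.val (fun _ => rfl) p
  have h2 : α'.ev S p = y' x := hp
  rw [← h1, h2]
  rfl

end Generation

section Main

variable {𝒪 : Type} [CommRing 𝒪] [IsLocalRing 𝒪] [IsNoetherianRing 𝒪]
  [IsAdicComplete (maximalIdeal 𝒪) 𝒪] [Finite (ResidueField 𝒪)]
variable {X : Type}
  {F : ∀ (A : Type) [CommRing A] [IsLocalRing A] [Algebra 𝒪 A], (X → A) → Prop}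

theorem eq_zero_of_forall_mem_pow_succ {A : Type} [CommRing A] (I : Ideal A) [IsHausdorff I A]
    (x : A) (h : ∀ n : ℕ, x ∈ I ^ (n + 1)) : x = 0 := by
  apply IsHausdorff.haus ‹_› x
  intro n
  rw [SModEq.zero, smul_eq_mul, Ideal.mul_top]
  exact Ideal.pow_le_pow_right (Nat.le_succ n) (h n)

/-- Binary directedness of the kernels of the evaluation maps. -/
theorem Pt.exists_ker_le (h : IsClosedFunctor 𝒪 X F) (S : Finset X) (α β : Pt 𝒪 X F) :
    ∃ γ : Pt 𝒪 X F,
      RingHom.ker (γ.ev S : MvPowerSeries S 𝒪 →+* γ.A) ≤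
        RingHom.ker (α.ev S : MvPowerSeries S 𝒪 →+* α.A) ⊓
          RingHom.ker (β.ev S : MvPowerSeries S 𝒪 →+* β.A) ∧
      (∀ x, ∃ pA : γ.A →ₐ[𝒪] α.A, ∀ p, pA (γ.ev S p) = α.ev S p ∧ pA (γ.y x) = α.y x) ∧
      (∀ x, ∃ pB : γ.A →ₐ[𝒪] β.A, ∀ p, pB (γ.ev S p) = β.ev S p ∧ pB (γ.y x) = β.y x) := by
  obtain ⟨γ, pA, pB, hA, hB⟩ := Pt.exists_pair h α β
  refine ⟨γ, ?_, fun x => ⟨pA, fun p => ⟨Pt.map_ev S γ α pA hA p, hA x⟩⟩,
    fun x => ⟨pB, fun p => ⟨Pt.map_ev S γ β pB hB p, hB x⟩⟩⟩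
  intro p hp
  rw [RingHom.mem_ker] at hp
  refine ⟨?_, ?_⟩
  · rw [SetLike.mem_coe, RingHom.mem_ker]
    have := Pt.map_ev S γ α pA hA p
    change pA (γ.ev S p) = α.ev S p at this
    change α.ev S p = 0
    rw [← this]
    change pA ((γ.ev S : MvPowerSeries S 𝒪 →+* γ.A) p) = 0
    rw [hp, map_zero]
  · rw [SetLike.mem_coe, RingHom.mem_ker]
    have := Pt.map_ev S γ β pB hB p
    change pB (γ.ev S p) = β.ev S p at this
    change β.ev S p = 0
    rw [← this]
    change pB ((γ.ev S : MvPowerSeries S 𝒪 →+* γ.A) p) = 0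
    rw [hp, map_zero]

/-- **Compactness step**: a single power series computes the `x`-coordinate of all points. -/
theorem exists_forall_ev_eq (h : IsClosedFunctor 𝒪 X F) (S : Finset X)
    (hS : letI := TangentGen.dualNumberAlgebra 𝒪
      ∀ y y' : X → DualNumber (ResidueField 𝒪),
        F (DualNumber (ResidueField 𝒪)) y → F (DualNumber (ResidueField 𝒪)) y' →
        (∀ x ∈ (S : Set X), y x = y' x) → y = y')
    (x : X) : ∃ p : MvPowerSeries S 𝒪, ∀ α : Pt 𝒪 X F, α.ev S p = α.y x := by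
  haveI := PS.isAdicComplete_mvPowerSeries (𝒪 := 𝒪) (σ := S)
  choose f hf using fun α : Pt 𝒪 X F => α.exists_ev_eq h S hS x
  obtain ⟨p, hp⟩ := exists_forall_sub_mem (𝔪 := maximalIdeal (MvPowerSeries S 𝒪))
    (fun n => PS.finite_quotient_mvPowerSeries n)
    (fun α : Pt 𝒪 X F => RingHom.ker (α.ev S : MvPowerSeries S 𝒪 →+* α.A)) f
    (fun α => α.exists_pow_le_ker S) (by
      intro α β
      obtain ⟨γ, hle, hA, hB⟩ := Pt.exists_ker_le h S α β
      refine ⟨γ, hle, ?_, ?_⟩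
      · obtain ⟨pA, hpA⟩ := hA x
        rw [RingHom.mem_ker, map_sub, sub_eq_zero]
        change α.ev S (f γ) = α.ev S (f α)
        rw [hf α, ← (hpA (f γ)).1, hf γ, (hpA (f γ)).2]
      · obtain ⟨pB, hpB⟩ := hB x
        rw [RingHom.mem_ker, map_sub, sub_eq_zero]
        change β.ev S (f γ) = β.ev S (f β)
        rw [hf β, ← (hpB (f γ)).1, hf γ, (hpB (f γ)).2])
  refine ⟨p, fun α => ?_⟩
  have := hp α
  rw [RingHom.mem_ker, map_sub, sub_eq_zero] at this
  rw [← hf α]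
  exact this

/-- Compatibility of a power series map into a complete local algebra with a level. -/
theorem level_eq (S : Finset X) {A : Type} [CommRing A] [IsLocalRing A] [Algebra 𝒪 A]
    (y : X → A) (φ : MvPowerSeries S 𝒪 →ₐ[𝒪] A) (hφ : ∀ s : S, φ (MvPowerSeries.X s) = y s)
    (α : Pt 𝒪 X F) (q : A →ₐ[𝒪] α.A) (hq : ∀ x, q (y x) = α.y x) (p : MvPowerSeries S 𝒪) :
    q (φ p) = α.ev S p := by
  have h := α.eq_ev S (q.comp φ) (fun s => by rw [AlgHom.comp_apply, hφ, hq])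
  rw [← h]
  rfl

/-- **Abstract pro-representability.** -/
theorem exists_proRepData (h : IsClosedFunctor 𝒪 X F) : Nonempty (ProRepData 𝒪 X F) := by
  classical
  obtain ⟨S, hS'⟩ := TangentGen.exists_finset_separating _ h.tangent_finite
  have hS : letI := TangentGen.dualNumberAlgebra 𝒪
      ∀ y y' : X → DualNumber (ResidueField 𝒪),
        F (DualNumber (ResidueField 𝒪)) y → F (DualNumber (ResidueField 𝒪)) y' →
        (∀ x ∈ (S : Set X), y x = y' x) → y = y' := by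
    intro y y' hy hy' hyy'
    exact hS' y hy y' hy' hyy'
  haveI hPc := PS.isAdicComplete_mvPowerSeries (𝒪 := 𝒪) (σ := S)
  have hPfin : ∀ n, Finite (MvPowerSeries S 𝒪 ⧸ maximalIdeal (MvPowerSeries S 𝒪) ^ n) :=
    fun n => PS.finite_quotient_mvPowerSeries n
  -- a base point
  obtain ⟨A₀, i1, i2, i3, hA₀, y₀, hy₀⟩ := h.nonempty
  let α₀ : Pt 𝒪 X F := ⟨A₀, hA₀, y₀, h.mem_maximalIdeal hA₀ hy₀, hy₀⟩
  haveI : Nonempty (Pt 𝒪 X F) := ⟨α₀⟩
  -- the kernels
  let I : Pt 𝒪 X F → Ideal (MvPowerSeries S 𝒪) :=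
    fun α => RingHom.ker (α.ev S : MvPowerSeries S 𝒪 →+* α.A)
  have hImem : ∀ α a, a ∈ I α ↔ α.ev S a = 0 := fun α a => Iff.rfl
  have hIne : ∀ α, I α ≠ ⊤ := by
    intro α htop
    have h1 : (1 : MvPowerSeries S 𝒪) ∈ I α := by rw [htop]; exact Submodule.mem_top
    rw [hImem, map_one] at h1
    exact one_ne_zero h1
  have hIopen : ∀ α, ∃ n, maximalIdeal (MvPowerSeries S 𝒪) ^ n ≤ I α :=
    fun α => α.exists_pow_le_ker S
  have hIdir : ∀ α β, ∃ γ, I γ ≤ I α ⊓ I β := by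
    intro α β
    obtain ⟨γ, hle, -, -⟩ := Pt.exists_ker_le h S α β
    exact ⟨γ, hle⟩
  let J : Ideal (MvPowerSeries S 𝒪) := ⨅ α, I α
  have hJle : ∀ α, J ≤ I α := fun α => iInf_le I α
  have hJmem : ∀ a, a ∈ J ↔ ∀ α : Pt 𝒪 X F, α.ev S a = 0 := by
    intro a
    simp only [J, Ideal.mem_iInf, hImem]
  have hJ : J ≠ ⊤ := by
    intro htop
    exact hIne α₀ (top_le_iff.mp (htop ▸ hJle α₀))
  -- the universal family
  choose p hp using fun x => exists_forall_ev_eq h S hS x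
  letI hRloc : IsLocalRing (MvPowerSeries S 𝒪 ⧸ J) := PS.quotient_isLocalRing J hJ
  haveI hRlh : IsLocalHom (algebraMap 𝒪 (MvPowerSeries S 𝒪 ⧸ J)) :=
    PS.quotient_isLocalHom_algebraMap J hJ
  haveI hRc : IsAdicComplete (maximalIdeal (MvPowerSeries S 𝒪 ⧸ J)) (MvPowerSeries S 𝒪 ⧸ J) :=
    PS.quotient_isAdicComplete J hJ
  have hres : Function.Surjective (IsLocalRing.residue (MvPowerSeries S 𝒪 ⧸ J) ∘
      algebraMap 𝒪 (MvPowerSeries S 𝒪 ⧸ J)) := PS.quotient_residue_surjective J hJ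
  have hmkloc : IsLocalHom (Ideal.Quotient.mk J) := PS.quotient_isLocalHom_mk J hJ
  have hXu : ∀ s : S, Ideal.Quotient.mk J (MvPowerSeries.X s) = Ideal.Quotient.mk J (p s) := by
    intro s
    rw [Ideal.Quotient.eq, hJmem]
    intro α
    rw [map_sub, sub_eq_zero, hp, Pt.ev_X]
  refine ⟨{ R := MvPowerSeries S 𝒪 ⧸ J
            residue_surjective := hres
            finite_quotient := ?_
            u := fun x => Ideal.Quotient.mk J (p x)
            u_mem := ?_
            map_mem := ?_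
            lift := ?_ }⟩
  · -- finite quotients
    intro n
    haveI : Finite (ResidueField (MvPowerSeries S 𝒪 ⧸ J)) := TestAlgebra.finite_residueField hres
    exact PS.finite_quotient_maximalIdeal_pow _ n
  · -- `u` has values in the maximal ideal
    intro x
    rw [mem_maximalIdeal, mem_nonunits_iff]
    intro hu
    have h1 : IsUnit (p x) := hmkloc.map_nonunit _ hu
    have h2 := h1.map (α₀.ev S)
    rw [hp x α₀] at h2
    exact (mem_maximalIdeal _).mp (α₀.y_mem x) h2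
  · -- (U2)
    intro B _ _ _ hB q hq
    let π : MvPowerSeries S 𝒪 →ₐ[𝒪] B := q.comp (Ideal.Quotient.mkₐ 𝒪 J)
    obtain ⟨n, hn⟩ := exists_pow_le_ker_of_test hB π
    have hJπ : J ≤ RingHom.ker (π : MvPowerSeries S 𝒪 →+* B) := by
      intro a ha
      rw [RingHom.mem_ker]
      change q (Ideal.Quotient.mk J a) = 0
      rw [Ideal.Quotient.eq_zero_iff_mem.mpr ha, map_zero]
    obtain ⟨α, hα⟩ := exists_le_iInf_sup_pow (𝔪 := maximalIdeal (MvPowerSeries S 𝒪)) hPfin I
      hIopen hIdir n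
    have hIπ : I α ≤ RingHom.ker (π : MvPowerSeries S 𝒪 →+* B) := hα.trans (sup_le hJπ hn)
    -- the point over `P ⧸ I α`
    letI : IsLocalRing (MvPowerSeries S 𝒪 ⧸ I α) := PS.quotient_isLocalRing (I α) (hIne α)
    obtain ⟨m, hm⟩ := hIopen α
    haveI := hPfin m
    have hfin : Finite (MvPowerSeries S 𝒪 ⧸ I α) :=
      Finite.of_surjective (Ideal.Quotient.factor hm) (Ideal.Quotient.factor_surjective hm)
    have hQt : IsArtinianTestAlgebra 𝒪 (MvPowerSeries S 𝒪 ⧸ I α) :=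
      TestAlgebra.of_finite (PS.quotient_isLocalHom_algebraMap _ (hIne α))
        (PS.quotient_residue_surjective _ (hIne α))
    let ι : (MvPowerSeries S 𝒪 ⧸ I α) →ₐ[𝒪] α.A :=
      Ideal.Quotient.liftₐ (I α) (α.ev S) (fun a ha => ha)
    have hιmk : ∀ a, ι (Ideal.Quotient.mk (I α) a) = α.ev S a := fun a => rfl
    have hιinj : Function.Injective ι := by
      rw [injective_iff_map_eq_zero]
      intro z hz
      obtain ⟨a, rfl⟩ := Ideal.Quotient.mk_surjective z
      rw [hιmk] at hz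
      exact Ideal.Quotient.eq_zero_iff_mem.mpr hz
    have hιloc : IsLocalHom (ι : (MvPowerSeries S 𝒪 ⧸ I α) →+* α.A) :=
      TangentGen.isLocalHom_of_residue_surjective α.test.residue_surjective ι
    let yQ : X → MvPowerSeries S 𝒪 ⧸ I α := fun x => Ideal.Quotient.mk (I α) (p x)
    have hFQ : F (MvPowerSeries S 𝒪 ⧸ I α) yQ := by
      refine h.of_map_injective hQt α.test ι hιloc hιinj ?_
      have : (ι ∘ yQ) = α.y := funext fun x => hp x α
      rw [this]
      exact α.mem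
    let ψ : (MvPowerSeries S 𝒪 ⧸ I α) →ₐ[𝒪] B :=
      Ideal.Quotient.liftₐ (I α) π (fun a ha => hIπ ha)
    have hψloc : IsLocalHom (ψ : (MvPowerSeries S 𝒪 ⧸ I α) →+* B) :=
      TangentGen.isLocalHom_of_residue_surjective hB.residue_surjective ψ
    have hfinal := h.map hQt hB ψ hψloc hFQ
    exact hfinal
  · -- (U1')
    intro A _ _ _ _ _ _ hresA y hy
    have hAloc : IsLocalHom (algebraMap 𝒪 A) := inferInstance
    -- the levels of `A`
    have hlev : ∀ n : ℕ, ∃ α : Pt 𝒪 X F, ∃ q : A →ₐ[𝒪] α.A,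
        (∀ x, q (y x) = α.y x) ∧ (∀ a, q a = 0 → a ∈ maximalIdeal A ^ (n + 1)) := by
      intro n
      letI : IsLocalRing (A ⧸ maximalIdeal A ^ (n + 1)) :=
        TestAlgebra.isLocalRing_quotient_maximalIdeal_pow_succ n
      have hAn : IsArtinianTestAlgebra 𝒪 (A ⧸ maximalIdeal A ^ (n + 1)) :=
        TestAlgebra.quotient_maximalIdeal_pow hAloc hresA (n + 1)
      let q : A →ₐ[𝒪] A ⧸ maximalIdeal A ^ (n + 1) :=
        Ideal.Quotient.mkₐ 𝒪 (maximalIdeal A ^ (n + 1))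
      have hqs : Function.Surjective q := Ideal.Quotient.mkₐ_surjective 𝒪 _
      have hql : IsLocalHom (q : A →+* A ⧸ maximalIdeal A ^ (n + 1)) :=
        IsLocalHom.of_surjective _ hqs
      have hFq := hy (A ⧸ maximalIdeal A ^ (n + 1)) hAn q hql hqs
      refine ⟨⟨A ⧸ maximalIdeal A ^ (n + 1), hAn, q ∘ y, h.mem_maximalIdeal hAn hFq, hFq⟩, q,
        fun x => rfl, fun a ha => ?_⟩
      exact Ideal.Quotient.eq_zero_iff_mem.mp ha
    choose αl ql hql hqlker using hlev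
    have hymem : ∀ x, y x ∈ maximalIdeal A := by
      intro x
      rw [mem_maximalIdeal, mem_nonunits_iff]
      intro hu
      have h2 := hu.map (ql 0)
      rw [hql 0 x] at h2
      exact (mem_maximalIdeal _).mp ((αl 0).y_mem x) h2
    let evy : MvPowerSeries S 𝒪 →ₐ[𝒪] A := PS.evalHom (fun s : S => y s) (fun s => hymem s)
    have hevyX : ∀ s : S, evy (MvPowerSeries.X s) = y s := fun s => PS.evalHom_X _ _ s
    have hlevel : ∀ n a, ql n (evy a) = (αl n).ev S a :=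
      fun n a => level_eq S y evy hevyX (αl n) (ql n) (hql n) a
    have hker : ∀ a ∈ J, evy a = 0 := by
      intro a ha
      apply eq_zero_of_forall_mem_pow_succ (maximalIdeal A)
      intro n
      apply hqlker n
      rw [hlevel, (hJmem a).mp ha]
    let φ : (MvPowerSeries S 𝒪 ⧸ J) →ₐ[𝒪] A := Ideal.Quotient.liftₐ J evy hker
    have hφmk : ∀ a, φ (Ideal.Quotient.mk J a) = evy a := fun a => rfl
    have hφu : ∀ x, φ (Ideal.Quotient.mk J (p x)) = y x := by
      intro x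
      rw [hφmk, ← sub_eq_zero]
      apply eq_zero_of_forall_mem_pow_succ (maximalIdeal A)
      intro n
      apply hqlker n
      rw [map_sub, hlevel, hp, hql, sub_self]
    refine ⟨φ, TangentGen.isLocalHom_of_residue_surjective hresA φ, hφu, fun φ' hφ' => ?_⟩
    apply Cpl.quot_algHom_ext_of_X' J hresA φ' φ
    intro s
    rw [hXu, hφ' s, hφu]

end Main

end Fermat.Agent.S53.ProRep
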