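import Fermat.Agent.S53.ProRepB
import Fermat.Agent.S53.ProRepDefs
import Fermat.Agent.S53.Final

/-!
# From abstract pro-representability to the universal deformation ring
-/

set_option autoImplicit false
set_option linter.unusedSectionVars false
set_option linter.style.haveILetI false
set_option linter.unusedVariables false

open IsLocalRing GaloisRep

namespace Fermat.Agent.S53.ProRepB

open Fermat.Agent.S53 Fermat.Agent.S53.PS Fermat.Agent.S53.Cpl Fermat.Agent.S53.TestAlgebra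
open Fermat.Agent.S53.TangentGen Fermat.Agent.S53.Assembly

section Data

variable {𝒪 : Type} [CommRing 𝒪] [IsLocalRing 𝒪] [IsNoetherianRing 𝒪]
  [IsAdicComplete (maximalIdeal 𝒪) 𝒪] [Finite (ResidueField 𝒪)]
variable {X : Type}
variable {F : ∀ (A : Type) [CommRing A] [IsLocalRing A] [Algebra 𝒪 A], (X → A) → Prop}

/-- Abstract pro-representability, packaged as `ProRepData`. -/
theorem nonempty_proRepData (H : FunctorHyp F) : Nonempty (ProRep.ProRepData 𝒪 X F) := by
  obtain ⟨R, _, _, _, _, _, _, hres, u, U1, U2⟩ := exists_proRep H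
  haveI : Finite (ResidueField R) := finite_residueField hres
  have hfin : ∀ n : ℕ, Finite (R ⧸ maximalIdeal R ^ n) :=
    fun n => finite_quotient_maximalIdeal_pow R n
  have hmem : ∀ x, u x ∈ maximalIdeal R := by
    intro x
    letI : IsLocalRing (R ⧸ maximalIdeal R ^ (0 + 1)) :=
      isLocalRing_quotient_maximalIdeal_pow_succ 0
    have hB : IsArtinianTestAlgebra 𝒪 (R ⧸ maximalIdeal R ^ (0 + 1)) :=
      quotient_maximalIdeal_pow inferInstance hres (0 + 1)
    have hq : IsLocalHom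
        ((Ideal.Quotient.mkₐ 𝒪 (maximalIdeal R ^ (0 + 1)) :
          R →ₐ[𝒪] R ⧸ maximalIdeal R ^ (0 + 1)) : R →+* R ⧸ maximalIdeal R ^ (0 + 1)) := by
      refine IsLocalHom.of_surjective _ ?_
      exact Ideal.Quotient.mkₐ_surjective 𝒪 _
    have h1 := H.mem_max _ hB _ (U2 _ hB (Ideal.Quotient.mkₐ 𝒪 (maximalIdeal R ^ (0 + 1))) hq) x
    rw [mem_maximalIdeal, mem_nonunits_iff] at h1 ⊢
    intro hu
    exact h1 (hu.map (Ideal.Quotient.mkₐ 𝒪 (maximalIdeal R ^ (0 + 1))))
  refine ⟨{ R := R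
            residue_surjective := hres
            finite_quotient := hfin
            u := u
            u_mem := hmem
            map_mem := fun B _ _ _ hB q hq => U2 B hB q hq
            lift := ?_ }⟩
  intro A _ _ _ _ _ _ hA y hy
  obtain ⟨φ, ⟨hφ, h1⟩, h2⟩ := U1 A hA y hy
  refine ⟨φ, hφ, h1, fun φ' h' => h2 φ' ⟨?_, h'⟩⟩
  exact isLocalHom_of_residue_surjective hA φ'

end Data

section ND

variable {𝒪 : Type} [CommRing 𝒪] [IsLocalRing 𝒪] [Finite (ResidueField 𝒪)]
variable {𝒟 : ∀ ⦃A : Type⦄ [CommRing A] [IsLocalRing A] [Algebra 𝒪 A], GaloisRepAdic A → Prop}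

/-- The functor of normalised deformations satisfies the hypotheses of `exists_proRep`. -/
theorem functorHyp_ndFunctor (h𝒟 : IsDeformationCondition 𝒪 𝒟)
    {ρbar : ResidualGaloisRep (ResidueField 𝒪)}
    {v : Module.Basis (Fin 2) (ResidueField 𝒪) ρbar.V}
    (hbar : 𝒟 (GaloisRepAdic.ofResidualGaloisRep ρbar))
    (hfin : TangentFinite 𝒪 ρbar 𝒟)
    (D : NormData 𝒪) (hc : IsMatLiftOf ρbar v D.c) :
    FunctorHyp (𝒪 := 𝒪) (X := Idx) (NDFunctor D 𝒟) where
  mem_max := fun _ _ _ _ _ _ h x => NDFam.mem_maximalIdeal h x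
  map := fun _ _ _ _ _ _ _ _ hA hB φ hφ _ h => NDFam.map h𝒟 hA hB φ hφ h
  of_pair := fun _ _ _ _ _ _ _ _ _ _ _ _ hP hA hB pA pB hpA hpB hinj _ h1 h2 =>
    NDFam.of_pair h𝒟 hP hA hB pA pB hpA hpB hinj h1 h2
  tangent := NDFam.finite_dualNumber hfin D hc
  point := ⟨ResidueField 𝒪, inferInstance, inferInstance, inferInstance,
    isArtinianTestAlgebra_residueField, fun _ => 0, NDFam.residual_zero h𝒟 hbar D hc⟩

end ND

/-- **Existence of the universal deformation ring.** -/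
theorem nonempty_deformationRingData
    (𝒪 : Type) [CommRing 𝒪] [IsDomain 𝒪] [IsDiscreteValuationRing 𝒪]
    [IsAdicComplete (IsLocalRing.maximalIdeal 𝒪) 𝒪] [Finite (IsLocalRing.ResidueField 𝒪)]
    (ρbar : ResidualGaloisRep (IsLocalRing.ResidueField 𝒪))
    (𝒟 : ∀ ⦃A : Type⦄ [CommRing A] [IsLocalRing A] [Algebra 𝒪 A], GaloisRepAdic A → Prop)
    (habs : ρbar.IsAbsolutelyIrreducible)
    (h𝒟 : GaloisRep.IsDeformationCondition 𝒪 𝒟)
    (hbar : 𝒟 (GaloisRepAdic.ofResidualGaloisRep ρbar))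
    (hfin : GaloisRep.TangentFinite 𝒪 ρbar 𝒟) :
    Nonempty (GaloisRep.DeformationRingData 𝒪 ρbar 𝒟) := by
  obtain ⟨v, D, hc⟩ := exists_normData (𝒪 := 𝒪) ρbar (burnside_span_eq_top ρbar habs)
  obtain ⟨P⟩ := nonempty_proRepData (functorHyp_ndFunctor h𝒟 hbar hfin D hc)
  exact nonempty_deformationRingData_of_proRepData habs h𝒟 D hc P

end Fermat.Agent.S53.ProRepB
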